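import Fermat.Agent.ArtinReciprocity.LocalIndex
import Fermat.Agent.ArtinReciprocity.Norms

/-!
# Powers near one at a prime of a field with roots of unity

For a prime number `p`, a field containing the `p`-th roots of unity and a prime `v`: the index of
the `p`-th powers times the units near `1`, its stability at deep levels, and the behaviour of a
`p`-th root of such elements under the decomposition and inertia groups.
-/

set_option autoImplicit false
set_option linter.unusedSectionVars false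
set_option linter.style.haveILetI false

noncomputable section

open NumberField IsDedekindDomain Finset WithZero
open scoped Pointwise nonZeroDivisors Classical

namespace FA.ArtinRec

section valuation

variable {M : Type*} [Field M] {Γ₀ : Type*} [LinearOrderedCommGroupWithZero Γ₀]
  (val : Valuation M Γ₀) {p : ℕ} {ζ : M}

theorem valuation_eq_one_of_pow_eq_one (hp : p ≠ 0) {x : M} (hx : x ^ p = 1) : val x = 1 := by
  have h := congrArg val hx
  rw [map_pow, map_one] at h
  exact (pow_eq_one_iff.1 h).resolve_right hp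

theorem valuation_one_sub_pow_le (hζ : IsPrimitiveRoot ζ p) (hp : p ≠ 0) (j : ℕ) :
    val (1 - ζ ^ j) ≤ val (1 - ζ) := by
  rw [← mul_neg_geom_sum ζ j, map_mul]
  refine mul_le_of_le_one_right' (Valuation.map_sum_le val fun i _ => ?_)
  rw [map_pow, valuation_eq_one_of_pow_eq_one val hp hζ.pow_eq_one, one_pow]

theorem valuation_one_sub_pow (hp : p.Prime) (hζ : IsPrimitiveRoot ζ p) {j : ℕ} (hj : ¬ p ∣ j) :
    val (1 - ζ ^ j) = val (1 - ζ) := by
  refine le_antisymm (valuation_one_sub_pow_le val hζ hp.ne_zero j) ?_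
  have h' : IsPrimitiveRoot (ζ ^ j) p :=
    hζ.pow_of_coprime j ((hp.coprime_iff_not_dvd.2 hj).symm)
  haveI : NeZero p := ⟨hp.ne_zero⟩
  obtain ⟨i, -, hi⟩ := h'.eq_pow_of_pow_eq_one hζ.pow_eq_one
  conv_lhs => rw [← hi]
  exact valuation_one_sub_pow_le val h' hp.ne_zero i

theorem prod_valuation_one_sub (hp : p.Prime) (hζ : IsPrimitiveRoot ζ p) :
    val (1 - ζ) ^ (p - 1) = val (p : M) := by
  obtain ⟨n, rfl⟩ := Nat.exists_eq_succ_of_ne_zero hp.ne_zero
  rw [Nat.succ_eq_add_one, Nat.cast_add, Nat.cast_one, ← hζ.prod_one_sub_pow_eq_order, map_prod,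
    Finset.prod_congr rfl fun k hk => valuation_one_sub_pow val hp hζ
      (j := k + 1) (Nat.not_dvd_of_pos_of_lt k.succ_pos (by simp at hk; omega)), Finset.prod_const,
    Finset.card_range, Nat.add_sub_cancel]

/-- **An approximate root of unity is near a root of unity.** -/
theorem exists_root_near (hp : p.Prime) (hζ : IsPrimitiveRoot ζ p) (x : M) :
    ∃ i : ℕ, val (x - ζ ^ i) * val (p : M) ≤ val (x ^ p - 1) := by
  obtain ⟨i, hi, hmin⟩ := Finset.exists_min_image (Finset.range p) (fun i => val (x - ζ ^ i))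
    ⟨0, Finset.mem_range.2 hp.pos⟩
  refine ⟨i, ?_⟩
  have hne : ∀ j ∈ (Finset.range p).erase i, val (ζ ^ i - ζ ^ j) = val (1 - ζ) ∧
      val (ζ ^ i - ζ ^ j) ≤ val (x - ζ ^ j) := by
    intro j hj
    obtain ⟨hji, hjr⟩ := Finset.mem_erase.1 hj
    constructor
    · have hval : ∀ k : ℕ, val (ζ ^ k) = 1 := fun k => by
        rw [map_pow, valuation_eq_one_of_pow_eq_one val hp.ne_zero hζ.pow_eq_one, one_pow]
      have hlt : ∀ a b : ℕ, a < b → b < p → val (ζ ^ a - ζ ^ b) = val (1 - ζ) := fun a b hab hb => by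
        rw [show ζ ^ a - ζ ^ b = ζ ^ a * (1 - ζ ^ (b - a)) by
          rw [mul_sub, mul_one, ← pow_add, Nat.add_sub_cancel' hab.le], map_mul, hval, one_mul,
          valuation_one_sub_pow val hp hζ (Nat.not_dvd_of_pos_of_lt (by omega) (by omega))]
      rcases lt_or_gt_of_ne hji with h | h
      · rw [Valuation.map_sub_swap]
        exact hlt j i h (Finset.mem_range.1 hi)
      · exact hlt i j h (Finset.mem_range.1 hjr)
    · rw [show ζ ^ i - ζ ^ j = (x - ζ ^ j) - (x - ζ ^ i) by ring]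
      exact (val.map_sub _ _).trans (max_le le_rfl (hmin j hjr))
  have hprod : x ^ p - 1 = ∏ j ∈ Finset.range p, (x - ζ ^ j) := by
    have h := congrArg (Polynomial.eval x) (X_pow_sub_C_eq_prod hζ hp.pos (one_pow p))
    simpa [Polynomial.eval_prod] using h
  rw [hprod, map_prod, ← Finset.mul_prod_erase _ _ hi]
  refine mul_le_mul' le_rfl ?_
  calc val (p : M) = ∏ j ∈ (Finset.range p).erase i, val (ζ ^ i - ζ ^ j) := by
        rw [Finset.prod_congr rfl fun j hj => (hne j hj).1, Finset.prod_const,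
          Finset.card_erase_of_mem hi, Finset.card_range, prod_valuation_one_sub val hp hζ]
    _ ≤ _ := Finset.prod_le_prod (fun _ _ => zero_le) fun j hj => (hne j hj).2

/-- The power of an element near one. -/
theorem valuation_pow_sub_one_le (hp : p.Prime) (hζ : IsPrimitiveRoot ζ p) {x : M} {C : Γ₀}
    (hx : val (x - 1) ≤ C) (hC : C ≤ val (1 - ζ)) : val (x ^ p - 1) ≤ C * val (p : M) := by
  have hprod : x ^ p - 1 = ∏ j ∈ Finset.range p, (x - ζ ^ j) := by
    have h := congrArg (Polynomial.eval x) (X_pow_sub_C_eq_prod hζ hp.pos (one_pow p))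
    simpa [Polynomial.eval_prod] using h
  have h0 : (0 : ℕ) ∈ Finset.range p := Finset.mem_range.2 hp.pos
  rw [hprod, map_prod, ← Finset.mul_prod_erase _ _ h0, pow_zero]
  refine mul_le_mul' hx ?_
  rw [← prod_valuation_one_sub val hp hζ,
    show p - 1 = ((Finset.range p).erase 0).card by
      rw [Finset.card_erase_of_mem h0, Finset.card_range], ← Finset.prod_const]
  refine Finset.prod_le_prod (fun _ _ => zero_le) fun j hj => ?_
  obtain ⟨hj0, hjr⟩ := Finset.mem_erase.1 hj
  rw [show x - ζ ^ j = (x - 1) + (1 - ζ ^ j) by ring]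
  exact (val.map_add _ _).trans (max_le (hx.trans hC)
    (valuation_one_sub_pow val hp hζ (Nat.not_dvd_of_pos_of_lt (Nat.pos_of_ne_zero hj0)
      (Finset.mem_range.1 hjr))).le)

end valuation

variable {K : Type*} [Field K] [NumberField K] (v : HeightOneSpectrum (𝓞 K)) (p : ℕ)

/-- The units at `v` congruent to `1` modulo `v ^ k`. -/
def nearUnits (k : ℕ) : Subgroup Kˣ where
  carrier := {x | ord v x = 0 ∧ v.valuation K ((x : K) - 1) ≤ exp (-(k : ℤ))}
  one_mem' := ⟨ord_one v, by simp⟩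
  mul_mem' {x y} hx hy := by
    refine ⟨by rw [ord_mul, hx.1, hy.1, add_zero], ?_⟩
    rw [Units.val_mul, show (x : K) * y - 1 = ((x : K) - 1) * y + ((y : K) - 1) by ring]
    refine (Valuation.map_add _ _ _).trans (max_le ?_ hy.2)
    rw [map_mul, valuation_eq_exp v y, hy.1, neg_zero, exp_zero, mul_one]
    exact hx.2
  inv_mem' {x} hx := by
    refine ⟨by rw [ord_inv, hx.1, neg_zero], ?_⟩
    rw [Units.val_inv_eq_inv_val, show (x : K)⁻¹ - 1 = -(((x : K) - 1) * (x : K)⁻¹) by
      field_simp; ring, Valuation.map_neg, map_mul, map_inv₀, valuation_eq_exp v x, hx.1, neg_zero,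
      exp_zero, inv_one, mul_one]
    exact hx.2

theorem mem_nearUnits {k : ℕ} {x : Kˣ} :
    x ∈ nearUnits v k ↔ ord v x = 0 ∧ v.valuation K ((x : K) - 1) ≤ exp (-(k : ℤ)) := Iff.rfl

theorem mem_nearUnits_of_le {k : ℕ} (hk : 1 ≤ k) {x : Kˣ}
    (h : v.valuation K ((x : K) - 1) ≤ exp (-(k : ℤ))) : x ∈ nearUnits v k := by
  refine ⟨?_, h⟩
  rw [ord_eq_iff, neg_zero, exp_zero, show (x : K) = ((x : K) - 1) + 1 by ring]
  rw [Valuation.map_add_eq_of_lt_right _ (by
    rw [map_one, ← exp_zero]; exact h.trans_lt (exp_lt_exp.2 (by omega))), map_one]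

theorem nearUnits_antitone {a b : ℕ} (h : a ≤ b) : nearUnits v b ≤ nearUnits (K := K) v a :=
  fun _ hx => ⟨hx.1, hx.2.trans (exp_le_exp.2 (by omega))⟩

theorem mem_nearUnits_zero {x : Kˣ} : x ∈ nearUnits v 0 ↔ ord v x = 0 := by
  refine ⟨fun h => h.1, fun h => ⟨h, ?_⟩⟩
  refine (Valuation.map_sub _ _ _).trans (max_le ?_ (by simp))
  rw [valuation_eq_exp, h]
  simp

theorem div_mem_nearUnits {k : ℕ} {x y : Kˣ} (hx : ord v x = 0) (hy : ord v y = 0) :
    x / y ∈ nearUnits v k ↔ v.valuation K ((x : K) - y) ≤ exp (-(k : ℤ)) := by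
  rw [mem_nearUnits, ord_div, hx, hy, sub_zero, and_iff_right rfl, Units.val_div_eq_div_val,
    div_sub_one y.ne_zero, map_div₀, valuation_eq_exp v y, hy, neg_zero, exp_zero, div_one]

theorem valuation_coe_le_iff (z : 𝓞 K) (k : ℕ) :
    v.valuation K (z : K) ≤ exp (-(k : ℤ)) ↔ z ∈ v.asIdeal ^ k := by
  rw [← v.intValuation_le_pow_iff_mem, ← v.valuation_of_algebraMap (K := K)]

theorem exists_near_int {x : Kˣ} (hx : ord v x = 0) (k : ℕ) :
    ∃ n : 𝓞 K, v.valuation K ((n : K) - x) ≤ exp (-(k : ℤ)) := by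
  obtain ⟨n, hn⟩ := v.exists_valuation_sub_lt_of_integer (x := (x : K))
    (by rw [valuation_eq_exp, hx]; simp) (Units.mk0 _ (exp_ne_zero (a := -(k : ℤ))))
  exact ⟨n, hn.le⟩

/-- The units modulo a power of `v` are finite in number. -/
theorem relIndex_nearUnits_ne_zero (k : ℕ) :
    (nearUnits (K := K) v k).relIndex (nearUnits v 0) ≠ 0 := by
  haveI : Finite (𝓞 K ⧸ v.asIdeal ^ k) :=
    Ideal.finiteQuotientOfFreeOfNeBot _ (pow_ne_zero _ v.ne_bot)
  choose n hn using fun x : nearUnits (K := K) v 0 =>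
    exists_near_int v ((mem_nearUnits_zero v).1 x.2) k
  haveI : Finite (nearUnits (K := K) v 0 ⧸ (nearUnits v k).subgroupOf (nearUnits v 0)) := by
    refine Finite.of_injective (fun c => Ideal.Quotient.mk (v.asIdeal ^ k) (n c.out)) fun a b h => ?_
    rw [← QuotientGroup.out_eq' a, ← QuotientGroup.out_eq' b, QuotientGroup.eq_iff_div_mem,
      Subgroup.mem_subgroupOf, Subgroup.coe_div,
      div_mem_nearUnits v ((mem_nearUnits_zero v).1 a.out.2) ((mem_nearUnits_zero v).1 b.out.2)]
    have h' := Ideal.Quotient.eq.1 h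
    rw [← valuation_coe_le_iff] at h'
    push_cast at h'
    rw [show ((a.out : Kˣ) : K) - ((b.out : Kˣ) : K) =
      (((a.out : Kˣ) : K) - (n a.out : K)) + (((n a.out : K) - (n b.out : K)) +
        ((n b.out : K) - ((b.out : Kˣ) : K))) by ring]
    refine (Valuation.map_add _ _ _).trans (max_le ?_
      ((Valuation.map_add _ _ _).trans (max_le h' (hn b.out))))
    rw [Valuation.map_sub_swap]
    exact hn a.out
  exact Nat.card_pos.ne'

/-- **The index of one level of congruence in another.** -/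
theorem relIndex_nearUnits {a b : ℕ} (ha : 1 ≤ a) (hab : a ≤ b) :
    (nearUnits (K := K) v b).relIndex (nearUnits v a) =
      Ideal.absNorm v.asIdeal ^ (b - a) := by
  set I : Ideal (𝓞 K) := v.asIdeal ^ a
  set J : Ideal (𝓞 K) := v.asIdeal ^ b
  have hle : J ≤ I := Ideal.pow_le_pow_right hab
  choose z hz hzm using fun m : Submodule.map (Submodule.mkQ J) I => Submodule.mem_map.1 m.2
  have hval : ∀ m, v.valuation K (z m : K) ≤ exp (-(a : ℤ)) := fun m =>
    (valuation_coe_le_iff v _ _).2 (hz m)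
  have hne : ∀ m, (1 : K) + z m ≠ 0 := fun m h => by
    have h1 := hval m
    rw [← eq_neg_of_add_eq_zero_right h |>.symm, Valuation.map_neg, map_one, ← exp_zero,
      exp_le_exp] at h1
    omega
  let f : Submodule.map (Submodule.mkQ J) I →
      nearUnits (K := K) v a ⧸ (nearUnits v b).subgroupOf (nearUnits v a) := fun m =>
    QuotientGroup.mk ⟨Units.mk0 _ (hne m), mem_nearUnits_of_le v ha (by
      rw [Units.val_mk0, add_sub_cancel_left]; exact hval m)⟩
  have hf : ∀ m (x : nearUnits (K := K) v a), f m = QuotientGroup.mk x ↔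
      v.valuation K ((1 : K) + z m - (x : Kˣ)) ≤ exp (-(b : ℤ)) := fun m x => by
    rw [QuotientGroup.eq_iff_div_mem, Subgroup.mem_subgroupOf, Subgroup.coe_div,
      div_mem_nearUnits v (mem_nearUnits_of_le v ha (by
        rw [Units.val_mk0, add_sub_cancel_left]; exact hval m)).1 x.2.1]
    rfl
  have hbij : Function.Bijective f := by
    refine ⟨fun m m' h => Subtype.ext ?_, fun c => ?_⟩
    · have h1 := (hf m _).1 h
      rw [Units.val_mk0, add_sub_add_left_eq_sub] at h1
      rw [← hzm m, ← hzm m', Submodule.mkQ_apply, Submodule.mkQ_apply, Submodule.Quotient.eq]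
      exact (valuation_coe_le_iff v _ _).1 (by push_cast; exact h1)
    · obtain ⟨x, rfl⟩ := QuotientGroup.mk_surjective c
      obtain ⟨n, hn⟩ := exists_near_int v x.2.1 b
      have hnI : n - 1 ∈ I := by
        rw [← valuation_coe_le_iff]
        push_cast
        rw [show (n : K) - 1 = ((n : K) - (x : Kˣ)) + (((x : Kˣ) : K) - 1) by ring]
        exact (Valuation.map_add _ _ _).trans
          (max_le (hn.trans (exp_le_exp.2 (by omega))) x.2.2)
      set m : Submodule.map (Submodule.mkQ J) I := ⟨_, n - 1, hnI, rfl⟩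
      refine ⟨m, (hf m x).2 ?_⟩
      have h1 : z m - (n - 1) ∈ J := (Submodule.Quotient.eq J).1 (hzm m)
      rw [← valuation_coe_le_iff] at h1
      push_cast at h1
      rw [show (1 : K) + z m - ((x : Kˣ) : K) =
        ((z m : K) - ((n : K) - 1)) + ((n : K) - (x : Kˣ)) by ring]
      exact (Valuation.map_add _ _ _).trans (max_le h1 hn)
  have h := Submodule.card_quotient_mul_card_quotient I J hle
  rw [Nat.card_eq_of_bijective f hbij, ← Submodule.cardQuot_apply, ← Submodule.cardQuot_apply,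
    cardQuot_pow_of_prime v.ne_bot, cardQuot_pow_of_prime v.ne_bot] at h
  rw [Ideal.absNorm_apply]
  have hq : 0 < Submodule.cardQuot v.asIdeal := Nat.pos_of_ne_zero fun h0 =>
    Ideal.absNorm_eq_zero_iff.not.2 v.ne_bot ((Ideal.absNorm_apply _).trans h0)
  refine Nat.eq_of_mul_eq_mul_right (pow_pos hq a) ?_
  rw [← pow_add, Nat.sub_add_cancel hab, ← h]
  rfl

/-- `p`-th powers times the units near `1`. -/
def powSub (k : ℕ) : Subgroup Kˣ := nearUnits v k ⊔ (powMonoidHom p : Kˣ →* Kˣ).range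

theorem mem_powSub {k : ℕ} {x : Kˣ} :
    x ∈ powSub v p k ↔ ∃ a ∈ nearUnits v k, ∃ b : Kˣ, a * b ^ p = x := by
  rw [powSub, Subgroup.mem_sup]
  exact exists_congr fun a => and_congr_right fun _ =>
    ⟨fun ⟨_, ⟨b, rfl⟩, h⟩ => ⟨b, h⟩, fun ⟨b, h⟩ => ⟨_, ⟨b, rfl⟩, h⟩⟩

theorem pow_mem_powSub (k : ℕ) (x : Kˣ) : x ^ p ∈ powSub v p k :=
  le_sup_right (a := nearUnits v k) ⟨x, rfl⟩

theorem powSub_antitone {a b : ℕ} (h : a ≤ b) : powSub (K := K) v p b ≤ powSub v p a :=
  sup_le_sup_right (nearUnits_antitone v h) _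

variable [hp : Fact p.Prime]

theorem mem_powSub_zero {x : Kˣ} : x ∈ powSub v p 0 ↔ (p : ℤ) ∣ ord v x := by
  rw [mem_powSub]
  constructor
  · rintro ⟨a, ha, b, rfl⟩
    rw [ord_mul, ha.1, ord_pow, zero_add]
    exact dvd_mul_right _ _
  · rintro ⟨m, hm⟩
    obtain ⟨π, hπ⟩ := exists_ord_eq_one v
    refine ⟨x / (π ^ m) ^ p, (mem_nearUnits_zero v).2 ?_, π ^ m, div_mul_cancel _ _⟩
    rw [ord_div, ord_pow, ord_zpow, hπ, mul_one, hm, sub_self]

theorem index_powSub_zero : (powSub (K := K) v p 0).index = p := by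
  let g : Kˣ →* Multiplicative (ZMod p) :=
    MonoidHom.mk' (fun a => Multiplicative.ofAdd (ord v a : ZMod p)) fun a b => by
      rw [ord_mul, Int.cast_add, ofAdd_add]
  have hg : g.ker = powSub v p 0 := by
    ext a
    rw [MonoidHom.mem_ker, mem_powSub_zero, ← ZMod.intCast_zmod_eq_zero_iff_dvd]
    exact ⟨fun h => congrArg Multiplicative.toAdd h, fun h => congrArg Multiplicative.ofAdd h⟩
  rw [← hg, Subgroup.index_ker, MonoidHom.range_eq_top.2 fun y => ?_,
    Nat.card_congr Subgroup.topEquiv.toEquiv, Nat.card_congr Multiplicative.toAdd, Nat.card_zmod]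
  obtain ⟨j, hj⟩ := ZMod.intCast_surjective (Multiplicative.toAdd y)
  obtain ⟨π, hπ⟩ := exists_ord_eq_one v
  refine ⟨π ^ j, Multiplicative.toAdd.injective ?_⟩
  show ((ord v (π ^ j) : ℤ) : ZMod p) = _
  rw [ord_zpow, hπ, mul_one, hj]

/-- The index in terms of the roots near `1`. -/
theorem index_powSub_eq (k : ℕ) :
    (powSub (K := K) v p k).index =
      p * (nearUnits v k).relIndex (nearUnits v 0 ⊓ (nearUnits v k).comap (powMonoidHom p)) := by
  set A : Subgroup Kˣ := nearUnits v 0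
  set B : Subgroup Kˣ := nearUnits v k
  set f : Kˣ →* Kˣ := powMonoidHom p
  set S : Subgroup Kˣ := A ⊓ B.comap f
  have hBA : B ≤ A := nearUnits_antitone v (Nat.zero_le k)
  have hfA : A.map f ≤ A := by
    rintro _ ⟨x, hx, rfl⟩
    exact pow_mem hx p
  have hBS : B ≤ S := le_inf hBA fun x hx => pow_mem hx p
  rw [← Subgroup.relIndex_mul_index (powSub_antitone v p (Nat.zero_le k)), index_powSub_zero,
    mul_comm]
  congr 1
  have h1 : powSub v p k ⊓ A = B ⊔ A.map f := by
    refine le_antisymm ?_ (le_inf (sup_le le_sup_left ?_) (sup_le hBA hfA))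
    · rintro x ⟨hx, hxA⟩
      obtain ⟨a, ha, b, rfl⟩ := (mem_powSub v p).1 hx
      refine Subgroup.mul_mem_sup ha ⟨b, (mem_nearUnits_zero v).2 ?_, rfl⟩
      have h := (mem_nearUnits_zero v).1 hxA
      rw [ord_mul, ha.1, ord_pow, zero_add] at h
      exact (mul_eq_zero.1 h).resolve_left (Nat.cast_ne_zero.2 hp.out.ne_zero)
    · exact (Subgroup.map_le_range f A).trans le_sup_right
  have h2 : (powSub v p k).relIndex (powSub v p 0) = (B ⊔ A.map f).relIndex A := by
    rw [← h1, Subgroup.inf_relIndex_right]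
    conv_lhs => rw [show powSub v p 0 = A ⊔ powSub v p k from le_antisymm
      (sup_le le_sup_left (le_sup_right.trans le_sup_right))
      (sup_le le_sup_left (powSub_antitone v p (Nat.zero_le k)))]
    rw [Subgroup.relIndex_sup_right]
  have e1 := Subgroup.relIndex_mul_relIndex B (B ⊔ A.map f) A le_sup_left (sup_le hBA hfA)
  have e2 := Subgroup.relIndex_mul_relIndex B S A hBS inf_le_left
  have e3 : B.relIndex (B ⊔ A.map f) = S.relIndex A := by
    rw [sup_comm, Subgroup.relIndex_sup_right, Subgroup.inf_relIndex_left, Subgroup.relIndex_comap]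
  rw [e3, ← e2, mul_comm (B.relIndex S)] at e1
  refine h2.trans (Nat.eq_of_mul_eq_mul_left (Nat.pos_of_ne_zero fun h0 => ?_) e1)
  rw [h0, mul_zero] at e2
  exact relIndex_nearUnits_ne_zero v k e2.symm

omit hp in
/-- The valuation of a nonzero integer. -/
theorem valuation_coe_eq {z : 𝓞 K} (hz : z ≠ 0) :
    v.valuation K (z : K) = exp (-(ordI v (Ideal.span {z}) : ℤ)) := by
  rw [← ord_intU_eq_ordI v hz, ← valuation_eq_exp]
  rfl

/-- The order of `p` at `v`. -/
def pExp : ℕ := ordI v (Ideal.span {(p : 𝓞 K)})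

/-- The order of `1 - ζ` at `v`. -/
def zExp (ζ : 𝓞 K) : ℕ := ordI v (Ideal.span {1 - ζ})

theorem valuation_natCast : v.valuation K (p : K) = exp (-(pExp (K := K) v p : ℤ)) := by
  rw [pExp, ← valuation_coe_eq v (Nat.cast_ne_zero.2 hp.out.ne_zero)]
  simp

theorem pExp_eq_zero (h : (p : 𝓞 K) ∉ v.asIdeal) : pExp v p = 0 :=
  (ordI_eq_zero_iff v).2 (by rwa [Ideal.dvd_span_singleton])

variable {ζ : 𝓞 K} (hζ : IsPrimitiveRoot (ζ : K) p)
include hζ

theorem one_sub_ne_zero : (1 : 𝓞 K) - ζ ≠ 0 := fun h =>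
  hζ.ne_one hp.out.one_lt (by rw [← sub_eq_zero.1 h]; rfl)

theorem valuation_one_sub : v.valuation K (1 - (ζ : K)) = exp (-(zExp v ζ : ℤ)) := by
  rw [zExp, ← valuation_coe_eq v (one_sub_ne_zero p hζ)]
  push_cast
  rfl

theorem pExp_eq : pExp v p = (p - 1) * zExp v ζ := by
  have h := prod_valuation_one_sub (v.valuation K) hp.out hζ
  rw [valuation_one_sub v p hζ, valuation_natCast v p, ← exp_nsmul, exp_inj, Int.nsmul_eq_mul,
    mul_neg, neg_inj] at h
  exact_mod_cast h.symm

theorem zExp_le_pExp : zExp v ζ ≤ pExp v p := by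
  rw [pExp_eq v p hζ]
  exact Nat.le_mul_of_pos_left _ (by have := hp.out.two_le; omega)

theorem mul_zExp : p * zExp v ζ = pExp v p + zExp v ζ := by
  rw [pExp_eq v p hζ, ← Nat.succ_mul, Nat.succ_eq_add_one, Nat.sub_add_cancel hp.out.one_le]

/-- The roots at the level `p * c`, `c` the order of `1 - ζ`. -/
theorem powRoots_zExp (hc : 1 ≤ zExp v ζ) :
    nearUnits v 0 ⊓ (nearUnits v (p * zExp v ζ)).comap (powMonoidHom p : Kˣ →* Kˣ) =
      nearUnits v (zExp v ζ) := by
  refine le_antisymm ?_ fun x hx => ⟨(mem_nearUnits_zero v).2 hx.1, ?_⟩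
  · rintro x ⟨-, hxp⟩
    obtain ⟨i, hi⟩ := exists_root_near (v.valuation K) hp.out hζ (x : K)
    have h := hxp.2
    rw [powMonoidHom_apply, Units.val_pow_eq_pow_val, mul_zExp v p hζ, Nat.cast_add] at h
    replace h := hi.trans h
    rw [valuation_natCast v p, neg_add_rev, exp_add] at h
    replace h := le_of_mul_le_mul_right h (zero_lt_iff.2 exp_ne_zero)
    refine mem_nearUnits_of_le v hc ?_
    rw [show (x : K) - 1 = ((x : K) - (ζ : K) ^ i) - (1 - (ζ : K) ^ i) by ring]
    refine (Valuation.map_sub _ _ _).trans (max_le h ?_)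
    rw [← valuation_one_sub v p hζ]
    exact valuation_one_sub_pow_le _ hζ hp.out.ne_zero i
  · refine ⟨by rw [powMonoidHom_apply, ord_pow, hx.1, mul_zero], ?_⟩
    rw [powMonoidHom_apply, Units.val_pow_eq_pow_val, mul_zExp v p hζ, Nat.cast_add, neg_add_rev,
      exp_add, ← valuation_natCast v p]
    exact valuation_pow_sub_one_le _ hp.out hζ hx.2 (valuation_one_sub v p hζ).ge

/-- **The index at the level `p * c`.** -/
theorem index_powSub_zExp :
    (powSub (K := K) v p (p * zExp v ζ)).index =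
      p * Ideal.absNorm v.asIdeal ^ pExp v p := by
  rcases Nat.eq_zero_or_pos (zExp v ζ) with h | h
  · rw [h, mul_zero, index_powSub_zero, pExp_eq v p hζ, h, mul_zero, pow_zero, mul_one]
  · rw [index_powSub_eq, powRoots_zExp v p hζ h, mul_zExp v p hζ,
      relIndex_nearUnits v h (Nat.le_add_left _ _), Nat.add_sub_cancel]

/-- The nonzero `ζ`. -/
theorem orderOf_zetaU : orderOf (Units.mk0 (ζ : K) (hζ.ne_zero hp.out.ne_zero)) = p := by
  rw [← orderOf_units, Units.val_mk0, ← hζ.eq_orderOf]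

/-- **The index at a deep level.** -/
theorem index_powSub_deep {k : ℕ} (hk : 2 * pExp v p + 1 ≤ k) :
    (powSub (K := K) v p k).index = p * (p * Ideal.absNorm v.asIdeal ^ pExp v p) := by
  rw [index_powSub_eq]
  congr 1
  set e := pExp v p with he
  set ζU : Kˣ := Units.mk0 (ζ : K) (hζ.ne_zero hp.out.ne_zero) with hζU
  set Z : Subgroup Kˣ := Subgroup.zpowers ζU
  have hζord : ord v ζU = 0 := by
    rw [ord_eq_iff, neg_zero, exp_zero, Units.val_mk0]
    exact valuation_eq_one_of_pow_eq_one _ hp.out.ne_zero hζ.pow_eq_one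
  have hlt : exp (-((k - e : ℕ) : ℤ)) < v.valuation K (1 - (ζ : K)) := by
    rw [valuation_one_sub v p hζ, exp_lt_exp]
    have := zExp_le_pExp v p hζ
    omega
  have hS : nearUnits v 0 ⊓ (nearUnits v k).comap (powMonoidHom p : Kˣ →* Kˣ) =
      Z ⊔ nearUnits v (k - e) := by
    refine le_antisymm ?_ (sup_le ?_ fun x hx => ⟨(mem_nearUnits_zero v).2 hx.1, ?_⟩)
    · rintro x ⟨hx0, hxp⟩
      obtain ⟨i, hi⟩ := exists_root_near (v.valuation K) hp.out hζ (x : K)
      replace hi := hi.trans (hxp.2.trans_eq (show exp (-(k : ℤ)) =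
        exp (-((k - e : ℕ) : ℤ)) * exp (-(e : ℤ)) by rw [← exp_add]; congr 1; omega))
      rw [valuation_natCast v p] at hi
      replace hi := le_of_mul_le_mul_right hi (zero_lt_iff.2 exp_ne_zero)
      have hmem : x / ζU ^ i ∈ nearUnits v (k - e) := by
        rw [div_mem_nearUnits v ((mem_nearUnits_zero v).1 hx0) (by rw [ord_pow, hζord, mul_zero]),
          Units.val_pow_eq_pow_val, Units.val_mk0]
        exact hi
      rw [← mul_div_cancel (ζU ^ i) x]
      exact Subgroup.mul_mem_sup (Subgroup.pow_mem _ (Subgroup.mem_zpowers _) i) hmem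
    · rw [Subgroup.zpowers_le]
      refine ⟨(mem_nearUnits_zero v).2 hζord, ?_⟩
      show ζU ^ p ∈ nearUnits v k
      rw [show ζU ^ p = 1 from Units.ext (by simpa [hζU] using hζ.pow_eq_one)]
      exact one_mem _
    · refine ⟨by rw [powMonoidHom_apply, ord_pow, hx.1, mul_zero], ?_⟩
      rw [powMonoidHom_apply, Units.val_pow_eq_pow_val]
      refine (valuation_pow_sub_one_le _ hp.out hζ hx.2 hlt.le).trans (le_of_eq ?_)
      rw [valuation_natCast v p, ← exp_add]
      congr 1
      omega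
  have hinf : nearUnits v (k - e) ⊓ Z = ⊥ := by
    rw [eq_bot_iff]
    rintro x ⟨hx, hxZ⟩
    obtain ⟨i, rfl⟩ := (IsOfFinOrder.mem_powers_iff_mem_zpowers (show IsOfFinOrder ζU from
      orderOf_pos_iff.1 (by rw [orderOf_zetaU p hζ]; exact hp.out.pos))).2 hxZ
    rw [Subgroup.mem_bot]
    by_contra h1
    have hi : ¬ p ∣ i := fun hd => h1 (orderOf_dvd_iff_pow_eq_one.1 (by rwa [orderOf_zetaU p hζ]))
    have h := hx.2
    dsimp only at h
    rw [Units.val_pow_eq_pow_val, Units.val_mk0, Valuation.map_sub_swap,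
      valuation_one_sub_pow _ hp.out hζ hi] at h
    exact (h.trans_lt hlt).false
  rw [hS, ← Subgroup.relIndex_mul_relIndex (nearUnits v k) (nearUnits v (k - e))
    (Z ⊔ nearUnits v (k - e)) (nearUnits_antitone v (Nat.sub_le _ _)) le_sup_right,
    Subgroup.relIndex_sup_right, ← Subgroup.inf_relIndex_right (nearUnits v (k - e)), hinf,
    Subgroup.relIndex_bot_left, Nat.card_zpowers, orderOf_zetaU p hζ,
    relIndex_nearUnits v (by omega) (Nat.sub_le _ _), mul_comm]
  congr 2
  omega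

/-- **Stability at deep levels.** -/
theorem powSub_stable {k : ℕ} (hk : 2 * pExp v p + 1 ≤ k) :
    powSub (K := K) v p (2 * pExp v p + 1) = powSub v p k := by
  refine le_antisymm ?_ (powSub_antitone v p hk)
  have h := Subgroup.relIndex_mul_index (powSub_antitone (K := K) v p hk)
  rw [index_powSub_deep v p hζ hk, index_powSub_deep v p hζ le_rfl] at h
  rw [← Subgroup.relIndex_eq_one]
  refine Nat.eq_of_mul_eq_mul_right ?_ (h.trans (one_mul _).symm)
  exact Nat.mul_pos hp.out.pos (Nat.mul_pos hp.out.pos (pow_pos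
    (Nat.pos_of_ne_zero (Ideal.absNorm_eq_zero_iff.not.2 v.ne_bot)) _))

end FA.ArtinRec
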