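import Fermat.Agent.ArtinReciprocity.Crossing
import Fermat.Agent.ExistenceTheorem.LocalPowers

/-!
# Maps between ray class groups, classes positive at some places, powers

Homomorphisms out of ray class groups, the projection to a smaller modulus, the classes of the
elements congruent to `1` positive at given real places, and a criterion for a class to be a
`p`-th power times such a class.
-/

set_option autoImplicit false
set_option linter.unusedSectionVars false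
set_option linter.style.haveILetI false

noncomputable section

open NumberField NumberField.InfinitePlace IsDedekindDomain Finset WithZero
open FA.Hecke (IsRayElt coprimeIdeals rayCon RayClassGroup rayClass rayClass_eq_iff
  rayClass_surjective rayInd hasMean_rayInd hasMean_congr finite_rayClassGroup span_sup_congr)
open FA.Ext (primeIdeal)
open scoped Pointwise nonZeroDivisors Classical

namespace FA.ArtinRec

variable {K : Type*} [Field K] [NumberField K]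

/-- A homomorphism out of a ray class group. -/
def rayLift {G : Type*} [Monoid G] {𝔪 : Ideal (𝓞 K)} (h𝔪 : 𝔪 ≠ ⊥) (Φ : coprimeIdeals 𝔪 →* G)
    (hΦ : ∀ I J, rayClass h𝔪 I = rayClass h𝔪 J → Φ I = Φ J) : RayClassGroup 𝔪 →* G :=
  ((rayCon 𝔪).lift Φ fun I J h => hΦ I J ((rayClass_eq_iff h𝔪).2 h)).comp (Units.coeHom _)

theorem rayLift_apply {G : Type*} [Monoid G] {𝔪 : Ideal (𝓞 K)} (h𝔪 : 𝔪 ≠ ⊥)
    (Φ : coprimeIdeals 𝔪 →* G) (hΦ : ∀ I J, rayClass h𝔪 I = rayClass h𝔪 J → Φ I = Φ J)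
    (I : coprimeIdeals 𝔪) : rayLift h𝔪 Φ hΦ (rayClass h𝔪 I) = Φ I := by
  show (rayCon 𝔪).lift Φ (fun I J h => hΦ I J ((rayClass_eq_iff h𝔪).2 h))
    ((rayClass h𝔪 I : (rayCon 𝔪).Quotient)) = _
  rw [show ((rayClass h𝔪 I : (rayCon 𝔪).Quotientˣ) : (rayCon 𝔪).Quotient) = (rayCon 𝔪).mk' I from
    IsUnit.coe_liftRight _ _ _]
  exact Con.lift_mk' _ _

theorem coprimeIdeals_mono {𝔐 𝔪 : Ideal (𝓞 K)} (hle : 𝔐 ≤ 𝔪) :
    coprimeIdeals 𝔐 ≤ coprimeIdeals 𝔪 :=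
  fun _ hI => top_le_iff.1 (hI.symm.le.trans (sup_le_sup_left hle _))

/-- The projection to a smaller modulus. -/
def rayMap {𝔐 𝔪 : Ideal (𝓞 K)} (h𝔐 : 𝔐 ≠ ⊥) (h𝔪 : 𝔪 ≠ ⊥) (hle : 𝔐 ≤ 𝔪) :
    RayClassGroup 𝔐 →* RayClassGroup 𝔪 :=
  rayLift h𝔐 ((rayClass h𝔪).comp (Submonoid.inclusion (coprimeIdeals_mono hle))) fun I J h => by
    obtain ⟨x, y, hx, hy, hxy⟩ := (rayClass_eq_iff h𝔐).1 h
    exact (rayClass_eq_iff h𝔪).2
      ⟨x, y, ⟨hx.1, hle hx.2.1, hx.2.2⟩, ⟨hy.1, hle hy.2.1, hy.2.2⟩, hxy⟩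

theorem rayMap_apply {𝔐 𝔪 : Ideal (𝓞 K)} (h𝔐 : 𝔐 ≠ ⊥) (h𝔪 : 𝔪 ≠ ⊥) (hle : 𝔐 ≤ 𝔪)
    (I : coprimeIdeals 𝔐) :
    rayMap h𝔐 h𝔪 hle (rayClass h𝔐 I) = rayClass h𝔪 ⟨I.1, coprimeIdeals_mono hle I.2⟩ :=
  rayLift_apply _ _ _ _

/-- **A class contains infinitely many primes.** -/
theorem infinite_primes_in_class {𝔪 : Ideal (𝓞 K)} (h𝔪 : 𝔪 ≠ ⊥) (γ : RayClassGroup 𝔪) :
    {v : HeightOneSpectrum (𝓞 K) |
      ∃ hv : v.asIdeal ⊔ 𝔪 = ⊤, rayClass h𝔪 ⟨primeIdeal v, hv⟩ = γ}.Infinite := by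
  haveI := finite_rayClassGroup h𝔪
  haveI : Nonempty (RayClassGroup 𝔪) := ⟨γ⟩
  obtain ⟨s, hs⟩ : ∃ s : Set (HeightOneSpectrum (𝓞 K)), ∀ v, v ∈ s ↔
      ∃ hv : v.asIdeal ⊔ 𝔪 = ⊤, rayClass h𝔪 ⟨primeIdeal v, hv⟩ = γ := ⟨_, fun _ => Iff.rfl⟩
  have h : FA.Hecke.HasMean (fun v => if v ∈ s then (1 : ℝ) else 0)
      (Nat.card (RayClassGroup 𝔪) : ℝ)⁻¹ := by
    refine hasMean_congr ∅ Set.finite_empty (B := 1) (fun v => ?_) (fun v _ _ => ?_)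
      (hasMean_rayInd h𝔪 γ)
    · rw [rayInd]; split_ifs <;> simp
    · rw [rayInd]; exact if_congr (hs v) rfl rfl
  exact (infinite_of_hasMean (inv_ne_zero
    (Nat.cast_ne_zero.2 (Nat.card_pos (α := RayClassGroup 𝔪)).ne')) h).mono fun v hv => (hs v).1 hv

theorem exists_prime_in_class_avoiding {𝔪 : Ideal (𝓞 K)} (h𝔪 : 𝔪 ≠ ⊥) (γ : RayClassGroup 𝔪)
    {X : Set (HeightOneSpectrum (𝓞 K))} (hX : X.Finite) :
    ∃ (v : HeightOneSpectrum (𝓞 K)) (hv : v.asIdeal ⊔ 𝔪 = ⊤),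
      v ∉ X ∧ rayClass h𝔪 ⟨primeIdeal v, hv⟩ = γ := by
  obtain ⟨v, ⟨hv, hγ⟩, hvX⟩ := ((infinite_primes_in_class h𝔪 γ).sdiff hX).nonempty
  exact ⟨v, hv, hvX, hγ⟩

theorem rayMap_surjective {𝔐 𝔪 : Ideal (𝓞 K)} (h𝔐 : 𝔐 ≠ ⊥) (h𝔪 : 𝔪 ≠ ⊥) (hle : 𝔐 ≤ 𝔪) :
    Function.Surjective (rayMap h𝔐 h𝔪 hle) := fun γ => by
  obtain ⟨v, hv, hvX, hγ⟩ := exists_prime_in_class_avoiding h𝔪 γ (Ideal.finite_factors h𝔐)
  have hv' : v.asIdeal ⊔ 𝔐 = ⊤ :=
    (sup_eq_top_iff_not_le v 𝔐).2 fun h => hvX (Ideal.dvd_iff_le.2 h)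
  exact ⟨rayClass h𝔐 ⟨primeIdeal v, hv'⟩, by rw [rayMap_apply]; exact hγ⟩

/-! ### Positive at some places -/

/-- Congruent to `1` and positive at the real places of a set. -/
def IsSemiRay (𝔪 : Ideal (𝓞 K)) (S : Set (InfinitePlace K)) (x : 𝓞 K) : Prop :=
  x ≠ 0 ∧ x - 1 ∈ 𝔪 ∧ ∀ w ∈ S, ∀ h : IsReal w, 0 < embedding_of_isReal h (x : K)

theorem IsSemiRay.sup_eq_top {𝔪 : Ideal (𝓞 K)} {S : Set (InfinitePlace K)} {x : 𝓞 K}
    (hx : IsSemiRay 𝔪 S x) : Ideal.span {x} ⊔ 𝔪 = ⊤ := by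
  rw [span_sup_congr hx.2.1, Ideal.span_singleton_one, top_sup_eq]

/-- The ideal of such an element. -/
def IsSemiRay.ideal {𝔪 : Ideal (𝓞 K)} {S : Set (InfinitePlace K)} {x : 𝓞 K}
    (hx : IsSemiRay 𝔪 S x) : coprimeIdeals 𝔪 :=
  ⟨⟨Ideal.span {x}, mem_nonZeroDivisors_iff_ne_zero.mpr (by simpa using hx.1)⟩, hx.sup_eq_top⟩

/-- The classes of these elements. -/
def semiClasses {𝔪 : Ideal (𝓞 K)} (h𝔪 : 𝔪 ≠ ⊥) (S : Set (InfinitePlace K)) :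
    Subgroup (RayClassGroup 𝔪) :=
  Subgroup.closure {γ | ∃ (x : 𝓞 K) (hx : IsSemiRay 𝔪 S x), rayClass h𝔪 hx.ideal = γ}

theorem IsSemiRay.rayClass_mem {𝔪 : Ideal (𝓞 K)} (h𝔪 : 𝔪 ≠ ⊥) {S : Set (InfinitePlace K)}
    {x : 𝓞 K} (hx : IsSemiRay 𝔪 S x) : rayClass h𝔪 hx.ideal ∈ semiClasses h𝔪 S :=
  Subgroup.subset_closure ⟨x, hx, rfl⟩

theorem semiClasses_univ {𝔪 : Ideal (𝓞 K)} (h𝔪 : 𝔪 ≠ ⊥) :
    semiClasses h𝔪 (Set.univ : Set (InfinitePlace K)) = ⊥ := by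
  rw [semiClasses, Subgroup.closure_eq_bot_iff]
  rintro _ ⟨x, hx, rfl⟩
  rw [Set.mem_singleton_iff, ← map_one (rayClass h𝔪), rayClass_eq_iff]
  refine ⟨1, x, FA.Hecke.isRayElt_one, ⟨hx.1, hx.2.1, fun φ => ?_⟩, ?_⟩
  · obtain ⟨⟨w, hw⟩, rfl⟩ := FA.Hecke.exists_isReal_embedding φ
    exact hx.2.2 w trivial hw
  · simp [IsSemiRay.ideal, Ideal.one_eq_top]

theorem map_semiClasses_le {𝔐 𝔪 : Ideal (𝓞 K)} (h𝔐 : 𝔐 ≠ ⊥) (h𝔪 : 𝔪 ≠ ⊥) (hle : 𝔐 ≤ 𝔪)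
    (S : Set (InfinitePlace K)) :
    (semiClasses h𝔐 S).map (rayMap h𝔐 h𝔪 hle) ≤ semiClasses h𝔪 S := by
  rw [semiClasses, MonoidHom.map_closure, Subgroup.closure_le]
  rintro _ ⟨_, ⟨x, hx, rfl⟩, rfl⟩
  rw [rayMap_apply]
  exact IsSemiRay.rayClass_mem h𝔪 (x := x) ⟨hx.1, hle hx.2.1, hx.2.2⟩

/-! ### Ideals from their orders -/

theorem dvd_of_ordI_le {I J : Ideal (𝓞 K)} (hI : I ≠ ⊥) (hJ : J ≠ ⊥)
    (h : ∀ v, ordI v I ≤ ordI v J) : I ∣ J := by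
  induction I using UniqueFactorizationMonoid.induction_on_prime generalizing J with
  | h₁ => exact absurd rfl hI
  | h₂ I hI' => exact hI'.dvd
  | h₃ I q hI0 hq ih =>
    let P : HeightOneSpectrum (𝓞 K) := ⟨q, Ideal.isPrime_of_prime hq, hq.ne_zero⟩
    have hP : q ∣ J := by
      by_contra hn
      have h1 := h P
      rw [show q * I = P.asIdeal * I from rfl, ordI_mul P P.ne_bot hI0, ordI_prime, if_pos rfl,
        (ordI_eq_zero_iff P).2 (show ¬ P.asIdeal ∣ J from hn)] at h1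
      omega
    obtain ⟨J', rfl⟩ := hP
    have hJ' : J' ≠ ⊥ := fun h0 => hJ (by rw [h0, Ideal.mul_bot])
    refine mul_dvd_mul_left q (ih hI0 hJ' fun v => ?_)
    have h1 := h v
    rw [ordI_mul v hq.ne_zero hI0, ordI_mul v hq.ne_zero hJ'] at h1
    omega

theorem ideal_eq_of_ordI {I J : Ideal (𝓞 K)} (hI : I ≠ ⊥) (hJ : J ≠ ⊥)
    (h : ∀ v, ordI v I = ordI v J) : I = J :=
  le_antisymm (Ideal.le_of_dvd (dvd_of_ordI_le hJ hI fun v => (h v).ge))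
    (Ideal.le_of_dvd (dvd_of_ordI_le hI hJ fun v => (h v).le))

/-- The ideal with given orders. -/
theorem exists_ideal_ordI (f : HeightOneSpectrum (𝓞 K) → ℕ) (hf : {v | f v ≠ 0}.Finite) :
    ∃ I : Ideal (𝓞 K), I ≠ ⊥ ∧ ∀ v, ordI v I = f v := by
  refine ⟨∏ v ∈ hf.toFinset, v.asIdeal ^ f v,
    Finset.prod_ne_zero_iff.2 fun v _ => pow_ne_zero _ v.ne_bot, fun v => ?_⟩
  rw [ordI_prod v _ _ fun u _ => pow_ne_zero _ u.ne_bot]
  simp_rw [ordI_pow v (HeightOneSpectrum.ne_bot _), ordI_prime, mul_ite, mul_one, mul_zero]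
  rw [Finset.sum_ite_eq]
  split_ifs with h
  · rfl
  · by_contra h0
    exact h (hf.mem_toFinset.2 (Ne.symm h0))

theorem coprime_iff_ordI {I 𝔪 : Ideal (𝓞 K)} :
    I ⊔ 𝔪 = ⊤ ↔ ∀ v : HeightOneSpectrum (𝓞 K), v.asIdeal ∣ 𝔪 → ordI v I = 0 := by
  refine ⟨fun h v hv => (ordI_eq_zero_iff v).2 fun hI => v.isPrime.ne_top
    (top_le_iff.1 (h ▸ sup_le (Ideal.le_of_dvd hI) (Ideal.le_of_dvd hv))), fun h => ?_⟩
  by_contra hne
  obtain ⟨M, hM, hle⟩ := Ideal.exists_le_maximal _ hne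
  rcases eq_or_ne M ⊥ with rfl | hb
  · exact RingOfIntegers.not_isField K (Ring.isField_iff_maximal_bot.2 hM)
  let v : HeightOneSpectrum (𝓞 K) := ⟨M, hM.isPrime, hb⟩
  have h1 := h v (Ideal.dvd_iff_le.2 (le_sup_right.trans hle))
  exact (ordI_eq_zero_iff v).1 h1 (Ideal.dvd_iff_le.2 (le_sup_left.trans hle))

/-! ### Powers -/

variable {p : ℕ} [hp : Fact p.Prime]

/-- **A criterion for powers times classes positive at `S`.** -/
theorem rayClass_mem_pow_sup_semi {𝔐 : Ideal (𝓞 K)} (h𝔐 : 𝔐 ≠ ⊥) (S : Set (InfinitePlace K))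
    (I : coprimeIdeals 𝔐) (a : Kˣ)
    (hat : ∀ v : HeightOneSpectrum (𝓞 K), v.asIdeal ∣ 𝔐 → a ∈ powSub v p (ordI v 𝔐))
    (haway : ∀ v : HeightOneSpectrum (𝓞 K), ¬ v.asIdeal ∣ 𝔐 →
      (p : ℤ) ∣ ordI v I.1.1 - ord v a)
    (hpos : ∀ w ∈ S, ∀ h : IsReal w, 0 < embedding_of_isReal h (a : K)) :
    rayClass h𝔐 I ∈ (powMonoidHom (α := RayClassGroup 𝔐) p).range ⊔
      semiClasses h𝔐 S := by
  have hF : {v : HeightOneSpectrum (𝓞 K) | v.asIdeal ∣ 𝔐}.Finite := Ideal.finite_factors h𝔐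
  have hex : ∀ v, ∃ y : Kˣ, v.asIdeal ∣ 𝔐 → a / y ^ p ∈ nearUnits v (ordI v 𝔐) := fun v => by
    by_cases hv : v.asIdeal ∣ 𝔐
    · obtain ⟨n, hn, y, rfl⟩ := (mem_powSub v p).1 (hat v hv)
      exact ⟨y, fun _ => by rwa [mul_div_cancel_right]⟩
    · exact ⟨1, fun h => absurd h hv⟩
  choose y hy using hex
  obtain ⟨z, hz, hzs⟩ := exists_approx hF.toFinset y (∑ v ∈ hF.toFinset, ordI v 𝔐 + 1)
    fun _ => true
  set b := a / z ^ p with hb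
  have hbv : ∀ v : HeightOneSpectrum (𝓞 K), v.asIdeal ∣ 𝔐 → b ∈ nearUnits v (ordI v 𝔐) := by
    intro v hv
    have h1 : z / y v ∈ nearUnits v (∑ v ∈ hF.toFinset, ordI v 𝔐 + 1) :=
      mem_nearUnits_of_le v (Nat.le_add_left _ _)
        (by rw [Units.val_div_eq_div_val]; exact hz v (hF.mem_toFinset.2 hv))
    have h2 : z / y v ∈ nearUnits v (ordI v 𝔐) :=
      nearUnits_antitone v ((Finset.single_le_sum (f := fun v => ordI v 𝔐) (fun _ _ => Nat.zero_le _)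
        (hF.mem_toFinset.2 hv)).trans (Nat.le_succ _)) h1
    rw [show b = a / y v ^ p / (z / y v) ^ p by
      rw [hb, div_pow, div_div_div_cancel_right]]
    exact div_mem (hy v hv) (pow_mem h2 p)
  -- a denominator
  obtain ⟨J, hJ, hJord⟩ := exists_ideal_ordI (fun v => (-ord v b).toNat)
    ((finite_ord_ne_zero b).subset fun v hv h0 => hv (by
      show (-ord v b).toNat = 0
      rw [h0]; rfl))
  have hJc : J ⊔ 𝔐 = ⊤ := coprime_iff_ordI.2 fun v hv => by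
    rw [hJord, (hbv v hv).1]; rfl
  obtain ⟨t₀, ht₀, ht₀J, ht₀m⟩ : ∃ t₀ : 𝓞 K, t₀ ≠ 0 ∧ t₀ ∈ J ∧ t₀ - 1 ∈ 𝔐 := by
    obtain ⟨i, hi, j, hj, hij⟩ := Submodule.mem_sup.1 ((Ideal.eq_top_iff_one _).1 hJc)
    by_cases hi0 : i = 0
    · obtain ⟨x, hx, hx0⟩ := Submodule.exists_mem_ne_zero_of_ne_bot hJ
      have h1 : (1 : 𝓞 K) ∈ 𝔐 := by rw [← hij, hi0, zero_add]; exact hj
      exact ⟨x, hx0, hx, by rw [(Ideal.eq_top_iff_one _).2 h1]; trivial⟩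
    · exact ⟨i, hi0, hi, by rw [← hij]; simpa using 𝔐.neg_mem hj⟩
  set t := t₀ ^ 2
  have ht0 : t ≠ 0 := pow_ne_zero _ ht₀
  have htray : IsRayElt 𝔐 t := ⟨ht0, by
    rw [show t - 1 = (t₀ + 1) * (t₀ - 1) by simp only [t]; ring]
    exact 𝔐.mul_mem_left _ ht₀m, fun φ => by
    simp only [t]
    push_cast
    rw [map_pow]
    exact pow_two_pos_of_ne_zero ((map_ne_zero _).2 (RingOfIntegers.coe_ne_zero_iff.mpr ht₀))⟩
  obtain ⟨r, hr0, hr⟩ := exists_intU_of_ord_nonneg (x := intU t ht0 * b) fun v => by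
    rw [ord_mul, ord_intU_eq_ordI]
    have h1 : Ideal.span {t} ≠ ⊥ := by simpa using ht0
    have hle : t ∈ J := by simp only [t, pow_two]; exact J.mul_mem_left _ ht₀J
    obtain ⟨M, hM⟩ : J ∣ Ideal.span {t} := Ideal.dvd_span_singleton.2 hle
    rw [hM, ordI_mul v hJ (fun h0 => h1 (by rw [hM, h0, Ideal.mul_bot])), hJord]
    omega
  have hrb : (r : K) = (t : K) * b := by
    have h := congrArg Units.val hr
    rw [Units.val_mul, intU_val, intU_val] at h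
    exact h.symm
  have hr1 : r - 1 ∈ 𝔐 := by
    by_cases h1 : r - 1 = 0
    · rw [h1]; exact zero_mem _
    rw [← Ideal.span_singleton_le_iff_mem]
    refine Ideal.le_of_dvd (dvd_of_ordI_le h𝔐 (by simpa using h1) fun v => ?_)
    by_cases hv : v.asIdeal ∣ 𝔐
    · have htb : intU t ht0 * b ∈ nearUnits v (ordI v 𝔐) := by
        refine mul_mem ⟨?_, ?_⟩ (hbv v hv)
        · rw [ord_intU_eq_ordI, Nat.cast_eq_zero]
          refine (coprime_iff_ordI (𝔪 := 𝔐)).1 ?_ v hv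
          exact IsSemiRay.sup_eq_top (S := ∅) ⟨ht0, htray.2.1, fun w hw => absurd hw id⟩
        · rw [intU_val]
          have hm : t - 1 ∈ v.asIdeal ^ ordI v 𝔐 :=
            Ideal.le_of_dvd (pow_multiplicity_dvd v.asIdeal 𝔐) htray.2.1
          have := (valuation_coe_le_iff v _ _).2 hm
          push_cast at this
          exact this
      have hm : r - 1 ∈ v.asIdeal ^ ordI v 𝔐 := by
        rw [← valuation_coe_le_iff]
        push_cast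
        have := htb.2
        rw [Units.val_mul, intU_val, ← hrb] at this
        exact this
      rw [← le_ord_intU_iff v h1, ord_intU_eq_ordI] at hm
      exact_mod_cast hm
    · rw [(ordI_eq_zero_iff v).2 hv]
      exact Nat.zero_le _
  have hrS : IsSemiRay 𝔐 S r := ⟨hr0, hr1, fun w hw h => by
    rw [hrb, map_mul, hb, Units.val_div_eq_div_val, map_div₀, Units.val_pow_eq_pow_val, map_pow]
    exact mul_pos (htray.2.2 _) (div_pos (hpos w hw h) (pow_pos ((hzs _).2 rfl) p))⟩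
  have htS : IsSemiRay 𝔐 S t := ⟨ht0, htray.2.1, fun w _ h => htray.2.2 _⟩
  -- the root
  set X : coprimeIdeals 𝔐 := I * htS.ideal * hrS.ideal ^ (p - 1) with hX
  have hI0 := nonZeroDivisors.coe_ne_zero I.1
  have ht' : Ideal.span {t} ≠ ⊥ := by simpa using ht0
  have hr' : Ideal.span {r} ≠ ⊥ := by simpa using hr0
  have hXord : ∀ v, p ∣ ordI v X.1.1 := fun v => by
    have hX' : ordI v X.1.1 = ordI v I.1.1 + ordI v (Ideal.span {t}) +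
        (p - 1) * ordI v (Ideal.span {r}) := by
      rw [← ordI_mul v hI0 ht', ← ordI_pow v hr', ← ordI_mul v (mul_ne_zero hI0 ht')
        (pow_ne_zero _ hr')]
      rfl
    by_cases hv : v.asIdeal ∣ 𝔐
    · rw [coprime_iff_ordI.1 X.2 v hv]
      exact dvd_zero _
    · rw [hX', ← Int.natCast_dvd_natCast]
      push_cast [Nat.cast_sub hp.out.one_le]
      have h := haway v hv
      have ho := congrArg (ord v) hr
      rw [ord_mul, hb, ord_div, ord_pow, ord_intU_eq_ordI, ord_intU_eq_ordI] at ho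
      obtain ⟨m, hm⟩ := h
      exact ⟨m + ord v z + ordI v (Ideal.span {r}), by linear_combination hm + ho⟩
  obtain ⟨Y, hY, hYord⟩ := exists_ideal_ordI (fun v => ordI v X.1.1 / p)
    ((finite_ordI_ne_zero (nonZeroDivisors.coe_ne_zero X.1)).subset fun v hv h0 => hv (by
      show ordI v X.1.1 / p = 0
      rw [h0, Nat.zero_div]))
  have hYc : Y ⊔ 𝔐 = ⊤ := coprime_iff_ordI.2 fun v hv => by
    rw [hYord, coprime_iff_ordI.1 X.2 v hv, Nat.zero_div]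
  set Y' : coprimeIdeals 𝔐 := ⟨⟨Y, mem_nonZeroDivisors_iff_ne_zero.mpr hY⟩, hYc⟩
  have hXY : X = Y' ^ p := Subtype.ext (Subtype.ext (ideal_eq_of_ordI
    (nonZeroDivisors.coe_ne_zero X.1) (nonZeroDivisors.coe_ne_zero (Y' ^ p).1) fun v => by
      rw [show (Y' ^ p).1.1 = Y ^ p from rfl, ordI_pow v hY, hYord, Nat.mul_div_cancel' (hXord v)]))
  have hI : rayClass h𝔐 I = rayClass h𝔐 Y' ^ p *
      (rayClass h𝔐 htS.ideal * rayClass h𝔐 hrS.ideal ^ (p - 1))⁻¹ := by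
    rw [eq_mul_inv_iff_mul_eq, ← map_pow, ← map_pow, ← map_mul, ← map_mul, ← hXY, hX, mul_assoc]
  rw [hI]
  exact Subgroup.mul_mem_sup ⟨_, rfl⟩
    (inv_mem (mul_mem (htS.rayClass_mem h𝔐) (pow_mem (hrS.rayClass_mem h𝔐) _)))

end FA.ArtinRec
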