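import Fermat.Agent.ArtinReciprocity.Abelian
import Fermat.Agent.ExistenceTheorem.RayMaps

/-!
# The Artin symbol of elements positive at the ramified real places

Norm classes have trivial symbol; at a suitable modulus so do the principal ideals of elements
congruent to `1` that are positive at the real places ramified in the extension.
-/

set_option autoImplicit false
set_option linter.unusedSectionVars false
set_option linter.style.haveILetI false

noncomputable section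

open NumberField NumberField.InfinitePlace IsDedekindDomain Finset
open FA.Hecke (IsRayElt coprimeIdeals RayClassGroup rayClass rayClass_eq_iff finite_rayClassGroup)
open FA.Ext (primeIdeal)
open scoped Pointwise nonZeroDivisors Classical

namespace FA.ArtinRec

variable {K L : Type*} [Field K] [NumberField K] [Field L] [NumberField L] [Algebra K L]
  [IsGalois K L] [IsMulCommutative (L ≃ₐ[K] L)]

/-- A class killed by a symbol well defined on the classes modulo `𝔪`. -/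
theorem normClasses_le_of_artinHom {𝔪 : Ideal (𝓞 K)} (h𝔪 : 𝔪 ≠ ⊥)
    (hram : ∀ v, IsRam L v → 𝔪 ≤ v.asIdeal) (ω : RayClassGroup 𝔪 →* (L ≃ₐ[K] L))
    (hω : ∀ I : coprimeIdeals 𝔪, ω (rayClass h𝔪 I) = artinHom L I.1) :
    normClasses L h𝔪 ≤ ω.ker := by
  rw [normClasses, Subgroup.closure_le]
  rintro _ ⟨Q, hQ, rfl⟩
  rw [SetLike.mem_coe, MonoidHom.mem_ker, hω]
  set v := belowP K Q
  have hv : v.asIdeal ⊔ 𝔪 = ⊤ := by
    have h1 : Ideal.relNorm (𝓞 K) Q.asIdeal ⊔ 𝔪 = ⊤ := hQ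
    rw [relNorm_prime] at h1
    exact top_le_iff.1 (h1.symm.le.trans
      (sup_le_sup_right (Ideal.pow_le_self (fDeg_ne_zero _)) _))
  have hnr : ¬ IsRam L v := fun hr => (sup_eq_top_iff_not_le v 𝔪).1 hv (hram v hr)
  have e : normPrime K Q = primeIdeal v ^ fDeg L v :=
    Subtype.ext ((relNorm_prime Q).trans (by rw [SubmonoidClass.coe_pow]; rfl))
  show artinHom L (normPrime K Q) = 1
  rw [e, map_pow, artinHom_prime, artinAt_pow_fDeg hnr]

/-- The cyclic case. -/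
theorem exists_signed_cyclic {σ : L ≃ₐ[K] L} (hσ : ∀ g, g ∈ Subgroup.zpowers σ) :
    ∃ 𝔪 : Ideal (𝓞 K), 𝔪 ≠ ⊥ ∧ (∀ v, v.asIdeal ∣ 𝔪 → IsRam L v) ∧
      ∀ (x : 𝓞 K) (I : (Ideal (𝓞 K))⁰), x ≠ 0 → x - 1 ∈ 𝔪 →
        (∀ w : InfinitePlace K, ¬ w.IsUnramifiedIn L →
          ∀ h : IsReal w, 0 < embedding_of_isReal h (x : K)) →
        I.1 = Ideal.span {x} → artinHom L I = 1 := by
  obtain ⟨𝔪, h𝔪, hiff, P, hle, hP, hsemi⟩ := exists_first_inequality_signed hσ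
  obtain ⟨𝔫, h𝔫, hiff', ω, -, -, hω⟩ := exists_artinRayHom (K := K) (L := L)
  set 𝔐 := 𝔪 * 𝔫
  have h𝔐 : 𝔐 ≠ ⊥ := mul_ne_zero h𝔪 h𝔫
  refine ⟨𝔐, h𝔐, fun v hv => (v.prime.dvd_or_dvd hv).elim (hiff v).1 (hiff' v).1,
    fun x I hx0 hx1 hxp hI => ?_⟩
  have hc : Ideal.span {x} ⊔ 𝔐 = ⊤ :=
    IsSemiRay.sup_eq_top (S := ∅) ⟨hx0, hx1, fun w hw => absurd hw id⟩
  have hle₁ : 𝔐 ≤ 𝔪 := Ideal.mul_le_left
  have hle₂ : 𝔐 ≤ 𝔫 := Ideal.mul_le_right
  haveI : Finite (RayClassGroup 𝔐) := finite_rayClassGroup h𝔐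
  set π := rayMap h𝔐 h𝔪 hle₁
  -- the preimage is that of the norms
  have hN : normClasses L h𝔐 ≤ P.comap π := by
    rw [normClasses, Subgroup.closure_le]
    rintro _ ⟨Q, hQ, rfl⟩
    rw [SetLike.mem_coe, Subgroup.mem_comap, rayMap_apply]
    exact hle (rayClass_normPrime_mem h𝔪 Q _)
  have heq : P.comap π = normClasses L h𝔐 := by
    refine le_antisymm ?_ hN
    have hidx : (P.comap π).index = P.index :=
      Subgroup.index_comap_of_surjective _ (rayMap_surjective h𝔐 h𝔪 hle₁)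
    rw [← Subgroup.relIndex_eq_one]
    have h1 := Subgroup.relIndex_mul_index hN
    have h2 := normClasses_index_le (L := L) h𝔐
    have hpos : (normClasses L h𝔐).relIndex (P.comap π) ≠ 0 := Subgroup.index_ne_zero_of_finite
    have hP0 : 0 < P.index := Module.finrank_pos.trans_le hP
    have : (normClasses L h𝔐).relIndex (P.comap π) ≤ 1 := by
      refine Nat.le_of_mul_le_mul_right ?_ hP0
      rw [one_mul]
      conv_lhs => rw [← hidx, h1]
      exact h2.trans hP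
    omega
  have hI' : I ∈ coprimeIdeals 𝔐 := by
    show I.1 ⊔ 𝔐 = ⊤
    rw [hI, hc]
  have hmem : rayClass h𝔐 ⟨I, hI'⟩ ∈ normClasses L h𝔐 := by
    rw [← heq, Subgroup.mem_comap, rayMap_apply]
    exact hsemi x _ hx0 (hle₁ hx1) hxp hI
  have hker := normClasses_le_of_artinHom h𝔐 (fun v hv => hle₂.trans (Ideal.le_of_dvd ((hiff' v).2 hv)))
    (ω.comp (rayMap h𝔐 h𝔫 hle₂)) (fun J => by
      rw [MonoidHom.comp_apply, rayMap_apply, hω]) hmem
  rwa [MonoidHom.mem_ker, MonoidHom.comp_apply, rayMap_apply, hω] at hker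

variable (K L) in
/-- **Elements positive at the ramified real places have trivial symbol.** -/
theorem exists_signed_modulus :
    ∃ 𝔪 : Ideal (𝓞 K), 𝔪 ≠ ⊥ ∧ (∀ v, v.asIdeal ∣ 𝔪 → IsRam L v) ∧
      ∀ (x : 𝓞 K) (I : (Ideal (𝓞 K))⁰), x ≠ 0 → x - 1 ∈ 𝔪 →
        (∀ w : InfinitePlace K, ¬ w.IsUnramifiedIn L →
          ∀ h : IsReal w, 0 < embedding_of_isReal h (x : K)) →
        I.1 = Ideal.span {x} → artinHom L I = 1 := by
  have hsub : ∀ g : L ≃ₐ[K] L, ∃ 𝔫 : Ideal (𝓞 K), 𝔫 ≠ ⊥ ∧ (∀ v, v.asIdeal ∣ 𝔫 → IsRam L v) ∧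
      (g ≠ 1 → ∀ (x : 𝓞 K) (I : (Ideal (𝓞 K))⁰), x ≠ 0 → x - 1 ∈ 𝔫 →
        (∀ v, IsRam L v → ¬ I.1 ≤ v.asIdeal) →
        (∀ w : InfinitePlace K, ¬ w.IsUnramifiedIn L →
          ∀ h : IsReal w, 0 < embedding_of_isReal h (x : K)) →
        I.1 = Ideal.span {x} → artinHom L I ≠ g) := by
    intro g
    by_cases hg : g = 1
    · exact ⟨⊤, top_ne_bot, fun v hv => absurd (top_le_iff.1 (Ideal.le_of_dvd hv)) v.isPrime.ne_top,
        fun h => absurd hg h⟩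
    obtain ⟨E, hE, hcyc, hgE⟩ := exists_cyclic_subfield hg
    haveI : IsMulCommutative (E ≃ₐ[K] E) := hcyc.isMulCommutative
    obtain ⟨σ, hσ⟩ := IsCyclic.exists_generator (α := E ≃ₐ[K] E)
    obtain ⟨𝔫, h𝔫, hdvd, hrec⟩ := exists_signed_cyclic hσ
    refine ⟨𝔫, h𝔫, fun v hv => isRam_of_tower (hdvd v hv),
      fun _ x I hx0 hx1 hram hxp hI he => hgE ?_⟩
    set 𝔯 : Ideal (𝓞 K) := ∏ v ∈ (finite_isRam K L).toFinset, v.asIdeal
    have h𝔯 : ∀ v, IsRam L v → 𝔯 ≤ v.asIdeal := fun v hv => Ideal.le_of_dvd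
      (Finset.dvd_prod_of_mem (fun u : HeightOneSpectrum (𝓞 K) => u.asIdeal)
        ((finite_isRam K L).mem_toFinset.2 hv))
    have hI' : I ∈ coprimeIdeals 𝔯 := coprime_iff_ordI.2 fun v hv => by
      obtain ⟨u, hu, hd⟩ := v.prime.exists_mem_finset_dvd hv
      rw [show v = u from HeightOneSpectrum.ext ((prime_dvd_prime_iff_eq v.prime u.prime).1 hd)]
      exact (ordI_eq_zero_iff u).2 fun h =>
        hram u ((finite_isRam K L).mem_toFinset.1 hu) (Ideal.le_of_dvd h)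
    rw [← he, restrict_artinHom E h𝔯 ⟨I, hI'⟩]
    refine hrec x I hx0 hx1 (fun w hw => hxp w fun hu => hw fun u' hu' => ?_) hI
    obtain ⟨z, rfl⟩ := InfinitePlace.comap_surjective (K := L) u'
    exact (hu z (hu' ▸ rfl)).comap E
  choose 𝔫 h𝔫 hdvd hsep using hsub
  set 𝔪 : Ideal (𝓞 K) :=
    (∏ v ∈ (finite_isRam K L).toFinset, v.asIdeal) * ∏ g : L ≃ₐ[K] L, 𝔫 g
  have h𝔪 : 𝔪 ≠ ⊥ := mul_ne_zero (Finset.prod_ne_zero_iff.2 fun v _ => v.ne_bot)
    (Finset.prod_ne_zero_iff.2 fun g _ => h𝔫 g)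
  refine ⟨𝔪, h𝔪, fun v hv => ?_, fun x I hx0 hx1 hxp hI => by_contra fun hne => ?_⟩
  · rcases v.prime.dvd_or_dvd hv with h | h
    · obtain ⟨u, hu, hd⟩ := v.prime.exists_mem_finset_dvd h
      rw [show v = u from HeightOneSpectrum.ext ((prime_dvd_prime_iff_eq v.prime u.prime).1 hd)]
      exact (finite_isRam K L).mem_toFinset.1 hu
    · obtain ⟨g, -, hd⟩ := v.prime.exists_mem_finset_dvd h
      exact hdvd g v hd
  · refine hsep _ hne x I hx0 (Ideal.le_of_dvd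
      (dvd_mul_of_dvd_right (Finset.dvd_prod_of_mem 𝔫 (Finset.mem_univ _)) _) hx1)
      (fun v hv hle => ?_) hxp hI rfl
    have hc : I.1 ⊔ 𝔪 = ⊤ := by
      rw [hI]
      exact IsSemiRay.sup_eq_top (S := ∅) ⟨hx0, hx1, fun w hw => absurd hw id⟩
    refine v.isPrime.ne_top (top_le_iff.1 (hc ▸ sup_le hle ?_))
    exact Ideal.le_of_dvd (dvd_mul_of_dvd_left (Finset.dvd_prod_of_mem
      (fun u : HeightOneSpectrum (𝓞 K) => u.asIdeal) ((finite_isRam K L).mem_toFinset.2 hv)) _)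

end FA.ArtinRec
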