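import Fermat.Agent.ExistenceTheorem.Uniqueness

/-!
# The Hilbert class field

The class field of the principal ideals for the trivial modulus is unramified at all primes and
infinite places, its Galois group is the ideal class group, and it contains every abelian extension
with that property.
-/

set_option autoImplicit false
set_option linter.unusedSectionVars false
set_option linter.style.haveILetI false

noncomputable section

universe u

open NumberField NumberField.InfinitePlace IsDedekindDomain Finset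
open FA.Hecke (IsRayElt coprimeIdeals RayClassGroup rayClass rayClass_eq_iff rayClass_surjective)
open FA.Ext (primeIdeal)
open scoped Pointwise nonZeroDivisors Classical

namespace FA.ArtinRec

variable (K : Type u) [Field K] [NumberField K]

theorem unitModulus_ne_bot : (⊤ : Ideal (𝓞 K)) ≠ ⊥ := top_ne_bot

/-- From the narrow class group to the class group. -/
def toClassGroup : RayClassGroup (⊤ : Ideal (𝓞 K)) →* ClassGroup (𝓞 K) :=
  rayLift (unitModulus_ne_bot K) (ClassGroup.mk0.comp (coprimeIdeals ⊤).subtype) fun I J h => by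
    obtain ⟨x, y, hx, hy, hxy⟩ := (rayClass_eq_iff _).1 h
    exact ClassGroup.mk0_eq_mk0_iff.2 ⟨x, y, hx.1, hy.1, hxy⟩

theorem toClassGroup_apply (I : coprimeIdeals (⊤ : Ideal (𝓞 K))) :
    toClassGroup K (rayClass (unitModulus_ne_bot K) I) = ClassGroup.mk0 I.1 :=
  rayLift_apply _ _ _ _

theorem toClassGroup_surjective : Function.Surjective (toClassGroup K) := fun c => by
  obtain ⟨I, rfl⟩ := ClassGroup.mk0_surjective c
  exact ⟨_, toClassGroup_apply K ⟨I, by show I.1 ⊔ ⊤ = ⊤; exact sup_top_eq _⟩⟩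

theorem ker_toClassGroup :
    (toClassGroup K).ker = semiClasses (unitModulus_ne_bot K) (∅ : Set (InfinitePlace K)) := by
  refine le_antisymm (fun γ hγ => ?_) ?_
  · obtain ⟨I, rfl⟩ := rayClass_surjective (unitModulus_ne_bot K) γ
    rw [MonoidHom.mem_ker, toClassGroup_apply, ClassGroup.mk0_eq_one_iff I.1.2] at hγ
    obtain ⟨x, hx⟩ := hγ
    have hx' : I.1.1 = Ideal.span {x} := hx
    have hxr : IsSemiRay (⊤ : Ideal (𝓞 K)) ∅ x :=
      ⟨fun h0 => nonZeroDivisors.coe_ne_zero I.1 (by rw [hx', h0]; simp), trivial,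
        fun w hw => absurd hw id⟩
    rw [show I = hxr.ideal from Subtype.ext (Subtype.ext hx')]
    exact hxr.rayClass_mem _
  · rw [semiClasses, Subgroup.closure_le]
    rintro _ ⟨x, hx, rfl⟩
    rw [SetLike.mem_coe, MonoidHom.mem_ker, toClassGroup_apply,
      ClassGroup.mk0_eq_one_iff hx.ideal.1.2]
    exact ⟨x, rfl⟩

/-- **The Hilbert class field.** -/
theorem exists_hilbertClassField :
    ∃ (L : Type u) (_ : Field L) (_ : NumberField L) (_ : Algebra K L) (_ : IsGalois K L)
      (_ : IsMulCommutative (L ≃ₐ[K] L)),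
      Algebra.Unramified (𝓞 K) (𝓞 L) ∧ IsUnramifiedAtInfinitePlaces K L ∧
      (∃ e : ClassGroup (𝓞 K) ≃* (L ≃ₐ[K] L),
        ∀ v : HeightOneSpectrum (𝓞 K), e (ClassGroup.mk0 (primeIdeal v)) = artinAt L v) ∧
      IsClassField L (unitModulus_ne_bot K) ∅ (toClassGroup K).ker := by
  obtain ⟨L, _, _, _, _, _, hL⟩ := exists_classField (unitModulus_ne_bot K) (∅ : Set (InfinitePlace K))
    (toClassGroup K).ker (ker_toClassGroup K).ge
  have hunr : ∀ v, ¬ IsRam L v := fun v => hL.unram v (sup_top_eq _)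
  refine ⟨L, inferInstance, inferInstance, inferInstance, inferInstance, inferInstance, ?_, ⟨?_⟩,
    ?_, hL⟩
  · haveI : Algebra.FiniteType (𝓞 K) (𝓞 L) := inferInstance
    refine Algebra.unramified_iff_forall.2 fun q => ?_
    rcases eq_or_ne q.1 ⊥ with hq | hq
    · have hbot := Algebra.isUnramifiedAt_bot (R := 𝓞 K) (S := 𝓞 L)
      obtain ⟨q, hqp⟩ := q
      subst hq
      exact hbot
    · let Q : HeightOneSpectrum (𝓞 L) := ⟨q.1, q.2, hq⟩
      have h1 := eIdx_eq_one (K := K) (Q := Q) (hunr _)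
      haveI := q.2
      haveI : Q.asIdeal.LiesOver (belowP K Q).asIdeal := ⟨rfl⟩
      rw [eIdx, Ideal.ramificationIdx'_eq_ramificationIdx _ _ (belowP K Q).ne_bot] at h1
      exact Ideal.ramificationIdx_eq_one_iff.1 h1
  · intro w
    exact hL.unramInf (w.comap (algebraMap K L)) (Set.notMem_empty _) w rfl
  · obtain ⟨ω, hsurj, hker, hω⟩ := hL.artin
    let e₁ := QuotientGroup.quotientKerEquivOfSurjective (toClassGroup K) (toClassGroup_surjective K)
    let e₂ := QuotientGroup.quotientKerEquivOfSurjective ω hsurj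
    refine ⟨e₁.symm.trans ((QuotientGroup.quotientMulEquivOfEq hker.symm).trans e₂), fun v => ?_⟩
    have h1 : e₁.symm (ClassGroup.mk0 (primeIdeal v)) =
        QuotientGroup.mk (rayClass (unitModulus_ne_bot K) ⟨primeIdeal v, sup_top_eq _⟩) := by
      rw [MulEquiv.symm_apply_eq]
      exact (toClassGroup_apply K ⟨primeIdeal v, sup_top_eq _⟩).symm
    show e₂ (QuotientGroup.quotientMulEquivOfEq hker.symm (e₁.symm _)) = _
    rw [h1]
    exact (hω _).trans (artinHom_prime v)

/-- **An abelian extension unramified everywhere lies in the Hilbert class field.** -/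
theorem exists_algHom_hilbertClassField {L : Type*} [Field L] [NumberField L] [Algebra K L]
    [IsGalois K L] [IsMulCommutative (L ≃ₐ[K] L)]
    (hL : IsClassField L (unitModulus_ne_bot K) ∅ (toClassGroup K).ker) {E : Type*} [Field E]
    [NumberField E] [Algebra K E] [IsGalois K E] [IsMulCommutative (E ≃ₐ[K] E)]
    (hE : ∀ v : HeightOneSpectrum (𝓞 K), ¬ IsRam E v) [IsUnramifiedAtInfinitePlaces K E] : Nonempty (E →ₐ[K] L) := by
  refine hL.exists_algHom fun v hv hmem => ?_
  have htop : ∀ 𝔫 : Ideal (𝓞 K), 𝔫 ≠ ⊥ →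
      (∀ u : HeightOneSpectrum (𝓞 K), u.asIdeal ∣ 𝔫 → IsRam E u) → 𝔫 = ⊤ := fun 𝔫 h0 h =>
    ideal_eq_of_ordI h0 top_ne_bot fun u => by
      rw [ordI_top, (ordI_eq_zero_iff u).2 fun hu => hE u (h u hu)]
  obtain ⟨𝔫, h𝔫, hiff, ω, -, -, hω⟩ := exists_artinRayHom (K := K) (L := E)
  obtain rfl := htop 𝔫 h𝔫 fun u hu => (hiff u).1 hu
  obtain ⟨𝔰, h𝔰, hdvd, hsigned⟩ := exists_signed_modulus K E
  obtain rfl := htop 𝔰 h𝔰 hdvd
  have hle : (toClassGroup K).ker ≤ ω.ker := by
    rw [ker_toClassGroup, semiClasses, Subgroup.closure_le]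
    rintro _ ⟨x, hx, rfl⟩
    rw [SetLike.mem_coe, MonoidHom.mem_ker, hω]
    exact hsigned x _ hx.1 trivial (fun w hw => absurd (fun z _ => InfinitePlace.isUnramified K z) hw)
      rfl
  exact (artinHom_prime (L := E) v).symm.trans ((hω ⟨primeIdeal v, hv⟩).symm.trans (hle hmem))

end FA.ArtinRec
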