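import Fermat.Agent.ExistenceTheorem.LocalPowers

/-!
# Roots of powers near one

A `p`-th root of an element near a `p`-th power at a prime is fixed by the decomposition group at a
deep level and by the inertia group at the level of `p` times the order of `1 - ζ`.
-/

set_option autoImplicit false
set_option linter.unusedSectionVars false
set_option linter.style.haveILetI false

noncomputable section

open NumberField IsDedekindDomain Finset WithZero
open scoped Pointwise nonZeroDivisors Classical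

namespace FA.ArtinRec

variable {K M : Type*} [Field K] [NumberField K] [Field M] [NumberField M] [Algebra K M]
  [IsGalois K M] (Q : HeightOneSpectrum (𝓞 M))

/-- An automorphism fixing a prime preserves its valuation. -/
theorem valuation_apply_of_galPrime_eq {σ : M ≃ₐ[K] M} (hσ : galPrime σ Q = Q) (z : M) :
    Q.valuation M (σ z) = Q.valuation M z := by
  rcases eq_or_ne z 0 with rfl | hz
  · rw [map_zero]
  · have h := ord_galU σ Q (Units.mk0 z hz)
    rw [hσ] at h
    rw [show σ z = (galU σ (Units.mk0 z hz) : M) from rfl, valuation_eq_exp, h, ← valuation_eq_exp]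
    rfl

/-- The inertia group moves integral elements little. -/
theorem valuation_inertia_lt {σ : M ≃ₐ[K] M} (hσ : σ ∈ Q.asIdeal.inertia (M ≃ₐ[K] M)) {y : M}
    (hy : Q.valuation M y ≤ 1) : Q.valuation M (σ y - y) < 1 := by
  obtain ⟨n, ⟨d, hd⟩, hnd⟩ := Q.exists_primeCompl_mul_eq_of_integer y hy
  dsimp only at hnd
  have h1 : ∀ z : 𝓞 M, Q.valuation M (σ (z : M) - z) < 1 := fun z => by
    rw [show σ (z : M) - z = ((σ • z - z : 𝓞 M) : M) from rfl]
    exact (Q.valuation_lt_one_iff_mem _).2 (hσ z)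
  have hd1 : Q.valuation M (d : M) = 1 := Q.valuation_eq_one_iff_notMem.2 hd
  have hσd : Q.valuation M (σ (d : M)) = 1 := by
    rw [← sub_add_cancel (σ (d : M)) (d : M),
      Valuation.map_add_eq_of_lt_right _ (by rw [hd1]; exact h1 d), hd1]
  have key : (σ y - y) * σ (d : M) = (σ (n : M) - n) - y * (σ (d : M) - d) := by
    have h2 : σ y * σ (d : M) = σ (n : M) := by rw [← map_mul, hnd]
    linear_combination h2 - hnd
  have h3 := congrArg (Q.valuation M) key
  rw [map_mul, hσd, mul_one] at h3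
  rw [h3]
  refine Valuation.map_sub_lt _ (h1 n) ?_
  rw [map_mul]
  exact lt_of_le_of_lt (mul_le_of_le_one_left' hy) (h1 d)

variable {Q} {v : HeightOneSpectrum (𝓞 K)} {p : ℕ} [hp : Fact p.Prime] {ζ : 𝓞 K}
  (hζ : IsPrimitiveRoot (ζ : K) p)

include hζ

/-- A root of an element of `powSub`, normalised. -/
theorem exists_near_root (hQ : belowP K Q = v) {k : ℕ} {u : Kˣ}
    (hu : u ∈ powSub v p k) {w : M} (hw : w ^ p = algebraMap K M u) :
    ∃ (b : Kˣ) (w' : M) (i : ℕ), w = algebraMap K M b * w' ∧ Q.valuation M w' = 1 ∧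
      (∀ σ : M ≃ₐ[K] M, ∃ j : ℕ, σ w' = algebraMap K M ζ ^ j * w') ∧
      Q.valuation M (w' - algebraMap K M ζ ^ i) * Q.valuation M (p : M) ≤
        exp (-(k : ℤ)) ^ eIdx K Q := by
  obtain ⟨a, ha, b, rfl⟩ := (mem_powSub v p).1 hu
  set w' := w / algebraMap K M b
  have hb : algebraMap K M (b : K) ≠ 0 := (map_ne_zero _).2 b.ne_zero
  have hpow : w' ^ p = algebraMap K M a := by
    rw [div_pow, hw, Units.val_mul, Units.val_pow_eq_pow_val, map_mul, map_pow,
      mul_div_cancel_right₀ _ (pow_ne_zero _ hb)]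
  have hval : Q.valuation M w' = 1 := by
    refine (pow_eq_one_iff.1 ?_).resolve_right hp.out.ne_zero
    rw [← map_pow, hpow, valuation_baseU, hQ, valuation_eq_exp, ha.1, neg_zero, exp_zero, one_pow]
  have hζM : IsPrimitiveRoot (algebraMap K M ζ) p := hζ.map_of_injective (algebraMap K M).injective
  obtain ⟨i, hi⟩ := exists_root_near (Q.valuation M) hp.out hζM w'
  refine ⟨b, w', i, (mul_div_cancel₀ _ hb).symm, hval, fun σ => ?_, hi.trans ?_⟩
  · have h0 : w' ≠ 0 := fun h => by simp [h] at hval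
    have h1 : (σ w' / w') ^ p = 1 := by
      rw [div_pow, ← map_pow, hpow, σ.commutes, ← hpow, div_self (pow_ne_zero _ h0)]
    haveI : NeZero p := ⟨hp.out.ne_zero⟩
    obtain ⟨j, -, hj⟩ := hζM.eq_pow_of_pow_eq_one h1
    exact ⟨j, by rw [hj, div_mul_cancel₀ _ h0]⟩
  · rw [hpow, ← map_one (algebraMap K M), ← map_sub, valuation_baseU, hQ]
    exact pow_le_pow_left' ha.2 _

/-- **The decomposition group fixes roots of deep elements.** -/
theorem apply_root_of_powSub_deep (hQ : belowP K Q = v) {k : ℕ}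
    (hk : 2 * pExp v p + 1 ≤ k) {u : Kˣ} (hu : u ∈ powSub v p k) {w : M}
    (hw : w ^ p = algebraMap K M u) {σ : M ≃ₐ[K] M} (hσ : galPrime σ Q = Q) : σ w = w := by
  have hc := zExp_le_pExp v p hζ
  obtain ⟨b, w', i, rfl, hval, hmove, hi⟩ := exists_near_root hζ hQ hu hw
  rw [map_mul, σ.commutes]
  congr 1
  obtain ⟨j, hj⟩ := hmove σ
  rw [hj]
  by_cases hd : p ∣ j
  · obtain ⟨m, rfl⟩ := hd
    rw [← map_pow, pow_mul, hζ.pow_eq_one, one_pow, map_one, one_mul]
  exfalso
  set ζM := algebraMap K M ζ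
  have hζM : IsPrimitiveRoot ζM p := hζ.map_of_injective (algebraMap K M).injective
  have hlt : Q.valuation M (w' - ζM ^ i) < Q.valuation M (1 - ζM) := by
    refine lt_of_mul_lt_mul_right' (a := Q.valuation M (p : M)) (hi.trans_lt ?_)
    rw [← map_natCast (algebraMap K M) p, ← map_mul (Q.valuation M),
      ← map_one (algebraMap K M), ← map_sub, ← map_mul, valuation_baseU, hQ, map_mul,
      valuation_one_sub v p hζ, valuation_natCast, ← exp_add]
    exact pow_lt_pow_left₀ (exp_lt_exp.2 (by omega)) zero_le (eIdx_pos Q).ne'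
  have h2 : Q.valuation M (σ w' - ζM ^ i) = Q.valuation M (w' - ζM ^ i) := by
    rw [← valuation_apply_of_galPrime_eq Q hσ (w' - ζM ^ i),
      show σ (w' - ζM ^ i) = σ w' - ζM ^ i by rw [map_sub, map_pow, σ.commutes]]
  have h3 : Q.valuation M (σ w' - w') < Q.valuation M (1 - ζM) := by
    rw [show σ w' - w' = (σ w' - ζM ^ i) - (w' - ζM ^ i) by ring]
    exact Valuation.map_sub_lt _ (h2.trans_lt hlt) hlt
  rw [hj, ← sub_one_mul, map_mul, hval, mul_one, Valuation.map_sub_swap,
    valuation_one_sub_pow _ hp.out hζM hd] at h3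
  exact h3.false

/-- **The inertia group fixes roots of elements at the level `p * c`.** -/
theorem apply_root_of_powSub_zExp (hQ : belowP K Q = v) {u : Kˣ}
    (hu : u ∈ powSub v p (p * zExp v ζ)) {w : M} (hw : w ^ p = algebraMap K M u) {σ : M ≃ₐ[K] M}
    (hσ : σ ∈ Q.asIdeal.inertia (M ≃ₐ[K] M)) : σ w = w := by
  obtain ⟨b, w', i, rfl, hval, hmove, hi⟩ := exists_near_root hζ hQ hu hw
  rw [map_mul, σ.commutes]
  congr 1
  obtain ⟨j, hj⟩ := hmove σ
  rw [hj]
  by_cases hd : p ∣ j
  · obtain ⟨m, rfl⟩ := hd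
    rw [← map_pow, pow_mul, hζ.pow_eq_one, one_pow, map_one, one_mul]
  exfalso
  set ζM := algebraMap K M ζ
  have hζM : IsPrimitiveRoot ζM p := hζ.map_of_injective (algebraMap K M).injective
  have hC : Q.valuation M (1 - ζM) = exp (-(zExp v ζ : ℤ)) ^ eIdx K Q := by
    rw [← map_one (algebraMap K M), ← map_sub, valuation_baseU, hQ, valuation_one_sub v p hζ]
  have hC0 : Q.valuation M (1 - ζM) ≠ 0 := by rw [hC]; exact pow_ne_zero _ exp_ne_zero
  have hle : Q.valuation M (w' - ζM ^ i) ≤ Q.valuation M (1 - ζM) := by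
    refine le_of_mul_le_mul_right (hi.trans_eq ?_) (zero_lt_iff.2 ((Valuation.ne_zero_iff _).2
      (Nat.cast_ne_zero.2 hp.out.ne_zero)))
    rw [hC, ← map_natCast (algebraMap K M) p, valuation_baseU, hQ, valuation_natCast, ← mul_pow,
      ← exp_add, mul_zExp v p hζ]
    congr 2
    push_cast
    ring
  have hy : Q.valuation M ((w' - ζM ^ i) / (1 - ζM)) ≤ 1 := by
    rw [map_div₀]
    exact div_le_one_of_le₀ hle zero_le
  have h := valuation_inertia_lt Q hσ hy
  rw [map_div₀ σ, map_sub σ, map_pow σ, map_sub σ, map_one σ, σ.commutes, ← sub_div,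
    sub_sub_sub_cancel_right, hj, ← sub_one_mul, map_div₀, map_mul, hval, mul_one,
    Valuation.map_sub_swap, valuation_one_sub_pow _ hp.out hζM hd, div_self hC0] at h
  exact h.false

end FA.ArtinRec
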