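import Fermat.Agent.ExistenceTheorem.KummerCount

/-!
# Class fields for exponent `p` over a field with the `p`-th roots of unity

For a modulus `𝔪`, a set `S` of real places and a finite set to avoid there is an abelian extension
of exponent `p`, unramified outside `𝔪` and a finite set avoiding the given one and at the real
places outside `S`, in which only primes whose classes are `p`-th powers times classes positive at
`S` split.
-/

set_option autoImplicit false
set_option linter.unusedSectionVars false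
set_option linter.style.haveILetI false

noncomputable section

open NumberField NumberField.InfinitePlace IsDedekindDomain Finset WithZero
open FA.Hecke (IsRayElt coprimeIdeals RayClassGroup rayClass rayClass_eq_iff rayClass_surjective
  finite_rayClassGroup)
open FA.Ext (primeIdeal)
open scoped Pointwise nonZeroDivisors Classical

namespace FA.ArtinRec

variable {K : Type*} [Field K] [NumberField K] {p : ℕ} [hp : Fact p.Prime]

/-- The subgroups whose product of quotients receives the ideals prime to `A`. -/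
def kummerLoc (p : ℕ) (A D : Finset (HeightOneSpectrum (𝓞 K))) (S : Set (InfinitePlace K)) :
    InfinitePlace K ⊕ {v // v ∈ A ∪ D} → Subgroup Kˣ :=
  Sum.elim (fun w => if w ∈ S then posSub w else ⊤)
    fun v => if v.1 ∈ A then powSub v.1 p (2 * pExp v.1 p + 1) else powSub v.1 p 0

/-- The conditions on the elements whose roots are adjoined. -/
def kummerCond (p : ℕ) (ζ : 𝓞 K) (A D : Finset (HeightOneSpectrum (𝓞 K)))
    (S : Set (InfinitePlace K)) : InfinitePlace K ⊕ {v // v ∈ A ∪ D} → Subgroup Kˣ :=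
  Sum.elim (fun w => if w ∈ S then ⊤ else posSub w)
    fun v => if v.1 ∈ A then ⊤ else powSub v.1 p (p * zExp v.1 ζ)

variable {ζ : 𝓞 K} (hζ : IsPrimitiveRoot (ζ : K) p)
include hζ

theorem prod_index_kummer (A D : Finset (HeightOneSpectrum (𝓞 K))) (S : Set (InfinitePlace K))
    (hT : ∀ v : HeightOneSpectrum (𝓞 K), (p : 𝓞 K) ∈ v.asIdeal → v ∈ A ∪ D) :
    (∏ i, (kummerLoc p A D S i).index) * ∏ i, (kummerCond p ζ A D S i).index =
      (p ^ (Fintype.card (InfinitePlace K) + (A ∪ D).card)) ^ 2 := by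
  rw [← prod_local_index hζ hT, ← Finset.prod_mul_distrib, Fintype.prod_sum_type]
  congr 1
  · refine Finset.prod_congr rfl fun w _ => ?_
    simp only [kummerLoc, kummerCond, Sum.elim_inl]
    split_ifs <;> simp
  · rw [← Finset.prod_coe_sort (A ∪ D)]
    refine Finset.prod_congr rfl fun v _ => ?_
    simp only [kummerLoc, kummerCond, Sum.elim_inr]
    split_ifs
    · rw [Subgroup.index_top, mul_one, index_powSub_deep v.1 p hζ le_rfl]
    · rw [index_powSub_zero, index_powSub_zExp v.1 p hζ]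

theorem index_kummerLoc_ne_zero (A D : Finset (HeightOneSpectrum (𝓞 K)))
    (S : Set (InfinitePlace K))
    (hT : ∀ v : HeightOneSpectrum (𝓞 K), (p : 𝓞 K) ∈ v.asIdeal → v ∈ A ∪ D)
    (i : InfinitePlace K ⊕ {v // v ∈ A ∪ D}) :
    (kummerLoc p A D S i).index ≠ 0 ∧ (kummerCond p ζ A D S i).index ≠ 0 := by
  have h := prod_index_kummer hζ A D S hT
  have h0 : (p ^ (Fintype.card (InfinitePlace K) + (A ∪ D).card)) ^ 2 ≠ 0 :=
    pow_ne_zero _ (pow_ne_zero _ hp.out.ne_zero)
  rw [← h, mul_ne_zero_iff] at h0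
  exact ⟨Finset.prod_ne_zero_iff.1 h0.1 i (Finset.mem_univ i),
    Finset.prod_ne_zero_iff.1 h0.2 i (Finset.mem_univ i)⟩

/-- The classes of the roots outnumber the local classes. -/
theorem exists_kummer_reps {A D : Finset (HeightOneSpectrum (𝓞 K))}
    (S : Set (InfinitePlace K))
    (hT : ∀ v : HeightOneSpectrum (𝓞 K), (p : 𝓞 K) ∈ v.asIdeal → v ∈ A ∪ D)
    (hcov : ∀ γ : RayClassGroup (deepModulus p D), ∃ (v : HeightOneSpectrum (𝓞 K))
      (hv : v.asIdeal ⊔ deepModulus p D = ⊤), v ∈ A ∧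
        rayClass (deepModulus_ne_bot D) ⟨primeIdeal v, hv⟩ = γ) :
    ∃ R : Finset Kˣ, (∀ r ∈ R, r ∈ tUnit (A ∪ D) ∧ ∀ i, r ∈ kummerCond p ζ A D S i) ∧
      (∀ r ∈ R, ∀ s ∈ R, (∃ b : Kˣ, r / s = b ^ p) → r = s) ∧
      Nat.card (LocClasses (A ∪ D) (kummerLoc p A D S)) ≤ R.card := by
  set T := A ∪ D
  set N := kummerLoc p A D S
  set N' := kummerCond p ζ A D S
  set U := tUnit T
  set P := U.map (powMonoidHom p) with hP
  set U' := U ⊓ ⨅ i, N' i with hU'
  have hpow : ∀ x : Kˣ, ∀ i, x ^ p ∈ N i ∧ x ^ p ∈ N' i := fun x i => by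
    rcases i with w | v
    · simp only [N, N', kummerLoc, kummerCond, Sum.elim_inl]
      split_ifs <;> simp [pow_mem_posSub hζ]
    · simp only [N, N', kummerLoc, kummerCond, Sum.elim_inr]
      split_ifs <;> simp [pow_mem_powSub]
  have hPU : P ≤ U := by
    rintro _ ⟨x, hx, rfl⟩
    exact pow_mem hx p
  have hPU' : P ≤ U' := le_inf hPU (le_iInf fun i => by
    rintro _ ⟨x, -, rfl⟩
    exact (hpow x i).2)
  have hker : U ⊓ (diag T N).ker = P := by
    refine le_antisymm ?_ (le_inf hPU ?_)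
    · rintro u ⟨hu, hu'⟩
      have hmem : ∀ i, u ∈ N i := fun i => (QuotientGroup.eq_one_iff u).1
        (congrArg (fun f : LocProd T N => f i) (show diag T N u = 1 from hu'))
      obtain ⟨b, rfl⟩ := exists_root_of_deep hζ hT hcov hu fun v hv => by
        have h := hmem (Sum.inr ⟨v, Finset.mem_union_left _ hv⟩)
        simpa [N, kummerLoc, hv] using h
      refine ⟨b, fun v hv => ?_, rfl⟩
      have h := hu v hv
      rw [ord_pow] at h
      exact (mul_eq_zero.1 h).resolve_left (Nat.cast_ne_zero.2 hp.out.ne_zero)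
    · rintro _ ⟨x, -, rfl⟩
      exact LocProd.ext fun i => (QuotientGroup.eq_one_iff _).2 (hpow x i).1
  have hidx := index_kummerLoc_ne_zero hζ A D S hT
  haveI : ∀ i, Finite (Kˣ ⧸ N i) := fun i =>
    haveI : (N i).FiniteIndex := ⟨(hidx i).1⟩
    Subgroup.finite_quotient_of_finiteIndex
  set s := p ^ (Fintype.card (InfinitePlace K) + T.card)
  have hUP : P.relIndex U = s := relIndex_pow_tUnit hp.out.ne_zero hζ T
  have hD : Nat.card (U.map (diag T N)) = s := by
    rw [← Subgroup.relIndex_ker, ← Subgroup.inf_relIndex_left, hker, hUP]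
  have hloc : Nat.card (LocClasses T N) * s = ∏ i, (N i).index := by
    rw [← hD, ← Subgroup.card_eq_card_quotient_mul_card_subgroup]
    exact Nat.card_pi (β := fun i => Kˣ ⧸ N i)
  have hX : U'.relIndex U ≤ ∏ i, (N' i).index := by
    rw [hU', inf_comm, Subgroup.inf_relIndex_right]
    refine (Subgroup.relIndex_iInf_le N').trans (Finset.prod_le_prod (fun _ _ => Nat.zero_le _)
      fun i _ => ?_)
    exact Nat.le_of_dvd (Nat.pos_of_ne_zero (hidx i).2) (Subgroup.relIndex_dvd_index_of_normal _ _)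
  have hmul : P.relIndex U' * U'.relIndex U = s := by
    rw [Subgroup.relIndex_mul_relIndex _ _ _ hPU' inf_le_left, hUP]
  have hsq := prod_index_kummer hζ A D S hT
  have hs : 0 < s := pow_pos hp.out.pos _
  have hc : Nat.card (LocClasses T N) ≤ P.relIndex U' := by
    have h1 : Nat.card (LocClasses T N) * ∏ i, (N' i).index = s := by
      refine Nat.eq_of_mul_eq_mul_right hs ?_
      rw [mul_right_comm, hloc]
      rw [hsq, pow_two]
    have hpos : 0 < ∏ i, (N' i).index :=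
      Finset.prod_pos fun i _ => Nat.pos_of_ne_zero (hidx i).2
    refine Nat.le_of_mul_le_mul_right ?_ hpos
    rw [h1, ← hmul]
    exact Nat.mul_le_mul_left _ hX
  haveI : Finite (U' ⧸ P.subgroupOf U') := by
    refine Nat.finite_of_card_ne_zero fun h => ?_
    rw [show P.relIndex U' = 0 from h, zero_mul] at hmul
    exact hs.ne hmul
  haveI := Fintype.ofFinite (U' ⧸ P.subgroupOf U')
  refine ⟨Finset.univ.image fun c : U' ⧸ P.subgroupOf U' => (c.out : Kˣ), fun r hr => ?_,
    fun r hr s' hs' h => ?_, ?_⟩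
  · obtain ⟨c, -, rfl⟩ := Finset.mem_image.1 hr
    exact ⟨c.out.2.1, fun i => Subgroup.mem_iInf.1 c.out.2.2 i⟩
  · obtain ⟨c, -, rfl⟩ := Finset.mem_image.1 hr
    obtain ⟨c', -, rfl⟩ := Finset.mem_image.1 hs'
    obtain ⟨b, hb⟩ := h
    have hbU : b ∈ U := fun v hv => by
      have h1 : ord v ((c.out : Kˣ) / (c'.out : Kˣ)) = 0 :=
        div_mem (show (c.out : Kˣ) ∈ U from c.out.2.1) (show (c'.out : Kˣ) ∈ U from c'.out.2.1) v hv
      rw [hb, ord_pow] at h1
      exact (mul_eq_zero.1 h1).resolve_left (Nat.cast_ne_zero.2 hp.out.ne_zero)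
    have hcc : c = c' := by
      rw [← QuotientGroup.out_eq' c, ← QuotientGroup.out_eq' c', QuotientGroup.eq_iff_div_mem,
        Subgroup.mem_subgroupOf, Subgroup.coe_div, hb]
      exact ⟨b, hbU, rfl⟩
    rw [hcc]
  · rw [Finset.card_image_of_injective _ fun c c' h => by
      rw [← QuotientGroup.out_eq' c, ← QuotientGroup.out_eq' c', Subtype.ext h], Finset.card_univ,
      ← Nat.card_eq_fintype_card]
    exact hc

/-- **Class fields of exponent `p`.** -/
theorem exists_kummer_splitting {𝔪 : Ideal (𝓞 K)} (h𝔪 : 𝔪 ≠ ⊥) {X : Set (HeightOneSpectrum (𝓞 K))}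
    (hX : X.Finite) (S : Set (InfinitePlace K)) :
    ∃ (C : Finset (HeightOneSpectrum (𝓞 K))) (R : Finset Kˣ),
      (∀ v ∈ C, v ∉ X) ∧
      (∀ v : HeightOneSpectrum (𝓞 K), v.asIdeal ⊔ 𝔪 = ⊤ → v ∉ C → ¬ IsRam (KummerField p R) v) ∧
      (∀ w ∉ S, InfinitePlace.IsUnramifiedIn (KummerField p R) w) ∧
      ∀ (v : HeightOneSpectrum (𝓞 K)) (hv : v.asIdeal ⊔ 𝔪 = ⊤), v ∉ C →
        artinAt (KummerField p R) v = 1 → rayClass h𝔪 ⟨primeIdeal v, hv⟩ ∈
          (powMonoidHom (α := RayClassGroup 𝔪) p).range ⊔ semiClasses h𝔪 S := by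
  have hp0 : Ideal.span {(p : 𝓞 K)} ≠ ⊥ := by simpa using hp.out.ne_zero
  set F := (Ideal.finite_factors h𝔪).toFinset
  set D := (Ideal.finite_factors hp0).toFinset \ F with hD
  have hX' : (X ∪ (F : Set (HeightOneSpectrum (𝓞 K)))).Finite := hX.union F.finite_toSet
  choose c hc hcX hcγ using fun γ : RayClassGroup (deepModulus p D) =>
    exists_prime_in_class_avoiding (deepModulus_ne_bot D) γ hX'
  haveI := finite_rayClassGroup (deepModulus_ne_bot (p := p) D)
  haveI := Fintype.ofFinite (RayClassGroup (deepModulus p D))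
  set C := Finset.univ.image c
  set A := F ∪ C
  have hT : ∀ v : HeightOneSpectrum (𝓞 K), (p : 𝓞 K) ∈ v.asIdeal → v ∈ A ∪ D := fun v hv => by
    by_cases h : v ∈ F
    · simp [A, h]
    · exact Finset.mem_union_right _ (Finset.mem_sdiff.2
        ⟨(Ideal.finite_factors hp0).mem_toFinset.2 (Ideal.dvd_span_singleton.2 hv), h⟩)
  have hcov : ∀ γ : RayClassGroup (deepModulus p D), ∃ (v : HeightOneSpectrum (𝓞 K))
      (hv : v.asIdeal ⊔ deepModulus p D = ⊤), v ∈ A ∧
        rayClass (deepModulus_ne_bot D) ⟨primeIdeal v, hv⟩ = γ := fun γ =>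
    ⟨c γ, hc γ, Finset.mem_union_right _ (Finset.mem_image_of_mem c (Finset.mem_univ γ)), hcγ γ⟩
  have hcl : IsClassSet (A ∪ D) := fun v => by
    by_cases hv : v ∈ A ∪ D
    · exact ⟨1, fun w hw => by rw [ord_one, if_neg fun h : w = v => hw (h ▸ hv)]⟩
    have hvc : v.asIdeal ⊔ deepModulus p D = ⊤ := (sup_eq_top_iff_not_le v _).2 fun h =>
      hv (Finset.mem_union_right _ (dvd_deepModulus_iff.1 (Ideal.dvd_iff_le.2 h)))
    obtain ⟨a, hac, haA, hγ⟩ := hcov (rayClass (deepModulus_ne_bot D) ⟨primeIdeal v, hvc⟩)⁻¹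
    have h1 : rayClass (deepModulus_ne_bot D) (⟨primeIdeal v, hvc⟩ * ⟨primeIdeal a, hac⟩) =
        rayClass (deepModulus_ne_bot D) 1 := by rw [map_mul, hγ, mul_inv_cancel, map_one]
    obtain ⟨x, y, hx, hy, hxy⟩ := (rayClass_eq_iff _).1 h1
    refine ⟨intU y hy.1 / intU x hx.1, fun w hw => ?_⟩
    have h2 := congrArg (ordI w) hxy
    simp only [Submonoid.coe_mul, OneMemClass.coe_one, mul_one,
      show ∀ u : HeightOneSpectrum (𝓞 K), (primeIdeal u).1 = u.asIdeal from fun _ => rfl] at h2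
    rw [ordI_mul w (by simpa using hx.1) (mul_ne_zero v.ne_bot a.ne_bot),
      ordI_mul w v.ne_bot a.ne_bot, ordI_prime, ordI_prime,
      if_neg fun h : w = a => hw (Finset.mem_union_left _ (h ▸ haA)), add_zero] at h2
    rw [ord_div, ord_intU_eq_ordI, ord_intU_eq_ordI, ← h2]
    split_ifs <;> push_cast <;> ring
  obtain ⟨R, hR, hRinc, hRcard⟩ := exists_kummer_reps hζ S hT hcov
  set L := KummerField p R
  haveI : IsMulCommutative (L ≃ₐ[K] L) := isMulCommutative_kummerField p R hζ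
  have hunr : ∀ v, v ∉ A → ¬ IsRam L v := fun v hv => not_isRam_kummerField hζ fun r hr => by
    by_cases hvD : v ∈ D
    · have h := (hR r hr).2 (Sum.inr ⟨v, Finset.mem_union_right _ hvD⟩)
      simpa [kummerCond, hv] using h
    · have hvT : v ∉ A ∪ D := by simp [hv, hvD]
      have he : pExp v p = 0 := pExp_eq_zero v p fun hm => hvT (hT v hm)
      have hz : zExp v ζ = 0 := by have := zExp_le_pExp v p hζ; omega
      rw [hz, mul_zero, mem_powSub_zero, mem_tUnit.1 (hR r hr).1 v hvT]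
      exact dvd_zero _
  have hinf : ∀ w ∉ S, InfinitePlace.IsUnramifiedIn L w := fun w hw =>
    isUnramifiedIn_kummerField hζ fun r hr hwr => by
      have h := (hR r hr).2 (Sum.inl w)
      simp only [kummerCond, Sum.elim_inl, if_neg hw] at h
      exact h hwr
  have hnot : ∀ v : HeightOneSpectrum (𝓞 K), v.asIdeal ⊔ 𝔪 = ⊤ → v ∉ C → v ∉ A := fun v hv hvC h =>
    (Finset.mem_union.1 h).elim (fun h' => (sup_eq_top_iff_not_le v 𝔪).1 hv
      (Ideal.le_of_dvd ((Ideal.finite_factors h𝔪).mem_toFinset.1 h'))) hvC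
  refine ⟨C, R, fun v hv => ?_, fun v hv hvC => hunr v (hnot v hv hvC), hinf, fun v hv hvC hart => ?_⟩
  · obtain ⟨γ, -, rfl⟩ := Finset.mem_image.1 hv
    exact fun h => hcX γ (Or.inl h)
  -- the modulus
  obtain ⟨𝔫, h𝔫, hiff, ω, hsurj, -, hω⟩ := exists_artinRayHom (K := K) (L := L)
  obtain ⟨𝔰, h𝔰, hsdvd, hsigned⟩ := exists_signed_modulus K L
  set 𝔐 := 𝔪 * 𝔫 * 𝔰 * deepModulus p A with h𝔐def
  have h𝔐 : 𝔐 ≠ ⊥ :=
    mul_ne_zero (mul_ne_zero (mul_ne_zero h𝔪 h𝔫) h𝔰) (deepModulus_ne_bot A)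
  have hle𝔪 : 𝔐 ≤ 𝔪 := Ideal.mul_le_left.trans (Ideal.mul_le_left.trans Ideal.mul_le_left)
  have hle𝔫 : 𝔐 ≤ 𝔫 := Ideal.mul_le_left.trans (Ideal.mul_le_left.trans Ideal.mul_le_right)
  have hle𝔰 : 𝔐 ≤ 𝔰 := Ideal.mul_le_left.trans Ideal.mul_le_right
  have hsupp : ∀ u : HeightOneSpectrum (𝓞 K), u.asIdeal ∣ 𝔐 ↔ u ∈ A := fun u => by
    refine ⟨fun hu => ?_, fun hu => dvd_mul_of_dvd_right (dvd_deepModulus_iff.2 hu) _⟩
    rcases u.prime.dvd_or_dvd hu with h | h
    · rcases u.prime.dvd_or_dvd h with h | h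
      · rcases u.prime.dvd_or_dvd h with h | h
        · exact Finset.mem_union_left _ ((Ideal.finite_factors h𝔪).mem_toFinset.2 h)
        · exact by_contra fun hn => hunr u hn ((hiff u).1 h)
      · exact by_contra fun hn => hunr u hn (hsdvd u h)
    · exact dvd_deepModulus_iff.1 h
  have hk : ∀ u ∈ A, 2 * pExp u p + 1 ≤ ordI u 𝔐 := fun u hu => by
    obtain ⟨M, hM⟩ : u.asIdeal ^ (2 * pExp u p + 1) ∣ 𝔐 := dvd_mul_of_dvd_right (Finset.dvd_prod_of_mem
      (fun u : HeightOneSpectrum (𝓞 K) => u.asIdeal ^ (2 * pExp u p + 1)) hu) _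
    rw [hM, ordI_mul u (pow_ne_zero _ u.ne_bot) (fun h => h𝔐 (by rw [hM, h, Ideal.mul_bot])),
      ordI_pow u u.ne_bot, ordI_prime, if_pos rfl, mul_one]
    exact Nat.le_add_right _ _
  set T := A ∪ D
  set N := kummerLoc p A D S
  have hidx := index_kummerLoc_ne_zero hζ A D S hT
  haveI : ∀ i, Finite (Kˣ ⧸ N i) := fun i =>
    haveI : (N i).FiniteIndex := ⟨(hidx i).1⟩
    Subgroup.finite_quotient_of_finiteIndex
  have hNA : ∀ u : {u // u ∈ T}, u.1 ∈ A → N (Sum.inr u) = powSub u.1 p (2 * pExp u.1 p + 1) :=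
    fun u hu => by simp [N, kummerLoc, hu]
  have hND : ∀ u : {u // u ∈ T}, u.1 ∉ A → N (Sum.inr u) = powSub u.1 p 0 :=
    fun u hu => by simp [N, kummerLoc, hu]
  -- the map to the local classes
  let Φ : coprimeIdeals 𝔐 →* LocClasses T N :=
    MonoidHom.mk' (fun I => idealClass N hcl I.1.1) fun I J =>
      idealClass_mul N hcl (nonZeroDivisors.coe_ne_zero I.1) (nonZeroDivisors.coe_ne_zero J.1)
  have hray : ∀ x : 𝓞 K, IsRayElt 𝔐 x → idealClass N hcl (Ideal.span {x}) = 1 := fun x hx => by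
    refine idealClass_eq_one N hcl (by simpa using hx.1) (a := intU x hx.1)
      (fun w _ => ord_intU_eq_ordI w hx.1) (fun w => ?_) fun u => ?_
    · simp only [N, kummerLoc, Sum.elim_inl]
      split_ifs
      exacts [fun h => hx.2.2 _, trivial]
    · by_cases hu : u.1 ∈ A
      · rw [hNA u hu]
        have hmem : intU x hx.1 ∈ nearUnits u.1 (ordI u.1 𝔐) := by
          refine mem_nearUnits_of_le _ ((Nat.le_add_left _ _).trans (hk u.1 hu)) ?_
          rw [intU_val]
          have h2 : x - 1 ∈ u.1.asIdeal ^ ordI u.1 𝔐 :=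
            Ideal.le_of_dvd (pow_multiplicity_dvd u.1.asIdeal 𝔐) hx.2.1
          have h3 := (valuation_coe_le_iff u.1 _ _).2 h2
          push_cast at h3
          exact h3
        have h0 := hmem.1
        rw [ord_intU_eq_ordI, Nat.cast_eq_zero] at h0
        rw [h0, pow_zero, one_div]
        exact inv_mem (Subgroup.mem_sup_left (nearUnits_antitone _ (hk u.1 hu) hmem))
      · rw [hND u hu, mem_powSub_zero, ord_div, ord_pow, ord_unif, mul_one, ord_intU_eq_ordI,
          sub_self]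
        exact dvd_zero _
  have hker : ∀ I J, rayClass h𝔐 I = rayClass h𝔐 J → Φ I = Φ J := fun I J h => by
    obtain ⟨x, y, hx, hy, hxy⟩ := (rayClass_eq_iff h𝔐).1 h
    have h1 := congrArg (idealClass N hcl) hxy
    rwa [idealClass_mul N hcl (by simpa using hx.1) (nonZeroDivisors.coe_ne_zero I.1),
      idealClass_mul N hcl (by simpa using hy.1) (nonZeroDivisors.coe_ne_zero J.1), hray x hx,
      hray y hy, one_mul, one_mul] at h1
  let Ψ : RayClassGroup 𝔐 →* LocClasses T N := rayLift h𝔐 Φ hker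
  have hdsurj : Function.Surjective (diag T N) := by
    refine diag_surjective T N (fun u => 2 * pExp u.1 p + 1) (fun w a ha => ?_) fun u a ha => ?_
    · simp only [N, kummerLoc, Sum.elim_inl]
      split_ifs
      exacts [ha, trivial]
    · by_cases hu : u.1 ∈ A
      · rw [hNA u hu]
        exact Subgroup.mem_sup_left (mem_nearUnits_of_le _ (Nat.le_add_left _ _) ha)
      · rw [hND u hu, mem_powSub_zero, ord_eq_zero_of_near (Nat.succ_pos _) ha]
        exact dvd_zero _
  have hΨsurj : Function.Surjective Ψ := fun γ => by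
    obtain ⟨I, hI, hIm, rfl⟩ := exists_idealClass_eq N hcl hdsurj (𝔪 := 𝔐)
      (fun u hu => Finset.mem_union_left _ ((hsupp u).1 hu)) γ
    exact ⟨_, rayLift_apply h𝔐 Φ hker ⟨⟨I, mem_nonZeroDivisors_iff_ne_zero.mpr hI⟩, hIm⟩⟩
  set Q := (powMonoidHom (α := RayClassGroup 𝔐) p).range ⊔ semiClasses h𝔐 S with hQ
  have hΨker : Ψ.ker ≤ Q := fun γ hγ => by
    obtain ⟨I, rfl⟩ := rayClass_surjective h𝔐 γ
    replace hγ : idealClass N hcl I.1.1 = 1 := (rayLift_apply h𝔐 Φ hker I).symm.trans hγ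
    obtain ⟨a, ha⟩ := exists_ord_ideal hcl (nonZeroDivisors.coe_ne_zero I.1)
    rw [idealClass_eq N hcl (nonZeroDivisors.coe_ne_zero I.1) ha, QuotientGroup.eq_one_iff] at hγ
    obtain ⟨e, he, heq⟩ := hγ
    have hcomp : ∀ i, Sum.elim (fun _ => (1 : Kˣ)) (fun u : {u // u ∈ T} => unif u.1 ^ ordI u.1 I.1.1) i
        / (a * e) ∈ N i := fun i => by
      rw [← QuotientGroup.eq_iff_div_mem]
      show expo T N I.1.1 i = diag T N (a * e) i
      rw [map_mul, heq, mul_div_cancel]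
    have hI0 : ∀ u : HeightOneSpectrum (𝓞 K), u.asIdeal ∣ 𝔐 → ordI u I.1.1 = 0 :=
      coprime_iff_ordI.1 I.2
    refine rayClass_mem_pow_sup_semi h𝔐 S I (a * e) (fun u hu => ?_) (fun u hu => ?_) fun w hw h => ?_
    · have hmem := hcomp (Sum.inr ⟨u, Finset.mem_union_left _ ((hsupp u).1 hu)⟩)
      rw [hNA _ ((hsupp u).1 hu), Sum.elim_inr, hI0 u hu, pow_zero, one_div, inv_mem_iff] at hmem
      rwa [← powSub_stable u p hζ (hk u ((hsupp u).1 hu))]
    · by_cases huT : u ∈ T
      · have hmem := hcomp (Sum.inr ⟨u, huT⟩)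
        rwa [hND _ (fun h => hu ((hsupp u).2 h)), Sum.elim_inr, mem_powSub_zero, ord_div, ord_pow,
          ord_unif, mul_one] at hmem
      · rw [ord_mul, ha u huT, he u huT, add_zero, sub_self]
        exact dvd_zero _
    · have hmem := hcomp (Sum.inl w)
      simp only [N, kummerLoc, Sum.elim_inl, if_pos hw, one_div, inv_mem_iff] at hmem
      exact hmem h
  let ω' : RayClassGroup 𝔐 →* (L ≃ₐ[K] L) := ω.comp (rayMap h𝔐 h𝔫 hle𝔫)
  have hω' : ∀ I : coprimeIdeals 𝔐, ω' (rayClass h𝔐 I) = artinHom L I.1 := fun I => by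
    show ω (rayMap h𝔐 h𝔫 hle𝔫 (rayClass h𝔐 I)) = _
    rw [rayMap_apply, hω]
  have hQle : Q ≤ ω'.ker := by
    refine sup_le ?_ ?_
    · rintro _ ⟨δ, rfl⟩
      rw [MonoidHom.mem_ker, powMonoidHom_apply, map_pow, pow_kummerField p R hζ]
    · rw [semiClasses, Subgroup.closure_le]
      rintro _ ⟨x, hx, rfl⟩
      rw [SetLike.mem_coe, MonoidHom.mem_ker, hω']
      refine hsigned x _ hx.1 (hle𝔰 hx.2.1) (fun w hw h => hx.2.2 w ?_ h) rfl
      exact by_contra fun hn => hw (hinf w hn)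
  haveI := finite_rayClassGroup h𝔐
  have hω'surj : Function.Surjective ω' := hsurj.comp (rayMap_surjective h𝔐 h𝔫 hle𝔫)
  have hindex : Q.index ≤ ω'.ker.index := by
    refine le_trans ?_ ((hRcard.trans (card_le_card_kummerGroup p R hζ hRinc)).trans (le_of_eq ?_))
    · rw [show Nat.card (LocClasses T N) = Ψ.ker.index by
        rw [Subgroup.index_ker, MonoidHom.range_eq_top.2 hΨsurj,
          Nat.card_congr Subgroup.topEquiv.toEquiv]]
      exact Nat.le_of_dvd (Nat.pos_of_ne_zero Subgroup.index_ne_zero_of_finite)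
        (Subgroup.index_dvd_of_le hΨker)
    · rw [Subgroup.index_ker, MonoidHom.range_eq_top.2 hω'surj,
        Nat.card_congr Subgroup.topEquiv.toEquiv]
  have hQeq : ω'.ker ≤ Q := by
    rw [← Subgroup.relIndex_eq_one]
    have h1 := Subgroup.relIndex_mul_index hQle
    have hne : Q.relIndex ω'.ker ≠ 0 := Subgroup.index_ne_zero_of_finite
    have : Q.relIndex ω'.ker ≤ 1 := by
      refine Nat.le_of_mul_le_mul_right ?_ (Nat.pos_of_ne_zero
        (Subgroup.index_ne_zero_of_finite (H := ω'.ker)))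
      rw [h1, one_mul]
      exact hindex
    omega
  have hv' : v.asIdeal ⊔ 𝔐 = ⊤ := (sup_eq_top_iff_not_le v _).2 fun h =>
    hnot v hv hvC ((hsupp v).1 (Ideal.dvd_iff_le.2 h))
  have hmem : rayClass h𝔐 ⟨primeIdeal v, hv'⟩ ∈ Q :=
    hQeq ((hω' _).trans ((artinHom_prime v).trans hart))
  have h2 := Subgroup.mem_map_of_mem (rayMap h𝔐 h𝔪 hle𝔪) hmem
  rw [rayMap_apply, hQ, Subgroup.map_sup] at h2
  refine sup_le_sup ?_ (map_semiClasses_le h𝔐 h𝔪 hle𝔪 S) h2
  rintro _ ⟨_, ⟨δ, rfl⟩, rfl⟩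
  exact ⟨rayMap h𝔐 h𝔪 hle𝔪 δ, (map_pow _ _ _).symm⟩

end FA.ArtinRec
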