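import Fermat.Agent.ExistenceTheorem.Descent
import Fermat.Agent.ExistenceTheorem.KummerExistence
import Mathlib.NumberTheory.Cyclotomic.Gal

/-!
# The existence theorem

Every subgroup of a ray class group containing the classes positive at a set of real places is the
kernel of the Artin symbol of an abelian extension unramified outside the modulus and at the other
real places: induction on the index, with Kummer theory over the field with the roots of unity.
-/

set_option autoImplicit false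
set_option linter.unusedSectionVars false
set_option linter.style.haveILetI false

noncomputable section

universe u

open NumberField NumberField.InfinitePlace IsDedekindDomain Finset
open FA.Hecke (IsRayElt coprimeIdeals RayClassGroup rayClass rayClass_eq_iff rayClass_surjective
  finite_rayClassGroup)
open FA.Ext (primeIdeal)
open scoped Pointwise nonZeroDivisors Classical

namespace FA.ArtinRec

theorem sup_prime_mem_iff {F : Type*} [Field F] [NumberField F] {𝔪 : Ideal (𝓞 F)}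
    {C : Finset (HeightOneSpectrum (𝓞 F))} (v : HeightOneSpectrum (𝓞 F)) :
    v.asIdeal ⊔ 𝔪 * ∏ u ∈ C, u.asIdeal = ⊤ ↔ v.asIdeal ⊔ 𝔪 = ⊤ ∧ v ∉ C := by
  rw [sup_eq_top_iff_not_le, sup_eq_top_iff_not_le, ← Ideal.dvd_iff_le, ← Ideal.dvd_iff_le]
  refine ⟨fun h1 => ⟨fun h2 => h1 (dvd_mul_of_dvd_left h2 _), fun h2 => h1 (dvd_mul_of_dvd_right
    (Finset.dvd_prod_of_mem (fun u : HeightOneSpectrum (𝓞 F) => u.asIdeal) h2) _)⟩,
    fun ⟨h1, h2⟩ h3 => ?_⟩
  rcases v.prime.dvd_or_dvd h3 with h4 | h4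
  · exact h1 h4
  · obtain ⟨u, hu, hd⟩ := v.prime.exists_mem_finset_dvd h4
    exact h2 (by rwa [show v = u from HeightOneSpectrum.ext
      ((prime_dvd_prime_iff_eq v.prime u.prime).1 hd)])

/-- A subgroup of index `n > 1` lies in one of prime index. -/
theorem exists_le_index_prime {G : Type*} [Group G] [IsMulCommutative G] [Finite G]
    (H : Subgroup G) (hH : H.index ≠ 1) :
    ∃ (p : ℕ) (H₁ : Subgroup G), p.Prime ∧ H ≤ H₁ ∧ H₁.index = p := by
  haveI : H.Normal := ⟨fun b hb g => by rwa [mul_comm' g b, mul_inv_cancel_right]⟩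
  letI : CommGroup (G ⧸ H) :=
    { (inferInstance : Group (G ⧸ H)) with
      mul_comm := fun a b => Quotient.inductionOn₂' a b fun a b => congrArg _ (mul_comm' a b) }
  obtain ⟨p, hp, hdvd⟩ := Nat.exists_prime_and_dvd hH
  haveI := Fact.mk hp
  haveI : NeZero p := ⟨hp.ne_zero⟩
  obtain ⟨e⟩ := CommGroup.monoidHom_mulEquiv_of_hasEnoughRootsOfUnity (G ⧸ H) ℂ
  haveI : Finite (G ⧸ H →* ℂˣ) := Finite.of_equiv _ e.symm.toEquiv
  obtain ⟨χ, hχ⟩ := exists_prime_orderOf_dvd_card' (G := G ⧸ H →* ℂˣ) p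
    (by rwa [Nat.card_congr e.toEquiv, ← Subgroup.index_eq_card])
  refine ⟨p, χ.ker.comap (QuotientGroup.mk' H), hp, fun h hh => ?_, ?_⟩
  · show χ (QuotientGroup.mk h) = 1
    rw [(QuotientGroup.eq_one_iff h).2 hh, map_one]
  rw [Subgroup.index_comap_of_surjective _ (QuotientGroup.mk'_surjective H), Subgroup.index_ker]
  have hle : χ.range ≤ rootsOfUnity p ℂ := by
    rintro _ ⟨x, rfl⟩
    rw [mem_rootsOfUnity, ← MonoidHom.pow_apply, ← hχ, pow_orderOf_eq_one, MonoidHom.one_apply]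
  have hd : Nat.card χ.range ∣ p := by
    have h := Subgroup.card_dvd_of_le hle
    rwa [Complex.card_rootsOfUnity] at h
  refine (hp.eq_one_or_self_of_dvd _ hd).resolve_left fun h1 => hp.ne_one ?_
  have hbot : χ.range = ⊥ := Subgroup.card_eq_one.1 h1
  rw [← hχ, orderOf_eq_one_iff]
  exact MonoidHom.ext fun x => (Subgroup.eq_bot_iff_forall _).1 hbot _ ⟨x, rfl⟩

variable {K : Type u} [Field K] [NumberField K]

/-- Over a field with the roots of unity. -/
theorem hasClassField_kummer {p : ℕ} [Fact p.Prime] {ζ : 𝓞 K} (hζ : IsPrimitiveRoot (ζ : K) p)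
    {𝔪 : Ideal (𝓞 K)} (h𝔪 : 𝔪 ≠ ⊥) {S : Set (InfinitePlace K)}
    {H : Subgroup (RayClassGroup 𝔪)} (hpow : ∀ γ, γ ^ p ∈ H) (hS : semiClasses h𝔪 S ≤ H) :
    HasClassField h𝔪 S H :=
  hasClassField_of_disjoint h𝔪 fun X hX => by
    obtain ⟨C, R, hC, hunr, hinf, hsplit⟩ := exists_kummer_splitting hζ h𝔪 hX S
    exact ⟨C, hC, KummerField p R, inferInstance, inferInstance, inferInstance, inferInstance,
      isMulCommutative_kummerField p R hζ, hunr, hinf, fun v hv hvC h1 =>
        sup_le (by rintro _ ⟨δ, rfl⟩; exact hpow δ) hS (hsplit v hv hvC h1)⟩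

/-- The subgroup of index one. -/
theorem hasClassField_top {𝔪 : Ideal (𝓞 K)} (h𝔪 : 𝔪 ≠ ⊥) (S : Set (InfinitePlace K)) :
    HasClassField h𝔪 S (⊤ : Subgroup (RayClassGroup 𝔪)) := by
  haveI hsub : Subsingleton (K ≃ₐ[K] K) := ⟨fun a b => AlgEquiv.ext fun x =>
    (a.commutes x).trans (b.commutes x).symm⟩
  haveI : IsGalois K K := IsGalois.self K
  exact ⟨K, inferInstance, inferInstance, inferInstance, inferInstance,
    ⟨⟨fun a b => Subsingleton.elim _ _⟩⟩,
    fun v _ ⟨Q, _, hne⟩ => hne ((Subgroup.eq_bot_iff_forall _).2 fun _ _ => Subsingleton.elim _ _),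
    fun w _ z hz => InfinitePlace.isUnramified_self z, fun v hv _ => trivial⟩

/-- **Prime index.** -/
theorem hasClassField_of_prime_index {p : ℕ} (hp : p.Prime) {𝔪 : Ideal (𝓞 K)} (h𝔪 : 𝔪 ≠ ⊥)
    {S : Set (InfinitePlace K)} {H : Subgroup (RayClassGroup 𝔪)} (hH : H.index = p)
    (hS : semiClasses h𝔪 S ≤ H) : HasClassField h𝔪 S H := by
  haveI := Fact.mk hp
  haveI : NeZero p := ⟨hp.ne_zero⟩
  let K' := CyclotomicField p K
  haveI : NumberField K' := NumberField.of_module_finite K K'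
  haveI : IsGalois K K' := IsCyclotomicExtension.isGalois {p} K K'
  have hζ := IsCyclotomicExtension.zeta_spec p K K'
  have hinj : Function.Injective (hζ.autToPow K) := IsPrimitiveRoot.autToPow_injective K hζ
  haveI : IsCyclic (ZMod p)ˣ := inferInstance
  haveI : IsCyclic (K' ≃ₐ[K] K') := isCyclic_of_injective _ hinj
  have hdeg : Module.finrank K K' ∣ p - 1 := by
    rw [← IsGalois.card_aut_eq_finrank, ← ZMod.card_units p, ← Nat.card_eq_fintype_card]
    exact Subgroup.card_dvd_of_injective _ hinj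
  have hpowH : ∀ γ : RayClassGroup 𝔪, γ ^ p ∈ H := fun γ => by
    rw [← hH]
    exact Subgroup.pow_index_mem H γ
  have hF' : HasClassField (upMod_ne_bot (F := K') h𝔪) (placesAbove K' S) (H.comap (rayNorm h𝔪)) :=
    hasClassField_kummer (ζ := hζ.toInteger) hζ _ (fun γ => by
      rw [Subgroup.mem_comap, map_pow]; exact hpowH _)
      (Subgroup.map_le_iff_le_comap.1 ((map_semiClasses_rayNorm_le h𝔪 S).trans hS))
  obtain ⟨L, _, _, _, _, _, _, _, hin, hinf, hsplit⟩ := exists_descent h𝔪 hF'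
  set C := (finite_isRam K K').toFinset
  set 𝔪' : Ideal (𝓞 K) := 𝔪 * ∏ u ∈ C, u.asIdeal
  have h𝔪' : 𝔪' ≠ ⊥ := mul_ne_zero h𝔪 (Finset.prod_ne_zero_iff.2 fun v _ => v.ne_bot)
  have hle : 𝔪' ≤ 𝔪 := Ideal.mul_le_left
  set S' : Set (InfinitePlace K) := S ∪ {w | ¬ InfinitePlace.IsUnramifiedIn K' w}
  have hw : IsWeakClassField L h𝔪' S' (H.comap (rayMap h𝔪' h𝔪 hle)) := by
    refine ⟨fun v hv => ?_, fun w hw => ?_, fun v hv hart => ?_⟩
    · obtain ⟨hvm, hvC⟩ := (sup_prime_mem_iff v).1 hv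
      exact not_isRam_trans (L := K') (fun h => hvC ((finite_isRam K K').mem_toFinset.2 h))
        fun Q hQ s hs h1 => hin v hvm Q hQ s hs h1
    · simp only [S', Set.mem_union, Set.mem_ofPred_eq, not_or, not_not] at hw
      exact hinf w hw.1 hw.2
    · rw [Subgroup.mem_comap, rayMap_apply]
      exact hsplit v _ hart
  obtain ⟨F, hFg, hFc, hcf⟩ := hw.exists_classField
  have hcard : Nat.card (F ≃ₐ[K] F) = p := by
    rw [hcf.card_eq, Subgroup.index_comap_of_surjective _ (rayMap_surjective h𝔪' h𝔪 hle), hH]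
  refine ⟨F, inferInstance, inferInstance, inferInstance, hFg, hFc,
    isWeakClassField_of_finite_exception h𝔪 (B := (C : Set (HeightOneSpectrum (𝓞 K))))
      C.finite_toSet (fun v hv => ?_) (fun w hw => ?_) fun v hv hvC hart => ?_⟩
  · rintro ⟨P, hP, hne⟩
    refine hne ((Subgroup.eq_bot_iff_forall _).2 fun s hs => ?_)
    obtain ⟨Q, hQ⟩ := exists_belowP F L P
    haveI := Q.isMaximal
    obtain ⟨t, ht, hts⟩ := FA.ArtinL.exists_inertia_lift (K := K) (M := F) (L := L) Q.asIdeal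
      (τ := s) (by rwa [← show belowP F Q = P from hQ] at hs)
    have h1 : t ^ (p - 1) = 1 := by
      refine hin v hv Q ?_ _ (pow_mem ht _) ?_
      · rw [← belowP_belowP (L := F), hQ, hP]
      · obtain ⟨m, hm⟩ := hdeg
        rw [map_pow, hm, pow_mul, ← IsGalois.card_aut_eq_finrank, pow_card_eq_one', one_pow]
    have h2 : s ^ (p - 1) = 1 := by rw [← hts, ← map_pow, h1, map_one]
    have h3 : s ^ p = 1 := by rw [← hcard]; exact pow_card_eq_one'
    have h4 := (pow_gcd_eq_one (a := s)).2 ⟨h2, h3⟩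
    rwa [show Nat.gcd (p - 1) p = 1 from Nat.Coprime.gcd_eq_one (Nat.Coprime.symm
      ((hp.coprime_iff_not_dvd).2 fun hd => absurd (Nat.le_of_dvd (by have := hp.two_le; omega) hd)
        (by have := hp.two_le; omega))), pow_one] at h4
  · by_contra hram
    have heven : Even (Module.finrank K F) := InfinitePlace.even_finrank_of_not_isUnramifiedIn hram
    rw [← IsGalois.card_aut_eq_finrank, hcard, hp.even_iff] at heven
    refine hram (hcf.unramInf w ?_)
    simp only [S', Set.mem_union, Set.mem_ofPred_eq, not_or, not_not]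
    refine ⟨hw, by_contra fun hK' => ?_⟩
    have h1 := InfinitePlace.even_finrank_of_not_isUnramifiedIn hK'
    rw [show p - 1 = 1 by omega] at hdeg
    rw [Nat.dvd_one.1 hdeg] at h1
    exact Nat.not_even_one h1
  · have hv' : v.asIdeal ⊔ 𝔪' = ⊤ := (sup_prime_mem_iff v).2 ⟨hv, hvC⟩
    have h1 := (hcf.artinAt_eq_one_iff v hv').1 hart
    rwa [Subgroup.mem_comap, rayMap_apply] at h1

theorem hasClassField_aux (n : ℕ) :
    ∀ (K : Type u) [Field K] [NumberField K] {𝔪 : Ideal (𝓞 K)} (h𝔪 : 𝔪 ≠ ⊥)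
      (S : Set (InfinitePlace K)) (H : Subgroup (RayClassGroup 𝔪)),
      H.index = n → semiClasses h𝔪 S ≤ H → HasClassField h𝔪 S H := by
  induction n using Nat.strong_induction_on with
  | _ n ih =>
  intro K _ _ 𝔪 h𝔪 S H hn hS
  haveI := finite_rayClassGroup h𝔪
  by_cases h1 : H.index = 1
  · rw [Subgroup.index_eq_one.1 h1]
    exact hasClassField_top h𝔪 S
  obtain ⟨p, H₁, hp, hHH₁, hH₁⟩ := exists_le_index_prime (G := RayClassGroup 𝔪) H h1
  by_cases hnp : H.index = p
  · exact hasClassField_of_prime_index hp h𝔪 hnp hS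
  have hmul := Subgroup.relIndex_mul_index hHH₁
  rw [hH₁] at hmul
  have hne : H.index ≠ 0 := Subgroup.index_ne_zero_of_finite
  have hlt : H.relIndex H₁ < n := by
    have h0 : H.relIndex H₁ ≠ 0 := fun h0 => hne (by rw [← hmul, h0, zero_mul])
    rw [← hn, ← hmul]
    exact lt_mul_of_one_lt_right (Nat.pos_of_ne_zero h0) hp.one_lt
  obtain ⟨F, _, _, _, _, _, hF⟩ := (hasClassField_of_prime_index hp h𝔪 hH₁
    (hS.trans hHH₁)).exists_classField
  haveI := Fact.mk hp
  haveI : IsCyclic (F ≃ₐ[K] F) := isCyclic_of_prime_card (p := p) (by rw [hF.card_eq, hH₁])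
  have hidx : (H.comap (rayNorm (F := F) h𝔪)).index ≤ H.relIndex H₁ := by
    rw [Subgroup.index_comap]
    refine Subgroup.relIndex_le_of_le_right (range_rayNorm_le h𝔪 hF) fun h0 => ?_
    exact hne (by rw [← hmul, h0, zero_mul])
  obtain ⟨L, _, _, _, _, _, _, _, hin, hinf, hsplit⟩ := exists_descent h𝔪
    (ih _ (hidx.trans_lt hlt) F (upMod_ne_bot h𝔪) (placesAbove F S) _ rfl
      (Subgroup.map_le_iff_le_comap.1 ((map_semiClasses_rayNorm_le h𝔪 S).trans hS)))
  exact ⟨L, inferInstance, inferInstance, inferInstance, inferInstance, inferInstance,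
    fun v hv => not_isRam_trans (L := F) (hF.unram v hv) fun Q hQ s hs h => hin v hv Q hQ s hs h,
    fun w hw => hinf w hw (hF.unramInf w hw), hsplit⟩

/-- **The existence theorem.** -/
theorem exists_classField {𝔪 : Ideal (𝓞 K)} (h𝔪 : 𝔪 ≠ ⊥) (S : Set (InfinitePlace K))
    (H : Subgroup (RayClassGroup 𝔪)) (hS : semiClasses h𝔪 S ≤ H) :
    ∃ (L : Type u) (_ : Field L) (_ : NumberField L) (_ : Algebra K L) (_ : IsGalois K L)
      (_ : IsMulCommutative (L ≃ₐ[K] L)), IsClassField L h𝔪 S H :=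
  (hasClassField_aux _ K h𝔪 S H rfl hS).exists_classField

end FA.ArtinRec
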