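import Fermat.Agent.ArtinReciprocity.Abelian

/-!
# Symbols along embeddings, fields determined by their split primes

Ramification and trivial symbols pass to subfields; inertia restricts; of two abelian extensions
inside an algebraic closure the one in which more primes split is contained in the other.
-/

set_option autoImplicit false
set_option linter.unusedSectionVars false
set_option linter.style.haveILetI false

noncomputable section

open NumberField NumberField.InfinitePlace IsDedekindDomain Finset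
open scoped Pointwise nonZeroDivisors Classical

namespace FA.ArtinRec

variable {K L M : Type*} [Field K] [NumberField K] [Field L] [NumberField L] [Field M]
  [NumberField M] [Algebra K L] [Algebra K M] [IsGalois K L] [IsGalois K M]

theorem isRam_of_algHom (f : L →ₐ[K] M) {v : HeightOneSpectrum (𝓞 K)} (h : ¬ IsRam M v) :
    ¬ IsRam L v :=
  letI : Algebra L M := f.toRingHom.toAlgebra
  haveI : IsScalarTower K L M := IsScalarTower.of_algebraMap_eq fun x => (f.commutes x).symm
  fun hr => h (isRam_of_tower hr)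

theorem artinAt_eq_one_of_algHom [IsMulCommutative (L ≃ₐ[K] L)] (f : L →ₐ[K] M)
    {v : HeightOneSpectrum (𝓞 K)} (hv : ¬ IsRam L v) (h : artinAt M v = 1) : artinAt L v = 1 := by
  letI : Algebra L M := f.toRingHom.toAlgebra
  haveI : IsScalarTower K L M := IsScalarTower.of_algebraMap_eq fun x => (f.commutes x).symm
  obtain ⟨Q, hQ, hτ⟩ := artinAt_spec (L := M) v
  rw [← restrict_frob (L := L) hv hQ hτ, h, map_one]

theorem isUnramifiedIn_of_algHom (f : L →ₐ[K] M) {w : InfinitePlace K}
    (h : w.IsUnramifiedIn M) : w.IsUnramifiedIn L := by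
  letI : Algebra L M := f.toRingHom.toAlgebra
  haveI : IsScalarTower K L M := IsScalarTower.of_algebraMap_eq fun x => (f.commutes x).symm
  intro u hu
  obtain ⟨z, rfl⟩ := InfinitePlace.comap_surjective (K := M) u
  refine (h z ?_).comap L
  rw [← hu, IsScalarTower.algebraMap_eq K L M]
  rfl

section tower

variable [Algebra L M] [IsScalarTower K L M]

theorem restrict_mem_inertia {Q : HeightOneSpectrum (𝓞 M)} {s : M ≃ₐ[K] M}
    (hs : s ∈ Q.asIdeal.inertia (M ≃ₐ[K] M)) :
    AlgEquiv.restrictNormalHom L s ∈ (belowP L Q).asIdeal.inertia (L ≃ₐ[K] L) := fun y => by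
  show AlgEquiv.restrictNormalHom L s • y - y ∈ Q.asIdeal.under (𝓞 L)
  rw [Ideal.mem_comap, map_sub, FA.ArtinL.algebraMap_restrictNormal_smul]
  exact hs _

/-- Unramified at both steps is unramified. -/
theorem not_isRam_trans {v : HeightOneSpectrum (𝓞 K)} (h : ¬ IsRam L v)
    (h' : ∀ Q : HeightOneSpectrum (𝓞 M), belowP K Q = v → ∀ s ∈ Q.asIdeal.inertia (M ≃ₐ[K] M),
      AlgEquiv.restrictNormalHom L s = 1 → s = 1) : ¬ IsRam M v := by
  rintro ⟨Q, hQ, hne⟩
  refine hne ((Subgroup.eq_bot_iff_forall _).2 fun s hs => h' Q hQ s hs ?_)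
  have h1 := restrict_mem_inertia (L := L) hs
  rwa [inertia_eq_bot h ((belowP_belowP Q).trans hQ), Subgroup.mem_bot] at h1

end tower

/-- **Split primes determine the field.** -/
theorem le_of_split_subset {Ω : Type*} [Field Ω] [Algebra K Ω] {L₁ L₂ : IntermediateField K Ω}
    [FiniteDimensional K L₁] [FiniteDimensional K L₂] [IsGalois K L₁] [IsGalois K L₂]
    [NumberField L₁] [NumberField L₂]
    [IsMulCommutative (L₁ ≃ₐ[K] L₁)] [IsMulCommutative (L₂ ≃ₐ[K] L₂)]
    {B : Set (HeightOneSpectrum (𝓞 K))} (hB : B.Finite)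
    (h : ∀ v, v ∉ B → artinAt L₁ v = 1 → artinAt L₂ v = 1) : L₂ ≤ L₁ := by
  set M : IntermediateField K Ω := L₁ ⊔ L₂
  haveI : NumberField M := NumberField.of_module_finite K M
  haveI : Normal K M := inferInstanceAs (Normal K ↥(L₁ ⊔ L₂))
  haveI : IsGalois K M := ⟨⟩
  letI : Algebra L₁ M := (IntermediateField.inclusion (le_sup_left : L₁ ≤ M)).toRingHom.toAlgebra
  letI : Algebra L₂ M := (IntermediateField.inclusion (le_sup_right : L₂ ≤ M)).toRingHom.toAlgebra
  haveI : IsScalarTower K L₁ M := IsScalarTower.of_algebraMap_eq fun _ => rfl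
  haveI : IsScalarTower K L₂ M := IsScalarTower.of_algebraMap_eq fun _ => rfl
  have hinj : ∀ g : M ≃ₐ[K] M, AlgEquiv.restrictNormalHom L₁ g = 1 →
      AlgEquiv.restrictNormalHom L₂ g = 1 → g = 1 := by
    intro g h1 h2
    let Fg : IntermediateField K M := IntermediateField.fixedField (Subgroup.zpowers g)
    have hfix : ∀ x : M, g x = x → x ∈ Fg := fun x hx => by
      rintro ⟨k, hk⟩
      obtain ⟨i, rfl⟩ := hk
      exact (Subgroup.zpowers_le.2 (show g ∈ MulAction.stabilizer (M ≃ₐ[K] M) x from hx)) ⟨i, rfl⟩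
    have hle : M ≤ IntermediateField.lift Fg := sup_le
      (fun x hx => ⟨⟨x, (le_sup_left : L₁ ≤ M) hx⟩, hfix _ (by
        have h3 := g.restrictNormal_commutes L₁ ⟨x, hx⟩
        rw [show g.restrictNormal L₁ ⟨x, hx⟩ = ⟨x, hx⟩ from DFunLike.congr_fun h1 _] at h3
        exact h3.symm), rfl⟩)
      (fun x hx => ⟨⟨x, (le_sup_right : L₂ ≤ M) hx⟩, hfix _ (by
        have h3 := g.restrictNormal_commutes L₂ ⟨x, hx⟩
        rw [show g.restrictNormal L₂ ⟨x, hx⟩ = ⟨x, hx⟩ from DFunLike.congr_fun h2 _] at h3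
        exact h3.symm), rfl⟩)
    refine AlgEquiv.ext fun x => ?_
    obtain ⟨y, hy, hyx⟩ := hle x.2
    rw [← show y = x from Subtype.ext hyx]
    exact hy ⟨g, Subgroup.mem_zpowers g⟩
  haveI : IsMulCommutative (M ≃ₐ[K] M) := by
    refine ⟨⟨fun a b => mul_inv_eq_one.1 (hinj _ ?_ ?_)⟩⟩
    · rw [map_mul, map_inv, map_mul, map_mul, mul_comm' (AlgEquiv.restrictNormalHom L₁ a),
        mul_inv_cancel]
    · rw [map_mul, map_inv, map_mul, map_mul, mul_comm' (AlgEquiv.restrictNormalHom L₂ a),
        mul_inv_cancel]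
  have hker : ∀ g : M ≃ₐ[K] M, AlgEquiv.restrictNormalHom L₁ g = 1 → g = 1 := fun g hg => by
    refine hinj g hg ?_
    obtain ⟨v, hv, hvB⟩ := ((infinite_artinAt (L := M) g).sdiff
      (hB.union (finite_isRam K M))).nonempty
    simp only [Set.mem_union, Set.mem_ofPred_eq, not_or] at hvB
    obtain ⟨Q, hQ, hτ⟩ := artinAt_spec (L := M) v
    have h1 := restrict_frob (L := L₁) (fun hr => hvB.2 (isRam_of_tower hr)) hQ hτ
    have h2 := restrict_frob (L := L₂) (fun hr => hvB.2 (isRam_of_tower hr)) hQ hτ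
    rw [hv] at h1 h2
    rw [h2, h v hvB.1 (h1.symm.trans hg)]
  intro x hx
  let E : IntermediateField K M := (IsScalarTower.toAlgHom K L₁ M).fieldRange
  have hmem : (⟨x, (le_sup_right : L₂ ≤ M) hx⟩ : M) ∈ IntermediateField.fixedField
      E.fixingSubgroup := by
    rintro ⟨g, hg⟩
    have hg1 : g = 1 := hker g (AlgEquiv.ext fun y => (algebraMap L₁ M).injective
      ((g.restrictNormal_commutes L₁ y).trans (hg ⟨_, y, rfl⟩)))
    subst hg1
    rfl
  rw [IsGalois.fixedField_fixingSubgroup] at hmem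
  obtain ⟨y, hy⟩ := hmem
  have : ((y : L₁) : Ω) = x := congrArg Subtype.val hy
  exact this ▸ y.2

end FA.ArtinRec
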