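import Fermat.Agent.ExistenceTheorem.RayMaps
import Fermat.Agent.ExistenceTheorem.SignedReciprocity
import Fermat.Agent.ExistenceTheorem.Transfer

/-!
# Class fields

An abelian extension unramified outside the modulus and a set of real places in which only primes
with class in a subgroup split contains one whose Artin symbol has exactly that kernel; auxiliary
ramified primes disappear when two such extensions avoid each other's.
-/

set_option autoImplicit false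
set_option linter.unusedSectionVars false
set_option linter.style.haveILetI false

noncomputable section

universe u

open NumberField NumberField.InfinitePlace IsDedekindDomain Finset
open FA.Hecke (IsRayElt coprimeIdeals RayClassGroup rayClass rayClass_eq_iff rayClass_surjective
  finite_rayClassGroup)
open FA.Ext (primeIdeal)
open scoped Pointwise nonZeroDivisors Classical

namespace FA.ArtinRec

variable {K : Type u} [Field K] [NumberField K]

/-- Unramified outside `𝔪` and at the real places outside `S`, and only primes with class in `H`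
split. -/
structure IsWeakClassField (L : Type*) [Field L] [NumberField L] [Algebra K L] [IsGalois K L]
    {𝔪 : Ideal (𝓞 K)} (h𝔪 : 𝔪 ≠ ⊥) (S : Set (InfinitePlace K))
    (H : Subgroup (RayClassGroup 𝔪)) : Prop where
  unram : ∀ v : HeightOneSpectrum (𝓞 K), v.asIdeal ⊔ 𝔪 = ⊤ → ¬ IsRam L v
  unramInf : ∀ w ∉ S, InfinitePlace.IsUnramifiedIn L w
  split : ∀ (v : HeightOneSpectrum (𝓞 K)) (hv : v.asIdeal ⊔ 𝔪 = ⊤), artinAt L v = 1 →
    rayClass h𝔪 ⟨primeIdeal v, hv⟩ ∈ H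

/-- The class field of `H`: the Artin symbol is onto with kernel `H`. -/
structure IsClassField (L : Type*) [Field L] [NumberField L] [Algebra K L] [IsGalois K L]
    [IsMulCommutative (L ≃ₐ[K] L)]
    {𝔪 : Ideal (𝓞 K)} (h𝔪 : 𝔪 ≠ ⊥) (S : Set (InfinitePlace K))
    (H : Subgroup (RayClassGroup 𝔪)) : Prop where
  unram : ∀ v : HeightOneSpectrum (𝓞 K), v.asIdeal ⊔ 𝔪 = ⊤ → ¬ IsRam L v
  unramInf : ∀ w ∉ S, InfinitePlace.IsUnramifiedIn L w
  artin : ∃ ω : RayClassGroup 𝔪 →* (L ≃ₐ[K] L), Function.Surjective ω ∧ ω.ker = H ∧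
    ∀ I : coprimeIdeals 𝔪, ω (rayClass h𝔪 I) = artinHom L I.1

/-- A weak class field exists. -/
def HasClassField {𝔪 : Ideal (𝓞 K)} (h𝔪 : 𝔪 ≠ ⊥) (S : Set (InfinitePlace K))
    (H : Subgroup (RayClassGroup 𝔪)) : Prop :=
  ∃ (L : Type u) (_ : Field L) (_ : NumberField L) (_ : Algebra K L) (_ : IsGalois K L)
    (_ : IsMulCommutative (L ≃ₐ[K] L)), IsWeakClassField L h𝔪 S H

section

variable {L : Type*} [Field L] [NumberField L] [Algebra K L] [IsGalois K L]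
  [IsMulCommutative (L ≃ₐ[K] L)] {𝔪 : Ideal (𝓞 K)} {h𝔪 : 𝔪 ≠ ⊥} {S : Set (InfinitePlace K)}
  {H : Subgroup (RayClassGroup 𝔪)}

theorem IsClassField.artinAt_eq_one_iff (h : IsClassField L h𝔪 S H)
    (v : HeightOneSpectrum (𝓞 K)) (hv : v.asIdeal ⊔ 𝔪 = ⊤) :
    artinAt L v = 1 ↔ rayClass h𝔪 ⟨primeIdeal v, hv⟩ ∈ H := by
  obtain ⟨ω, -, hker, hω⟩ := h.artin
  rw [← hker, MonoidHom.mem_ker, hω, artinHom_prime]

theorem IsClassField.weak (h : IsClassField L h𝔪 S H) : IsWeakClassField L h𝔪 S H :=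
  ⟨h.unram, h.unramInf, fun v hv h1 => (h.artinAt_eq_one_iff v hv).1 h1⟩

theorem IsClassField.card_eq (h : IsClassField L h𝔪 S H) :
    Nat.card (L ≃ₐ[K] L) = H.index := by
  obtain ⟨ω, hs, hker, -⟩ := h.artin
  rw [← hker, Subgroup.index_ker, MonoidHom.range_eq_top.2 hs,
    Nat.card_congr Subgroup.topEquiv.toEquiv]

variable (h𝔪) in
/-- The splitting condition may fail at finitely many primes. -/
theorem isWeakClassField_of_finite_exception {B : Set (HeightOneSpectrum (𝓞 K))} (hB : B.Finite)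
    (hunram : ∀ v : HeightOneSpectrum (𝓞 K), v.asIdeal ⊔ 𝔪 = ⊤ → ¬ IsRam L v)
    (hinf : ∀ w ∉ S, InfinitePlace.IsUnramifiedIn L w)
    (hsplit : ∀ (v : HeightOneSpectrum (𝓞 K)) (hv : v.asIdeal ⊔ 𝔪 = ⊤), v ∉ B →
      artinAt L v = 1 → rayClass h𝔪 ⟨primeIdeal v, hv⟩ ∈ H) :
    IsWeakClassField L h𝔪 S H := by
  refine ⟨hunram, hinf, fun v hv hart => ?_⟩
  obtain ⟨𝔫, h𝔫, hiff, ω, -, -, hω⟩ := exists_artinRayHom (K := K) (L := L)
  set 𝔐 := 𝔪 * 𝔫
  have h𝔐 : 𝔐 ≠ ⊥ := mul_ne_zero h𝔪 h𝔫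
  have hv' : v.asIdeal ⊔ 𝔐 = ⊤ := (sup_eq_top_iff_not_le v _).2 fun hle =>
    (v.prime.dvd_or_dvd (Ideal.dvd_iff_le.2 hle)).elim
      (fun h => (sup_eq_top_iff_not_le v 𝔪).1 hv (Ideal.le_of_dvd h))
      (fun h => hunram v hv ((hiff v).1 h))
  obtain ⟨u, hu, huB, hγ⟩ := exists_prime_in_class_avoiding h𝔐
    (rayClass h𝔐 ⟨primeIdeal v, hv'⟩) hB
  have hu' : u.asIdeal ⊔ 𝔪 = ⊤ := coprimeIdeals_mono (Ideal.mul_le_left : 𝔐 ≤ 𝔪)
    (x := primeIdeal u) hu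
  have h1 := congrArg (fun γ => ω (rayMap h𝔐 h𝔫 Ideal.mul_le_right γ)) hγ
  simp only [rayMap_apply, hω, artinHom_prime] at h1
  rw [hart] at h1
  have h2 := congrArg (rayMap h𝔐 h𝔪 Ideal.mul_le_left) hγ
  rw [rayMap_apply, rayMap_apply] at h2
  exact h2 ▸ hsplit u hu' huB h1

/-- **A weak class field contains the class field.** -/
theorem IsWeakClassField.exists_classField (h : IsWeakClassField L h𝔪 S H) :
    ∃ (F : IntermediateField K L) (_ : IsGalois K F) (_ : IsMulCommutative (F ≃ₐ[K] F)),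
      IsClassField F h𝔪 S H := by
  obtain ⟨𝔫, h𝔫, hiff, ω, hsurj, -, hω⟩ := exists_artinRayHom (K := K) (L := L)
  set 𝔐 := 𝔪 * 𝔫
  have h𝔐 : 𝔐 ≠ ⊥ := mul_ne_zero h𝔪 h𝔫
  set π := rayMap h𝔐 h𝔪 (Ideal.mul_le_left : 𝔐 ≤ 𝔪)
  set ω' := ω.comp (rayMap h𝔐 h𝔫 (Ideal.mul_le_right : 𝔐 ≤ 𝔫))
  have hω' : ∀ I : coprimeIdeals 𝔐, ω' (rayClass h𝔐 I) = artinHom L I.1 := fun I => by
    show ω (rayMap h𝔐 h𝔫 _ (rayClass h𝔐 I)) = _
    rw [rayMap_apply, hω]
  have hsupp : ∀ v : HeightOneSpectrum (𝓞 K), v.asIdeal ∣ 𝔐 → v.asIdeal ∣ 𝔪 := fun v hv =>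
    (v.prime.dvd_or_dvd hv).elim id fun h1 => by_contra fun h2 =>
      h.unram v ((sup_eq_top_iff_not_le v 𝔪).2 fun h3 => h2 (Ideal.dvd_iff_le.2 h3)) ((hiff v).1 h1)
  have hkerH : ω'.ker ≤ H.comap π := fun γ hγ => by
    obtain ⟨v, hv, -, rfl⟩ := exists_prime_in_class_avoiding h𝔐 γ Set.finite_empty
    rw [MonoidHom.mem_ker, hω', artinHom_prime] at hγ
    rw [Subgroup.mem_comap, rayMap_apply]
    exact h.split v _ hγ
  set B := (H.comap π).map ω'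
  haveI : B.Normal := ⟨fun b hb g => by rwa [mul_comm' g b, mul_inv_cancel_right]⟩
  let F : IntermediateField K L := IntermediateField.fixedField B
  haveI hF : IsGalois K F := inferInstance
  have hsurjR := AlgEquiv.restrictNormalHom_surjective (F := K) (K₁ := F) L
  haveI hFc : IsMulCommutative (F ≃ₐ[K] F) := ⟨⟨fun a b => by
    obtain ⟨a, rfl⟩ := hsurjR a
    obtain ⟨b, rfl⟩ := hsurjR b
    rw [← map_mul, ← map_mul, mul_comm' a b]⟩⟩
  have hker : (AlgEquiv.restrictNormalHom F : (L ≃ₐ[K] L) →* (F ≃ₐ[K] F)).ker = B :=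
    (IntermediateField.restrictNormalHom_ker F).trans (IntermediateField.fixingSubgroup_fixedField _)
  have hram : ∀ v, IsRam L v → 𝔐 ≤ v.asIdeal := fun v hv =>
    (Ideal.mul_le_right : 𝔐 ≤ 𝔫).trans (Ideal.le_of_dvd ((hiff v).2 hv))
  have hcop : ∀ I : coprimeIdeals 𝔪, I.1 ∈ coprimeIdeals 𝔐 := fun I =>
    coprime_iff_ordI.2 fun v hv => coprime_iff_ordI.1 I.2 v (hsupp v hv)
  have hkey : ∀ I : coprimeIdeals 𝔪,
      artinHom F I.1 = AlgEquiv.restrictNormalHom F (ω' (rayClass h𝔐 ⟨I.1, hcop I⟩)) := fun I => by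
    rw [hω', restrict_artinHom F hram ⟨I.1, hcop I⟩]
  have hone : ∀ γ, AlgEquiv.restrictNormalHom F (ω' γ) = 1 ↔ γ ∈ H.comap π := fun γ => by
    rw [← MonoidHom.mem_ker, hker]
    refine ⟨fun hm => ?_, fun hm => Subgroup.mem_map_of_mem _ hm⟩
    obtain ⟨δ, hδ, he⟩ := hm
    rw [← mul_inv_cancel_left δ γ]
    refine mul_mem hδ (hkerH ?_)
    rw [MonoidHom.mem_ker, map_mul, map_inv, he, inv_mul_cancel]
  have hwell : ∀ I J : coprimeIdeals 𝔪, rayClass h𝔪 I = rayClass h𝔪 J →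
      artinHom F I.1 = artinHom F J.1 := fun I J hIJ => by
    rw [hkey, hkey, ← mul_inv_eq_one, ← map_inv, ← map_inv, ← map_mul, ← map_mul, hone,
      Subgroup.mem_comap, map_mul, map_inv, rayMap_apply, rayMap_apply]
    simp [hIJ]
  let ωF := rayLift h𝔪 ((artinHom F).comp (coprimeIdeals 𝔪).subtype) hwell
  have hωF : ∀ I : coprimeIdeals 𝔪, ωF (rayClass h𝔪 I) = artinHom F I.1 :=
    fun I => rayLift_apply _ _ _ _
  refine ⟨F, hF, hFc, fun v hv => isRam_of_algHom F.val (h.unram v hv),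
    fun w hw => isUnramifiedIn_of_algHom F.val (h.unramInf w hw), ωF, fun g => ?_, ?_, hωF⟩
  · obtain ⟨g, rfl⟩ := hsurjR g
    obtain ⟨γ, rfl⟩ := hsurj.comp (rayMap_surjective h𝔐 h𝔫 (Ideal.mul_le_right : 𝔐 ≤ 𝔫)) g
    obtain ⟨I, rfl⟩ := rayClass_surjective h𝔐 γ
    refine ⟨rayClass h𝔪 ⟨I.1, coprimeIdeals_mono Ideal.mul_le_left I.2⟩, ?_⟩
    rw [hωF, hkey]
    rfl
  · ext γ
    obtain ⟨I, rfl⟩ := rayClass_surjective h𝔪 γ
    rw [MonoidHom.mem_ker, hωF, hkey, hone, Subgroup.mem_comap, rayMap_apply]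

end

theorem HasClassField.exists_classField {𝔪 : Ideal (𝓞 K)} {h𝔪 : 𝔪 ≠ ⊥}
    {S : Set (InfinitePlace K)} {H : Subgroup (RayClassGroup 𝔪)} (h : HasClassField h𝔪 S H) :
    ∃ (L : Type u) (_ : Field L) (_ : NumberField L) (_ : Algebra K L) (_ : IsGalois K L)
      (_ : IsMulCommutative (L ≃ₐ[K] L)), IsClassField L h𝔪 S H := by
  obtain ⟨L, _, _, _, _, _, hw⟩ := h
  obtain ⟨F, hF, hFc, hcf⟩ := hw.exists_classField
  exact ⟨F, inferInstance, inferInstance, inferInstance, hF, hFc, hcf⟩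

/-- **Auxiliary primes disappear.** -/
theorem hasClassField_of_disjoint {𝔪 : Ideal (𝓞 K)} (h𝔪 : 𝔪 ≠ ⊥) {S : Set (InfinitePlace K)}
    {H : Subgroup (RayClassGroup 𝔪)}
    (h : ∀ X : Set (HeightOneSpectrum (𝓞 K)), X.Finite →
      ∃ C : Finset (HeightOneSpectrum (𝓞 K)), (∀ v ∈ C, v ∉ X) ∧
        ∃ (L : Type u) (_ : Field L) (_ : NumberField L) (_ : Algebra K L) (_ : IsGalois K L)
          (_ : IsMulCommutative (L ≃ₐ[K] L)),
          (∀ v : HeightOneSpectrum (𝓞 K), v.asIdeal ⊔ 𝔪 = ⊤ → v ∉ C → ¬ IsRam L v) ∧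
          (∀ w ∉ S, InfinitePlace.IsUnramifiedIn L w) ∧
          ∀ (v : HeightOneSpectrum (𝓞 K)) (hv : v.asIdeal ⊔ 𝔪 = ⊤), v ∉ C → artinAt L v = 1 →
            rayClass h𝔪 ⟨primeIdeal v, hv⟩ ∈ H) :
    HasClassField h𝔪 S H := by
  -- the exact class field for the enlarged modulus, inside the algebraic closure
  have key : ∀ X : Set (HeightOneSpectrum (𝓞 K)), X.Finite →
      ∃ C : Finset (HeightOneSpectrum (𝓞 K)), (∀ v ∈ C, v ∉ X) ∧
        ∃ (E : IntermediateField K (AlgebraicClosure K)) (_ : NumberField E) (_ : IsGalois K E)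
          (_ : IsMulCommutative (E ≃ₐ[K] E)) (_ : FiniteDimensional K E),
          (∀ v : HeightOneSpectrum (𝓞 K), v.asIdeal ⊔ 𝔪 = ⊤ → v ∉ C → ¬ IsRam E v) ∧
          (∀ w ∉ S, InfinitePlace.IsUnramifiedIn E w) ∧
          ∀ (v : HeightOneSpectrum (𝓞 K)) (hv : v.asIdeal ⊔ 𝔪 = ⊤), v ∉ C →
            (artinAt E v = 1 ↔ rayClass h𝔪 ⟨primeIdeal v, hv⟩ ∈ H) := by
    intro X hX
    obtain ⟨C, hC, L, _, _, _, _, _, hunr, hinf, hsplit⟩ := h X hX
    set 𝔪' : Ideal (𝓞 K) := 𝔪 * ∏ v ∈ C, v.asIdeal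
    have h𝔪' : 𝔪' ≠ ⊥ := mul_ne_zero h𝔪 (Finset.prod_ne_zero_iff.2 fun v _ => v.ne_bot)
    have hle : 𝔪' ≤ 𝔪 := Ideal.mul_le_left
    have hmem : ∀ v : HeightOneSpectrum (𝓞 K), v.asIdeal ⊔ 𝔪' = ⊤ ↔
        v.asIdeal ⊔ 𝔪 = ⊤ ∧ v ∉ C := fun v => by
      rw [sup_eq_top_iff_not_le, sup_eq_top_iff_not_le, ← Ideal.dvd_iff_le, ← Ideal.dvd_iff_le]
      refine ⟨fun h1 => ⟨fun h2 => h1 (dvd_mul_of_dvd_left h2 _), fun h2 => h1 (dvd_mul_of_dvd_right
        (Finset.dvd_prod_of_mem (fun u : HeightOneSpectrum (𝓞 K) => u.asIdeal) h2) _)⟩,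
        fun ⟨h1, h2⟩ h3 => ?_⟩
      rcases v.prime.dvd_or_dvd h3 with h4 | h4
      · exact h1 h4
      · obtain ⟨u, hu, hd⟩ := v.prime.exists_mem_finset_dvd h4
        exact h2 (by rwa [show v = u from HeightOneSpectrum.ext
          ((prime_dvd_prime_iff_eq v.prime u.prime).1 hd)])
    have hw : IsWeakClassField L h𝔪' S (H.comap (rayMap h𝔪' h𝔪 hle)) :=
      ⟨fun v hv => hunr v ((hmem v).1 hv).1 ((hmem v).1 hv).2, hinf, fun v hv hart => by
        rw [Subgroup.mem_comap, rayMap_apply]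
        exact hsplit v _ ((hmem v).1 hv).2 hart⟩
    obtain ⟨F, hF, hFc, hcf⟩ := hw.exists_classField
    let f : F →ₐ[K] AlgebraicClosure K := IsAlgClosed.lift
    let e : F ≃ₐ[K] f.fieldRange := AlgEquiv.ofInjectiveField f
    haveI : FiniteDimensional K f.fieldRange := e.toLinearEquiv.finiteDimensional
    haveI : NumberField f.fieldRange := NumberField.of_module_finite K f.fieldRange
    haveI : IsGalois K f.fieldRange := IsGalois.of_algEquiv e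
    haveI : IsMulCommutative (f.fieldRange ≃ₐ[K] f.fieldRange) := ⟨⟨fun a b => by
      obtain ⟨a, rfl⟩ := e.autCongr.surjective a
      obtain ⟨b, rfl⟩ := e.autCongr.surjective b
      rw [← map_mul, ← map_mul, mul_comm' a b]⟩⟩
    refine ⟨C, hC, f.fieldRange, inferInstance, inferInstance, inferInstance, inferInstance,
      fun v hv hvC => isRam_of_algHom e.symm.toAlgHom (hcf.unram v ((hmem v).2 ⟨hv, hvC⟩)),
      fun w hw => isUnramifiedIn_of_algHom e.symm.toAlgHom (hcf.unramInf w hw), fun v hv hvC => ?_⟩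
    have hv' := (hmem v).2 ⟨hv, hvC⟩
    have hnr : ¬ IsRam f.fieldRange v := isRam_of_algHom e.symm.toAlgHom (hcf.unram v hv')
    have hiff := hcf.artinAt_eq_one_iff v hv'
    rw [Subgroup.mem_comap, rayMap_apply] at hiff
    exact ⟨fun h1 => hiff.1 (artinAt_eq_one_of_algHom e.toAlgHom (hcf.unram v hv') h1),
      fun h1 => artinAt_eq_one_of_algHom e.symm.toAlgHom hnr (hiff.2 h1)⟩
  obtain ⟨C₁, -, E₁, _, _, _, _, hu₁, -, hs₁⟩ := key ∅ Set.finite_empty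
  obtain ⟨C₂, hC₂, E₂, _, _, _, _, hu₂, hi₂, hs₂⟩ := key C₁ C₁.finite_toSet
  have hB : ((C₁ : Set (HeightOneSpectrum (𝓞 K))) ∪ C₂ ∪
      {v | v.asIdeal ∣ 𝔪}).Finite :=
    (C₁.finite_toSet.union C₂.finite_toSet).union (Ideal.finite_factors h𝔪)
  have hout : ∀ v : HeightOneSpectrum (𝓞 K),
      v ∉ ((C₁ : Set (HeightOneSpectrum (𝓞 K))) ∪ C₂ ∪ {v | v.asIdeal ∣ 𝔪}) →
      v ∉ C₁ ∧ v ∉ C₂ ∧ v.asIdeal ⊔ 𝔪 = ⊤ := fun v hv => by
    simp only [Set.mem_union, Finset.mem_coe, Set.mem_ofPred_eq, not_or] at hv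
    exact ⟨hv.1.1, hv.1.2, (sup_eq_top_iff_not_le v 𝔪).2 fun h => hv.2 (Ideal.dvd_iff_le.2 h)⟩
  have heq : E₁ = E₂ := by
    refine le_antisymm (le_of_split_subset hB fun v hv h1 => ?_)
      (le_of_split_subset hB fun v hv h1 => ?_)
    · obtain ⟨h11, h12, hvm⟩ := hout v hv
      exact (hs₁ v hvm h11).2 ((hs₂ v hvm h12).1 h1)
    · obtain ⟨h11, h12, hvm⟩ := hout v hv
      exact (hs₂ v hvm h12).2 ((hs₁ v hvm h11).1 h1)
  subst heq
  refine ⟨E₁, inferInstance, inferInstance, inferInstance, inferInstance, inferInstance,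
    isWeakClassField_of_finite_exception h𝔪 C₂.finite_toSet (fun v hv => ?_) hi₂
      fun v hv hvC => (hs₂ v hv hvC).1⟩
  by_cases hv2 : v ∈ C₂
  · exact hu₁ v hv fun h1 => hC₂ v hv2 h1
  · exact hu₂ v hv hv2

end FA.ArtinRec
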