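import Fermat.Agent.ExistenceTheorem.NormMap

/-!
# Descent along a cyclic extension

For `F/K` cyclic the class field over `F` of the preimage under the norm of a subgroup is abelian
over `K`, and only primes with class in the subgroup split in it.
-/

set_option autoImplicit false
set_option linter.unusedSectionVars false
set_option linter.style.haveILetI false

noncomputable section

universe u

open NumberField NumberField.InfinitePlace IsDedekindDomain Finset
open FA.Hecke (IsRayElt coprimeIdeals RayClassGroup rayClass rayClass_eq_iff rayClass_surjective)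
open FA.Ext (primeIdeal)
open FA.Chebotarev (strictFrobSet)
open scoped Pointwise nonZeroDivisors Classical

namespace FA.ArtinRec

section conj

variable {K F M : Type*} [Field K] [Field F] [Field M] [Algebra K F] [Algebra K M] [Algebra F M]
  [IsScalarTower K F M] [Normal K F]

/-- The conjugate over `F` of an automorphism over `F` by one over `K`. -/
def conjOver (g : M ≃ₐ[K] M) (a : M ≃ₐ[F] M) : M ≃ₐ[F] M :=
  { g * a.restrictScalars K * g⁻¹ with
    commutes' := fun x => by
      show g (a (g.symm (algebraMap F M x))) = algebraMap F M x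
      have h : g.symm (algebraMap F M x) = algebraMap F M (g.symm.restrictNormal F x) :=
        (g.symm.restrictNormal_commutes F x).symm
      rw [h, a.commutes, ← h, AlgEquiv.apply_symm_apply] }

theorem conjOver_apply (g : M ≃ₐ[K] M) (a : M ≃ₐ[F] M) (x : M) :
    conjOver g a (g x) = g (a x) := by
  show g (a (g.symm (g x))) = g (a x)
  rw [AlgEquiv.symm_apply_apply]

end conj

section central

variable {K F L M : Type*} [Field K] [NumberField K] [Field F] [NumberField F] [Field L]
  [NumberField L] [Field M] [NumberField M] [Algebra K F] [Algebra K M] [Algebra F L] [Algebra F M]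
  [Algebra L M] [IsScalarTower F L M] [IsScalarTower K F M] [IsGalois K F] [IsGalois K M]
  [IsGalois F L] [IsGalois F M] [IsMulCommutative (L ≃ₐ[F] L)]

/-- **Conjugate automorphisms act equally on a class field of classes with the same norms.** -/
theorem restrict_conj_eq {𝔪 : Ideal (𝓞 K)} (h𝔪 : 𝔪 ≠ ⊥) {SF : Set (InfinitePlace F)}
    {HF : Subgroup (RayClassGroup (upMod F 𝔪))} (h : IsClassField L (upMod_ne_bot h𝔪) SF HF)
    (hN : (rayNorm h𝔪).ker ≤ HF) (g : M ≃ₐ[K] M) (a a' : M ≃ₐ[F] M)
    (haa : ∀ x, a' (g x) = g (a x)) :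
    AlgEquiv.restrictNormalHom L a' = AlgEquiv.restrictNormalHom L a := by
  set C : Set (M ≃ₐ[F] M) := {b | ∃ c, b = c * a * c⁻¹}
  have hC : ∀ b ∈ C, ∀ x, x * b * x⁻¹ ∈ C := by
    rintro _ ⟨c, rfl⟩ x
    exact ⟨x * c, by group⟩
  have hmean := FA.NaturalChebotarev.hasMean_strictFrobSet C hC
  have hne : ((Nat.card C : ℝ) / Nat.card (M ≃ₐ[F] M)) ≠ 0 := by
    haveI : Nonempty C := ⟨⟨a, 1, by group⟩⟩
    exact div_ne_zero (Nat.cast_ne_zero.2 Nat.card_pos.ne') (Nat.cast_ne_zero.2 Nat.card_pos.ne')
  obtain ⟨u, huC, hum⟩ := ((infinite_of_hasMean hne hmean).sdiff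
    (Ideal.finite_factors (upMod_ne_bot (F := F) h𝔪))).nonempty
  have hu : u.asIdeal ⊔ upMod F 𝔪 = ⊤ :=
    (sup_eq_top_iff_not_le u _).2 fun hle => hum (Ideal.dvd_iff_le.2 hle)
  obtain ⟨Q₁, hQ₁⟩ := exists_belowP F M u
  obtain ⟨τ, hτ⟩ := exists_frob (K := F) Q₁
  obtain ⟨c, rfl⟩ := huC Q₁.asIdeal Q₁.isMaximal (congrArg HeightOneSpectrum.asIdeal hQ₁) τ hτ
  set Q := galPrime c⁻¹ Q₁
  have hQ : belowP F Q = u := (belowP_galPrime _ _).trans hQ₁
  have ha : IsArithFrobAt (𝓞 F) a Q.asIdeal := by
    have h1 := hτ.conj c⁻¹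
    rwa [show c⁻¹ * (c * a * c⁻¹) * c⁻¹⁻¹ = a by group] at h1
  set Q' := galPrime g Q
  set u' := belowP F Q'
  have hK : belowP K u' = belowP K u := by
    rw [← hQ, belowP_belowP, belowP_belowP, belowP_galPrime]
  have hnorm : normPrime K u' = normPrime K u := Subtype.ext (by
    show Ideal.relNorm (𝓞 K) u'.asIdeal = Ideal.relNorm (𝓞 K) u.asIdeal
    rw [relNorm_prime, relNorm_prime, hK])
  have hu' : u'.asIdeal ⊔ upMod F 𝔪 = ⊤ :=
    coprime_upMod_iff.2 (hK ▸ coprime_upMod_iff.1 hu)
  have habs : Nat.card (𝓞 F ⧸ u'.asIdeal) = Nat.card (𝓞 F ⧸ u.asIdeal) := by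
    have h1 := congrArg (fun I : (Ideal (𝓞 K))⁰ => Ideal.absNorm I.1) hnorm
    simp only [normPrime, Ideal.absNorm_relNorm] at h1
    rwa [Ideal.absNorm_apply, Ideal.absNorm_apply, Submodule.cardQuot_apply,
      Submodule.cardQuot_apply] at h1
  have ha' : IsArithFrobAt (𝓞 F) a' Q'.asIdeal := fun x => by
    obtain ⟨y, rfl⟩ : ∃ y : 𝓞 M, g • y = x := ⟨g⁻¹ • x, smul_inv_smul g x⟩
    have hy : a • y - y ^ Nat.card (𝓞 F ⧸ Q.asIdeal.under (𝓞 F)) ∈ Q.asIdeal := ha y
    show a' • (g • y) - (g • y) ^ Nat.card (𝓞 F ⧸ Q'.asIdeal.under (𝓞 F)) ∈ g • Q.asIdeal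
    rw [show a' • (g • y) = g • (a • y) from RingOfIntegers.ext (haa (y : M)), ← smul_pow',
      show Nat.card (𝓞 F ⧸ Q'.asIdeal.under (𝓞 F)) = Nat.card (𝓞 F ⧸ Q.asIdeal.under (𝓞 F)) from
        habs.trans (by rw [← hQ]; rfl), ← smul_sub]
    exact Ideal.smul_mem_pointwise_smul g _ _ hy
  have h1 := restrict_frob (L := L) (h.unram u hu) hQ ha
  have h2 := restrict_frob (L := L) (h.unram u' hu') (rfl : belowP F Q' = u') ha'
  obtain ⟨ω, -, hker, hω⟩ := h.artin
  rw [h1, h2, ← artinHom_prime (L := L), ← artinHom_prime (L := L), ← hω ⟨primeIdeal u', hu'⟩,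
    ← hω ⟨primeIdeal u, hu⟩, ← mul_inv_eq_one, ← map_inv, ← map_mul, ← MonoidHom.mem_ker, hker]
  refine hN ?_
  rw [MonoidHom.mem_ker, map_mul, map_inv, rayNorm_prime, rayNorm_prime]
  simp [hnorm]

end central

variable {K F : Type u} [Field K] [NumberField K] [Field F] [NumberField F] [Algebra K F]
  [IsGalois K F] [IsCyclic (F ≃ₐ[K] F)]

/-- **Descent.** -/
theorem exists_descent {𝔪 : Ideal (𝓞 K)} (h𝔪 : 𝔪 ≠ ⊥) {S : Set (InfinitePlace K)}
    {H : Subgroup (RayClassGroup 𝔪)}
    (hF : HasClassField (upMod_ne_bot (F := F) h𝔪) (placesAbove F S) (H.comap (rayNorm h𝔪))) :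
    ∃ (L : Type u) (_ : Field L) (_ : NumberField L) (_ : Algebra K L) (_ : IsGalois K L)
      (_ : IsMulCommutative (L ≃ₐ[K] L)) (_ : Algebra F L) (_ : IsScalarTower K F L),
      (∀ v : HeightOneSpectrum (𝓞 K), v.asIdeal ⊔ 𝔪 = ⊤ → ∀ Q : HeightOneSpectrum (𝓞 L),
        belowP K Q = v → ∀ s ∈ Q.asIdeal.inertia (L ≃ₐ[K] L),
          AlgEquiv.restrictNormalHom F s = 1 → s = 1) ∧
      (∀ w ∉ S, InfinitePlace.IsUnramifiedIn F w → InfinitePlace.IsUnramifiedIn L w) ∧
      ∀ (v : HeightOneSpectrum (𝓞 K)) (hv : v.asIdeal ⊔ 𝔪 = ⊤), artinAt L v = 1 →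
        rayClass h𝔪 ⟨primeIdeal v, hv⟩ ∈ H := by
  obtain ⟨L, _, _, _, _, _, hL⟩ := hF.exists_classField
  letI : Algebra K L := ((algebraMap F L).comp (algebraMap K F)).toAlgebra
  haveI : IsScalarTower K F L := IsScalarTower.of_algebraMap_eq fun _ => rfl
  haveI : FiniteDimensional K L := FiniteDimensional.trans K F L
  haveI : Algebra.IsAlgebraic K (AlgebraicClosure L) := Algebra.IsAlgebraic.trans K L _
  haveI : IsAlgClosure K (AlgebraicClosure L) := ⟨inferInstance, inferInstance⟩
  let M := IntermediateField.normalClosure K L (AlgebraicClosure L)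
  haveI : NumberField M := NumberField.of_module_finite K M
  haveI : IsGalois K M := ⟨⟩
  letI : Algebra F M := ((algebraMap L M).comp (algebraMap F L)).toAlgebra
  haveI : IsScalarTower F L M := IsScalarTower.of_algebraMap_eq fun _ => rfl
  haveI : IsScalarTower K F M := IsScalarTower.of_algebraMap_eq fun x =>
    (IsScalarTower.algebraMap_apply K L M x :)
  haveI : IsGalois F M := IsGalois.tower_top_of_isGalois K F M
  have hker : (rayNorm (F := F) h𝔪).ker ≤ H.comap (rayNorm h𝔪) := fun γ hγ => by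
    rw [Subgroup.mem_comap, MonoidHom.mem_ker.1 hγ]
    exact one_mem H
  have hconj : ∀ (g : M ≃ₐ[K] M) (a : M ≃ₐ[F] M),
      AlgEquiv.restrictNormalHom L (conjOver g a) = AlgEquiv.restrictNormalHom L a := fun g a =>
    restrict_conj_eq h𝔪 hL hker g a _ (conjOver_apply g a)
  -- normality
  haveI : IsGalois L M := IsGalois.tower_top_of_isGalois F L M
  haveI hnormal : Normal K L := by
    let E : IntermediateField K M := (IsScalarTower.toAlgHom K L M).fieldRange
    haveI : Normal K E := by
      refine IntermediateField.normal_iff_forall_map_le'.2 fun g => ?_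
      rintro _ ⟨_, ⟨y, rfl⟩, rfl⟩
      obtain ⟨z, hz⟩ := (IsGalois.mem_range_algebraMap_iff_fixed (F := L)
        (g (algebraMap L M y))).mpr fun b => by
          let a : M ≃ₐ[F] M := b.restrictScalars F
          have ha : AlgEquiv.restrictNormalHom L a = 1 :=
            FA.ArtinL.restrictNormal_restrictScalars b
          have h1 := hconj g⁻¹ a
          rw [ha] at h1
          have h2 := (conjOver g⁻¹ a).restrictNormal_commutes L y
          rw [show (conjOver g⁻¹ a).restrictNormal L y = y from DFunLike.congr_fun h1 y] at h2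
          have h3 := conjOver_apply g⁻¹ a (g (algebraMap L M y))
          rw [show g⁻¹ (g (algebraMap L M y)) = algebraMap L M y from g.symm_apply_apply _,
            ← h2] at h3
          have h4 := congrArg g h3
          rw [show g (g⁻¹ (a (g (algebraMap L M y)))) = a (g (algebraMap L M y)) from
            g.apply_symm_apply _] at h4
          exact h4.symm
      exact ⟨z, hz⟩
    let e : L ≃ₐ[K] E := AlgEquiv.ofInjectiveField (IsScalarTower.toAlgHom K L M)
    exact Normal.of_algEquiv e.symm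
  haveI : IsGalois K L := ⟨⟩
  have hcomm : IsMulCommutative (L ≃ₐ[K] L) := by
    refine MonoidHom.isMulCommutative_of_isCyclic_of_ker_le_center
      (AlgEquiv.restrictNormalHom F) fun k hk => Subgroup.mem_center_iff.2 fun h => ?_
    obtain ⟨g, rfl⟩ := AlgEquiv.restrictNormalHom_surjective (F := K) (K₁ := L) M h
    let k' : L ≃ₐ[F] L :=
      { k with
        commutes' := fun x => by
          show k (algebraMap F L x) = algebraMap F L x
          have h1 := k.restrictNormal_commutes F x
          rw [show k.restrictNormal F x = x from DFunLike.congr_fun hk x] at h1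
          exact h1.symm }
    obtain ⟨a, ha⟩ := AlgEquiv.restrictNormalHom_surjective (F := F) (K₁ := L) M k'
    have h1 := (hconj g a).trans ha
    refine AlgEquiv.ext fun y => (algebraMap L M).injective ?_
    show algebraMap L M (AlgEquiv.restrictNormalHom L g (k y)) =
      algebraMap L M (k (AlgEquiv.restrictNormalHom L g y))
    have h2 := (conjOver g a).restrictNormal_commutes L (g.restrictNormal L y)
    rw [show (conjOver g a).restrictNormal L (g.restrictNormal L y) = k (g.restrictNormal L y) from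
      DFunLike.congr_fun h1 _, g.restrictNormal_commutes, conjOver_apply,
      ← a.restrictNormal_commutes L y, show a.restrictNormal L y = k y from DFunLike.congr_fun ha y,
      ← g.restrictNormal_commutes] at h2
    exact h2.symm
  refine ⟨L, inferInstance, inferInstance, inferInstance, inferInstance, hcomm, inferInstance,
    inferInstance, fun v hv Q hQ s hs hsF => ?_, fun w hw hwF z hz => ?_, fun v hv hart => ?_⟩
  · let s' : L ≃ₐ[F] L :=
      { s with
        commutes' := fun x => by
          show s (algebraMap F L x) = algebraMap F L x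
          have h1 := s.restrictNormal_commutes F x
          rw [show s.restrictNormal F x = x from DFunLike.congr_fun hsF x] at h1
          exact h1.symm }
    have hc : (belowP F Q).asIdeal ⊔ upMod F 𝔪 = ⊤ :=
      coprime_upMod_iff.2 (by rw [belowP_belowP, hQ]; exact hv)
    have hmem : s' ∈ Q.asIdeal.inertia (L ≃ₐ[F] L) := fun x => hs x
    rw [inertia_eq_bot (hL.unram _ hc) rfl, Subgroup.mem_bot] at hmem
    exact AlgEquiv.ext fun x => DFunLike.congr_fun hmem x
  · have h1 : (z.comap (algebraMap F L)).comap (algebraMap K F) = w := by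
      rw [← hz, IsScalarTower.algebraMap_eq K F L]
      rfl
    have h2 := hwF (z.comap (algebraMap F L)) h1
    have h3 := hL.unramInf (z.comap (algebraMap F L)) (fun hm => hw (h1 ▸ hm)) z rfl
    show mult (z.comap (algebraMap K L)) = mult z
    rw [hz, ← h1]
    exact h2.trans h3
  · obtain ⟨Q, hQ, hτ⟩ := artinAt_spec (L := L) v
    rw [hart] at hτ
    set u := belowP F Q
    have h1 := isArithFrobAt_restrictNormal (L := F) hτ
    rw [map_one] at h1
    have hrel : Ideal.relNorm (𝓞 K) u.asIdeal = v.asIdeal := by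
      rw [relNorm_of_frob_one h1, belowP_belowP, hQ]
    have hc : u.asIdeal ⊔ upMod F 𝔪 = ⊤ := coprime_upMod_iff.2 (by rw [belowP_belowP, hQ]; exact hv)
    have hcard : Nat.card (𝓞 F ⧸ u.asIdeal) = Nat.card (𝓞 K ⧸ v.asIdeal) := by
      have h2 := congrArg Ideal.absNorm hrel
      rwa [Ideal.absNorm_relNorm, Ideal.absNorm_apply, Ideal.absNorm_apply,
        Submodule.cardQuot_apply, Submodule.cardQuot_apply] at h2
    have hτF : IsArithFrobAt (𝓞 F) (1 : L ≃ₐ[F] L) Q.asIdeal := fun x => by
      have h2 : (1 : L ≃ₐ[K] L) • x - x ^ Nat.card (𝓞 K ⧸ Q.asIdeal.under (𝓞 K)) ∈ Q.asIdeal :=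
        hτ x
      rw [show Q.asIdeal.under (𝓞 K) = v.asIdeal from congrArg HeightOneSpectrum.asIdeal hQ,
        ← hcard] at h2
      exact h2
    have h3 := (hL.artinAt_eq_one_iff u hc).1 (artinAt_eq (hL.unram u hc) rfl hτF).symm
    rw [Subgroup.mem_comap, rayNorm_prime] at h3
    rwa [show (⟨primeIdeal v, hv⟩ : coprimeIdeals 𝔪) = ⟨normPrime K u, relNorm_coprime u.ne_bot hc⟩
      from Subtype.ext (Subtype.ext hrel.symm)]

end FA.ArtinRec
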