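import Fermat.Agent.ExistenceTheorem.KummerField
import Fermat.Agent.ExistenceTheorem.KummerLocal
import Fermat.Agent.ArtinReciprocity.Frobenius

/-!
# Ramification in the field of the roots

The primes at which the elements are near powers are unramified or split, and the real places at
which they are positive are unramified.
-/

set_option autoImplicit false
set_option linter.unusedSectionVars false
set_option linter.style.haveILetI false

noncomputable section

open NumberField NumberField.InfinitePlace IsDedekindDomain Finset
open scoped Pointwise nonZeroDivisors Classical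

namespace FA.ArtinRec

variable {K : Type*} [Field K] [NumberField K] {p : ℕ} [hp : Fact p.Prime] {R : Finset Kˣ}
  {ζ : 𝓞 K} (hζ : IsPrimitiveRoot (ζ : K) p) {v : HeightOneSpectrum (𝓞 K)}

include hζ

theorem not_isRam_kummerField (h : ∀ r ∈ R, r ∈ powSub v p (p * zExp v ζ)) :
    ¬ IsRam (KummerField p R) v := by
  rintro ⟨Q, hQ, hne⟩
  refine hne ((Subgroup.eq_bot_iff_forall _).2 fun σ hσ => eq_of_agree_roots p R fun r hr w hw => ?_)
  exact apply_root_of_powSub_zExp hζ hQ (h r hr) hw hσ

theorem artinAt_kummerField_eq_one {k : ℕ} (hk : 2 * pExp v p + 1 ≤ k)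
    (h : ∀ r ∈ R, r ∈ powSub v p k) : artinAt (KummerField p R) v = 1 := by
  obtain ⟨Q, hQ, hτ⟩ := artinAt_spec (L := KummerField p R) v
  haveI := Q.isPrime
  have hfix : galPrime (artinAt (KummerField p R) v) Q = Q :=
    HeightOneSpectrum.ext (MulAction.mem_stabilizer_iff.1 hτ.mem_stabilizer)
  exact eq_of_agree_roots p R fun r hr w hw => apply_root_of_powSub_deep hζ hQ hk (h r hr) hw hfix

/-- A field with the `p`-th roots of unity and a real place has `p = 2`. -/
theorem eq_two_of_isReal {w : InfinitePlace K} (hw : IsReal w) : p = 2 := by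
  set φ := embedding_of_isReal hw
  have h1 : φ ζ ^ p = 1 := by rw [← map_pow, hζ.pow_eq_one, map_one]
  rcases hp.out.eq_two_or_odd' with h | h
  · exact h
  · exfalso
    exact hζ.ne_one hp.out.one_lt (φ.injective (by rw [map_one]; exact (h.strictMono_pow.injective
      (h1.trans (one_pow p).symm) :)))

theorem isUnramifiedIn_kummerField {w : InfinitePlace K}
    (h : ∀ r ∈ R, ∀ hw : IsReal w, 0 < embedding_of_isReal hw (r : K)) :
    w.IsUnramifiedIn (KummerField p R) := by
  intro z hz
  by_contra hram
  obtain ⟨σ, hσ⟩ := exists_isConj_of_isRamified (k := K) (φ := z.embedding)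
    (by rwa [mk_embedding])
  have hwr : IsReal w := hz ▸ IsRamified.isReal hram
  have hp2 : p = 2 := eq_two_of_isReal hζ hwr
  have hσ1 : σ = 1 := by
    refine eq_of_agree_roots p R fun r hr y hy => ?_
    refine z.embedding.injective ?_
    show z.embedding (σ y) = z.embedding y
    rw [hσ.eq y]
    have hr' := h r hr hwr
    have he : z.embedding (algebraMap K (KummerField p R) (r : K)) =
        ((embedding_of_isReal hwr (r : K) : ℝ) : ℂ) := by
      rw [embedding_of_isReal_apply]
      subst hz
      rw [InfinitePlace.IsRamified.comap_embedding hram, RingHom.comp_apply]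
    have hsq : z.embedding y * z.embedding y = ((embedding_of_isReal hwr (r : K) : ℝ) : ℂ) := by
      rw [← he, ← map_mul, ← pow_two, ← hy]
      exact congrArg (fun n : ℕ => z.embedding (y ^ n)) hp2.symm
    refine Complex.conj_eq_iff_im.2 ?_
    have hre := congrArg Complex.re hsq
    have him := congrArg Complex.im hsq
    rw [Complex.mul_re, Complex.ofReal_re] at hre
    rw [Complex.mul_im, Complex.ofReal_im] at him
    by_contra hne
    have : (z.embedding y).re = 0 := by
      have h2 : (2 * (z.embedding y).re) * (z.embedding y).im = 0 := by linarith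
      simpa using (mul_eq_zero.1 h2).resolve_right hne
    rw [this] at hre
    nlinarith [mul_self_pos.2 hne]
  refine (not_isReal_iff_isComplex.2 (IsRamified.isComplex hram)) (isReal_iff.2
    (ComplexEmbedding.isReal_iff.2 (RingHom.ext fun y => ?_)))
  show starRingEnd ℂ (z.embedding y) = z.embedding y
  refine (hσ.eq y).symm.trans ?_
  rw [hσ1, AlgEquiv.one_apply]

end FA.ArtinRec
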