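import Fermat.Agent.ArtinReciprocity.Units

/-!
# The units outside a finite set modulo `p`-th powers

Over a number field with the `p`-th roots of unity the units outside a finite set `T` of primes
have index `p ^ (s + |T|)` over their `p`-th powers, `s` the number of infinite places.
-/

set_option autoImplicit false
set_option linter.unusedSectionVars false
set_option linter.style.haveILetI false

noncomputable section

open NumberField IsDedekindDomain Finset
open scoped nonZeroDivisors Classical

namespace FA.ArtinRec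

theorem normHom_id {M : Type*} [CommGroup M] (n : ℕ) :
    normHom (MonoidHom.id M) n = powMonoidHom n := MonoidHom.ext fun x => by
  rw [normHom_apply, powMonoidHom_apply]
  simp

theorem diffHom_id {M : Type*} [CommGroup M] : diffHom (MonoidHom.id M) = 1 :=
  MonoidHom.ext fun x => div_self' x

/-- **The index of the powers in the units outside `T`.** -/
theorem relIndex_pow_tUnit {K : Type*} [Field K] [NumberField K] {p : ℕ} (hp : p ≠ 0) {ζ : K}
    (hζ : IsPrimitiveRoot ζ p) (T : Finset (HeightOneSpectrum (𝓞 K))) :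
    ((tUnit T).map (powMonoidHom p)).relIndex (tUnit T) =
      p ^ (Fintype.card (InfinitePlace K) + T.card) := by
  obtain ⟨uI, huI, -⟩ := exists_place_units (K := K) (L := K)
  choose uP huP using exists_prime_gen (F := K)
  have hper : ∀ {M : Type _} [CommGroup M] (x : M), (⇑(MonoidHom.id M))^[p] x = x := fun x => by
    simp
  have hperm : permHom (id : PlaceSet K T → PlaceSet K T) = MonoidHom.id _ :=
    MonoidHom.ext fun x => rfl
  obtain ⟨hP0, hP1⟩ := herbrand_perm (W := PlaceSet K T) (I := PlaceSet K T) (τ := id) (Nat.pos_of_ne_zero hp)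
    (fun w => by simp) id Function.surjective_id (fun _ => rfl)
    (fun w w' h => ⟨0, h⟩) (fun _ => p) fun j => by
      rw [show Nat.card {w : PlaceSet K T // id w = j} = 1 from Nat.card_eq_one_iff_unique.2
        ⟨⟨fun a b => Subtype.ext (a.2.trans b.2.symm)⟩, ⟨j, rfl⟩⟩, mul_one]
  rw [hperm] at hP0 hP1
  obtain ⟨hM0, hM1⟩ := herbrand_map (M' := Kˣ × Multiplicative ℤ) (n := p)
    (s := MonoidHom.id (Multiplicative (PlaceSet K T → ℤ)))
    (s' := (MonoidHom.id Kˣ).prodMap (MonoidHom.id (Multiplicative ℤ))) (latHom uI uP T)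
    (latHom_injective T huI huP) (fun x => rfl) ⊤
  rw [← MonoidHom.range_eq_map] at hM0 hM1
  have hstA : IsStable (MonoidHom.id Kˣ) (tUnit T) := fun x hx => hx
  obtain ⟨hc, -, -⟩ := herbrand_mul (M := Kˣ × Multiplicative ℤ)
    (s := (MonoidHom.id Kˣ).prodMap (MonoidHom.id (Multiplicative ℤ))) (n := p)
    (fun x => by
      rw [show ((MonoidHom.id Kˣ).prodMap (MonoidHom.id (Multiplicative ℤ))) = MonoidHom.id _ from
        rfl]
      exact hper x) (A := (tUnit T).prod ⊤) (B := (latHom uI uP T).range) (fun x hx => hx) (fun x hx => hx)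
    (fun x ⟨y, hy⟩ => hy ▸ latHom_mem T huI huP y) (relIndex_range_latHom T huI huP)
  obtain ⟨hQ1, hQ0⟩ := herbrand_prod (MonoidHom.id Kˣ) (Nat.pos_of_ne_zero hp) hper hstA
  rw [hM0, hM1, hP0, hP1, mul_one, hQ0, hQ1] at hc
  have hone : hOne (MonoidHom.id Kˣ) p (tUnit T) = p := by
    rw [hOne, diffHom_id, normHom_id, show (tUnit T).map (1 : Kˣ →* Kˣ) = ⊥ from le_bot_iff.1 (by
      rintro _ ⟨x, -, rfl⟩; rfl), Subgroup.relIndex_bot_left]
    have e : tUnit T ⊓ (powMonoidHom p : Kˣ →* Kˣ).ker = rootsOfUnity p K := by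
      ext x
      rw [Subgroup.mem_inf, MonoidHom.mem_ker, powMonoidHom_apply, mem_rootsOfUnity]
      refine ⟨fun h => h.2, fun h => ⟨fun v _ => ?_, h⟩⟩
      have := congrArg (ord v) h
      rw [ord_pow, ord_one] at this
      exact (mul_eq_zero.1 this).resolve_left (Nat.cast_ne_zero.2 hp)
    haveI : NeZero p := ⟨hp⟩
    rw [e, hζ.card_rootsOfUnity]
  rw [hone] at hc
  have hfix : hFix (MonoidHom.id Kˣ) p (tUnit T) =
      ((tUnit T).map (powMonoidHom p)).relIndex (tUnit T) := by
    rw [hFix, diffHom_id, normHom_id, MonoidHom.ker_one, inf_top_eq]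
  rw [← hfix]
  refine Nat.eq_of_mul_eq_mul_right (Nat.pos_of_ne_zero hp) (hc.trans ?_)
  rw [Finset.prod_const, Finset.card_univ, Fintype.card_sum, Fintype.card_coe]

end FA.ArtinRec
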