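import Fermat.Agent.ExistenceTheorem.SignedReciprocity
import Fermat.Agent.ExistenceTheorem.KummerRamification
import Fermat.Agent.ExistenceTheorem.UnitPowers

/-!
# Local indices and global powers

The product of the local indices at a set containing the primes over `p`, and elements that are
powers near `1` at enough primes are global powers.
-/

set_option autoImplicit false
set_option linter.unusedSectionVars false
set_option linter.style.haveILetI false

noncomputable section

open NumberField NumberField.InfinitePlace IsDedekindDomain Finset WithZero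
open FA.Hecke (IsRayElt coprimeIdeals RayClassGroup rayClass rayClass_eq_iff finite_rayClassGroup)
open FA.Ext (primeIdeal)
open scoped Pointwise nonZeroDivisors Classical

namespace FA.ArtinRec

variable {K : Type*} [Field K] [NumberField K] {p : ℕ} [hp : Fact p.Prime]

/-- The elements positive at an infinite place, no condition at a complex one. -/
def posSub (w : InfinitePlace K) : Subgroup Kˣ where
  carrier := {a | ∀ h : IsReal w, 0 < embedding_of_isReal h (a : K)}
  one_mem' h := by simp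
  mul_mem' {a b} ha hb h := by
    rw [Units.val_mul, map_mul]
    exact mul_pos (ha h) (hb h)
  inv_mem' {a} ha h := by
    rw [Units.val_inv_eq_inv_val, map_inv₀]
    exact inv_pos.2 (ha h)

theorem mem_posSub {w : InfinitePlace K} {a : Kˣ} :
    a ∈ posSub w ↔ ∀ h : IsReal w, 0 < embedding_of_isReal h (a : K) := Iff.rfl

theorem index_posSub (w : InfinitePlace K) :
    (posSub w).index = if IsReal w then 2 else 1 := by
  split_ifs with hw
  · refine Subgroup.index_eq_two_iff.2 ⟨-1, fun b => ?_⟩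
    have hmem : ∀ a : Kˣ, a ∈ posSub w ↔ 0 < embedding_of_isReal hw (a : K) :=
      fun a => ⟨fun h => h hw, fun h _ => h⟩
    rw [hmem, hmem, Units.val_mul, Units.val_neg, Units.val_one, map_mul, map_neg, map_one]
    rcases lt_or_gt_of_ne (show embedding_of_isReal hw (b : K) ≠ 0 by simp) with hb | hb
    · exact Or.inl ⟨by linarith, fun h => lt_asymm hb h⟩
    · exact Or.inr ⟨hb, fun h => by linarith⟩
  · rw [show posSub w = ⊤ from eq_top_iff.2 fun a _ h => absurd h hw, Subgroup.index_top]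

theorem prod_index_posSub :
    ∏ w : InfinitePlace K, (posSub w).index = 2 ^ nrRealPlaces K := by
  simp_rw [index_posSub]
  rw [Finset.prod_ite, Finset.prod_const_one, mul_one, Finset.prod_const, nrRealPlaces,
    Fintype.card_subtype]

variable {ζ : 𝓞 K} (hζ : IsPrimitiveRoot (ζ : K) p)
include hζ

theorem pow_mem_posSub (w : InfinitePlace K) (a : Kˣ) : a ^ p ∈ posSub w := fun h => by
  rw [Units.val_pow_eq_pow_val, map_pow, eq_two_of_isReal hζ h]
  exact pow_two_pos_of_ne_zero (by simp)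

/-- **The product of the local indices.** -/
theorem prod_local_index {T : Finset (HeightOneSpectrum (𝓞 K))}
    (hT : ∀ v : HeightOneSpectrum (𝓞 K), (p : 𝓞 K) ∈ v.asIdeal → v ∈ T) :
    (∏ w : InfinitePlace K, (posSub w).index) *
        ∏ v ∈ T, p * (p * Ideal.absNorm v.asIdeal ^ pExp v p) =
      (p ^ (Fintype.card (InfinitePlace K) + T.card)) ^ 2 := by
  have hp0 : Ideal.span {(p : 𝓞 K)} ≠ ⊥ := by simpa using hp.out.ne_zero
  have hideal : Ideal.span {(p : 𝓞 K)} = ∏ v ∈ T, v.asIdeal ^ pExp v p := by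
    refine ideal_eq_of_ordI hp0 (Finset.prod_ne_zero_iff.2 fun v _ => pow_ne_zero _ v.ne_bot)
      fun u => ?_
    rw [ordI_prod u _ _ fun v _ => pow_ne_zero _ v.ne_bot]
    simp_rw [ordI_pow u (HeightOneSpectrum.ne_bot _), ordI_prime, mul_ite, mul_one, mul_zero]
    rw [Finset.sum_ite_eq]
    split_ifs with h
    · rfl
    · exact pExp_eq_zero u p fun hm => h (hT u hm)
  have hnorm : ∏ v ∈ T, Ideal.absNorm v.asIdeal ^ pExp v p = p ^ Module.finrank ℚ K := by
    rw [← RingOfIntegers.rank, ← Ideal.absNorm_span_natCast, hideal, map_prod]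
    simp_rw [map_pow]
  rw [prod_index_posSub, Finset.prod_mul_distrib, Finset.prod_mul_distrib, hnorm, Finset.prod_const]
  have hd := card_add_two_mul_card_eq_rank (K := K)
  have hc := card_eq_nrRealPlaces_add_nrComplexPlaces (K := K)
  have hr : p = 2 ∨ nrRealPlaces K = 0 := by
    rcases isEmpty_or_nonempty {w : InfinitePlace K // IsReal w} with h | ⟨⟨w⟩⟩
    · exact Or.inr Fintype.card_eq_zero
    · exact Or.inl (eq_two_of_isReal hζ w.2)
  rcases hr with hr | hr
  · rw [hr, ← pow_add, ← pow_add, ← pow_add, ← pow_mul]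
    congr 1
    omega
  · rw [hr, pow_zero, one_mul, ← pow_add, ← pow_add, ← pow_mul]
    congr 1
    omega

omit hζ in
/-- The modulus deep at the primes of a set. -/
def deepModulus (p : ℕ) (D : Finset (HeightOneSpectrum (𝓞 K))) : Ideal (𝓞 K) :=
  ∏ v ∈ D, v.asIdeal ^ (2 * pExp v p + 1)

omit hζ hp in
theorem deepModulus_ne_bot (D : Finset (HeightOneSpectrum (𝓞 K))) :
    deepModulus p D ≠ ⊥ :=
  Finset.prod_ne_zero_iff.2 fun v _ => pow_ne_zero _ v.ne_bot

omit hζ hp in
theorem dvd_deepModulus_iff {D : Finset (HeightOneSpectrum (𝓞 K))}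
    {v : HeightOneSpectrum (𝓞 K)} : v.asIdeal ∣ deepModulus p D ↔ v ∈ D := by
  refine ⟨fun h => ?_, fun h => (dvd_pow_self _ (Nat.succ_ne_zero _)).trans
    (Finset.dvd_prod_of_mem (fun u : HeightOneSpectrum (𝓞 K) => u.asIdeal ^ (2 * pExp u p + 1)) h)⟩
  obtain ⟨u, hu, hd⟩ := v.prime.exists_mem_finset_dvd h
  rwa [show v = u from HeightOneSpectrum.ext
    ((prime_dvd_prime_iff_eq v.prime u.prime).1 (v.prime.dvd_of_dvd_pow hd))]

/-- **Elements deep at a covering set are powers.** -/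
theorem exists_root_of_deep {A D : Finset (HeightOneSpectrum (𝓞 K))}
    (hT : ∀ v : HeightOneSpectrum (𝓞 K), (p : 𝓞 K) ∈ v.asIdeal → v ∈ A ∪ D)
    (hcov : ∀ γ : RayClassGroup (deepModulus p D), ∃ (v : HeightOneSpectrum (𝓞 K))
      (hv : v.asIdeal ⊔ deepModulus p D = ⊤), v ∈ A ∧
        rayClass (deepModulus_ne_bot D) ⟨primeIdeal v, hv⟩ = γ)
    {u : Kˣ} (hu : u ∈ tUnit (A ∪ D))
    (hA : ∀ v ∈ A, u ∈ powSub v p (2 * pExp v p + 1)) : ∃ b : Kˣ, u = b ^ p := by
  set M := KummerField p ({u} : Finset Kˣ)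
  haveI : IsMulCommutative (M ≃ₐ[K] M) := isMulCommutative_kummerField p _ hζ
  have hR : ∀ {P : Kˣ → Prop}, P u → ∀ r ∈ ({u} : Finset Kˣ), P r := fun h r hr => by
    rwa [Finset.mem_singleton.1 hr]
  have hunr : ∀ v, v ∉ D → ¬ IsRam M v := fun v hv => not_isRam_kummerField hζ (hR (by
    by_cases hvA : v ∈ A
    · exact powSub_antitone v p (by
        rw [mul_zExp v p hζ]; have := zExp_le_pExp v p hζ; omega) (hA v hvA)
    · have hvT : v ∉ A ∪ D := by simp [hvA, hv]
      have he : pExp v p = 0 := pExp_eq_zero v p fun hm => hvT (hT v hm)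
      have hc : zExp v ζ = 0 := by have := zExp_le_pExp v p hζ; omega
      rw [hc, mul_zero, mem_powSub_zero, mem_tUnit.1 hu v hvT]
      exact dvd_zero _))
  obtain ⟨𝔫, h𝔫, hiff, ω, hsurj, -, hω⟩ := exists_artinRayHom (K := K) (L := M)
  have hsupp : ∀ v : HeightOneSpectrum (𝓞 K), v.asIdeal ∣ 𝔫 → v ∈ D := fun v hv =>
    by_contra fun h => hunr v h ((hiff v).1 hv)
  have hωp : ∀ γ ∈ (powMonoidHom (α := RayClassGroup 𝔫) p).range, ω γ = 1 := by
    rintro _ ⟨δ, rfl⟩
    rw [powMonoidHom_apply, map_pow, pow_kummerField p _ hζ]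
  have hkill : ∀ (x : 𝓞 K) (hx : IsRayElt (deepModulus p D) x) (I : coprimeIdeals 𝔫),
      I.1.1 = Ideal.span {x} → ω (rayClass h𝔫 I) = 1 := fun x hx I hI => by
    have h1 := rayClass_mem_pow_sup_semi (p := p) h𝔫 Set.univ I (intU x hx.1) (fun v hv => ?_)
      (fun v _ => ?_) (fun w _ h => hx.2.2 _)
    · rw [semiClasses_univ, sup_bot_eq] at h1
      exact hωp _ h1
    · have hmem : intU x hx.1 ∈ nearUnits v (2 * pExp v p + 1) := by
        refine mem_nearUnits_of_le v (Nat.le_add_left _ _) ?_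
        rw [intU_val]
        have h2 : x - 1 ∈ v.asIdeal ^ (2 * pExp v p + 1) := Ideal.le_of_dvd
          (Finset.dvd_prod_of_mem (fun u : HeightOneSpectrum (𝓞 K) =>
            u.asIdeal ^ (2 * pExp u p + 1)) (hsupp v hv)) hx.2.1
        have h3 := (valuation_coe_le_iff v _ _).2 h2
        push_cast at h3 ⊢
        exact h3
      have h4 : intU x hx.1 ∈ powSub v p (2 * pExp v p + 1) := Subgroup.mem_sup_left hmem
      rcases le_total (2 * pExp v p + 1) (ordI v 𝔫) with h | h
      · rwa [← powSub_stable v p hζ h]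
      · exact powSub_antitone v p h h4
    · rw [hI, ← ord_intU_eq_ordI v hx.1, sub_self]
      exact dvd_zero _
  have htriv : ∀ g : M ≃ₐ[K] M, g = 1 := fun g => by
    obtain ⟨v, hv, hvD⟩ := ((infinite_artinAt (L := M) g).sdiff D.finite_toSet).nonempty
    have hvc : v.asIdeal ⊔ deepModulus p D = ⊤ :=
      (sup_eq_top_iff_not_le v _).2 fun h => hvD (dvd_deepModulus_iff.1 (Ideal.dvd_iff_le.2 h))
    obtain ⟨a, hac, haA, hγ⟩ := hcov (rayClass (deepModulus_ne_bot D) ⟨primeIdeal v, hvc⟩)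
    obtain ⟨x, y, hx, hy, hxy⟩ := (rayClass_eq_iff _).1 hγ
    have hcop : ∀ {J : Ideal (𝓞 K)}, J ⊔ deepModulus p D = ⊤ → J ⊔ 𝔫 = ⊤ := fun h =>
      coprime_iff_ordI.2 fun w hw => coprime_iff_ordI.1 h w (dvd_deepModulus_iff.2 (hsupp w hw))
    have hx' : IsSemiRay (deepModulus p D) ∅ x := ⟨hx.1, hx.2.1, fun w hw => absurd hw id⟩
    have hy' : IsSemiRay (deepModulus p D) ∅ y := ⟨hy.1, hy.2.1, fun w hw => absurd hw id⟩
    let Ia : coprimeIdeals 𝔫 := ⟨primeIdeal a, hcop hac⟩
    let Iv : coprimeIdeals 𝔫 := ⟨primeIdeal v, hcop hvc⟩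
    let Ix : coprimeIdeals 𝔫 := ⟨hx'.ideal.1, hcop hx'.sup_eq_top⟩
    let Iy : coprimeIdeals 𝔫 := ⟨hy'.ideal.1, hcop hy'.sup_eq_top⟩
    have heq : Ix * Ia = Iy * Iv := Subtype.ext (Subtype.ext hxy)
    have h1 := congrArg (fun J => ω (rayClass h𝔫 J)) heq
    simp only [map_mul] at h1
    rw [hkill x hx Ix rfl, hkill y hy Iy rfl, one_mul, one_mul, hω, hω] at h1
    simp only [Ia, Iv, artinHom_prime] at h1
    rw [artinAt_kummerField_eq_one hζ le_rfl (hR (hA a haA))] at h1
    exact hv.symm.trans h1.symm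
  obtain ⟨w, hw⟩ := exists_kummerRoot p ({u} : Finset Kˣ) (Finset.mem_singleton_self u)
  obtain ⟨b, hb⟩ := (IsGalois.mem_range_algebraMap_iff_fixed (F := K) w).mpr fun g => by
    rw [htriv g, AlgEquiv.one_apply]
  have hb0 : b ≠ 0 := fun h => by
    rw [← hb, h, map_zero, zero_pow hp.out.ne_zero, eq_comm, map_eq_zero] at hw
    exact u.ne_zero hw
  refine ⟨Units.mk0 b hb0, Units.ext ((algebraMap K M).injective ?_)⟩
  rw [Units.val_pow_eq_pow_val, Units.val_mk0, map_pow, hb]
  exact hw.symm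

end FA.ArtinRec
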