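import Fermat.Agent.ArtinReciprocity.Places
import Mathlib.GroupTheory.FiniteAbelian.Duality
import Mathlib.RingTheory.RootsOfUnity.AlgebraicallyClosed

/-!
# The field of the `p`-th roots of finitely many elements

Over a number field with the `p`-th roots of unity the splitting field of `∏ (X ^ p - r)` is an
abelian extension of exponent `p` whose degree is at least the number of the classes of the `r`
modulo `p`-th powers.
-/

set_option autoImplicit false
set_option linter.unusedSectionVars false
set_option linter.style.haveILetI false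

noncomputable section

open NumberField IsDedekindDomain Polynomial
open scoped Classical

namespace FA.ArtinRec

variable {K : Type*} [Field K] [NumberField K] (p : ℕ) [hp : Fact p.Prime] (R : Finset Kˣ)

/-- The product of the `X ^ p - r`. -/
def kummerPoly : K[X] := ∏ r ∈ R, (X ^ p - C (r : K))

theorem kummerPoly_ne_zero : kummerPoly p R ≠ 0 :=
  Finset.prod_ne_zero_iff.2 fun _ _ => X_pow_sub_C_ne_zero hp.out.pos _

/-- The field of the roots. -/
abbrev KummerField := (kummerPoly p R).SplittingField

instance numberField_kummerField : NumberField (KummerField p R) :=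
  NumberField.of_module_finite K _

instance isGalois_kummerField : IsGalois K (KummerField p R) :=
  haveI : Normal K (KummerField p R) := Normal.of_isSplittingField (kummerPoly p R)
  ⟨⟩

theorem exists_kummerRoot {r : Kˣ} (hr : r ∈ R) :
    ∃ w : KummerField p R, w ^ p = algebraMap K (KummerField p R) r := by
  have h : Splits ((X ^ p - C (r : K)).map (algebraMap K (KummerField p R))) :=
    (SplittingField.splits (kummerPoly p R)).of_dvd
      (Polynomial.map_ne_zero (kummerPoly_ne_zero p R))
      (Polynomial.map_dvd _ (Finset.dvd_prod_of_mem (fun r : Kˣ => X ^ p - C (r : K)) hr))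
  obtain ⟨w, hw⟩ := h.exists_eval_eq_zero (by
    rw [Polynomial.map_sub, Polynomial.map_pow, map_X, map_C,
      degree_X_pow_sub_C hp.out.pos]
    exact_mod_cast hp.out.ne_zero)
  exact ⟨w, by simpa [sub_eq_zero] using hw⟩

/-- An automorphism is determined by the roots. -/
theorem eq_of_agree_roots {σ τ : KummerField p R ≃ₐ[K] KummerField p R}
    (h : ∀ r ∈ R, ∀ w : KummerField p R, w ^ p = algebraMap K (KummerField p R) r → σ w = τ w) :
    σ = τ := by
  refine AlgEquiv.coe_toAlgHom_injective (AlgHom.ext_of_adjoin_eq_top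
    (SplittingField.adjoin_rootSet (kummerPoly p R)) fun w hw => ?_)
  have h2 : aeval w (∏ r ∈ R, (X ^ p - C (r : K))) = 0 := (mem_rootSet.1 hw).2
  rw [map_prod, Finset.prod_eq_zero_iff] at h2
  obtain ⟨r, hr, h2⟩ := h2
  exact h r hr w (by simpa [sub_eq_zero] using h2)

variable {ζ : 𝓞 K} (hζ : IsPrimitiveRoot (ζ : K) p)
include hζ

/-- An automorphism multiplies a root by a root of unity. -/
theorem exists_apply_root {M : Type*} [Field M] [Algebra K M] {a : K} (ha : a ≠ 0) {w : M}
    (hw : w ^ p = algebraMap K M a) (σ : M ≃ₐ[K] M) :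
    ∃ ξ : K, ξ ^ p = 1 ∧ σ w = algebraMap K M ξ * w := by
  have h0 : w ≠ 0 := fun h => by
    rw [h, zero_pow hp.out.ne_zero, eq_comm, map_eq_zero] at hw
    exact ha hw
  have h1 : (σ w / w) ^ p = 1 := by
    rw [div_pow, ← map_pow, hw, σ.commutes, ← hw, div_self (pow_ne_zero _ h0)]
  haveI : NeZero p := ⟨hp.out.ne_zero⟩
  obtain ⟨j, -, hj⟩ := (hζ.map_of_injective (algebraMap K M).injective).eq_pow_of_pow_eq_one h1
  exact ⟨(ζ : K) ^ j, by rw [pow_right_comm, hζ.pow_eq_one, one_pow],
    by rw [map_pow, hj, div_mul_cancel₀ _ h0]⟩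

theorem isMulCommutative_kummerField :
    IsMulCommutative (KummerField p R ≃ₐ[K] KummerField p R) := by
  refine ⟨⟨fun σ τ => eq_of_agree_roots p R fun r _ w hw => ?_⟩⟩
  obtain ⟨a, -, hσ⟩ := exists_apply_root p hζ r.ne_zero hw σ
  obtain ⟨b, -, hτ⟩ := exists_apply_root p hζ r.ne_zero hw τ
  show σ (τ w) = τ (σ w)
  rw [hσ, hτ, map_mul, map_mul, σ.commutes, τ.commutes, hσ, hτ]
  ring

theorem pow_kummerField (σ : KummerField p R ≃ₐ[K] KummerField p R) : σ ^ p = 1 :=
  eq_of_agree_roots p R fun r _ w hw => by
    obtain ⟨a, ha, hσ⟩ := exists_apply_root p hζ r.ne_zero hw σ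
    have h : ∀ n : ℕ, (σ ^ n) w = algebraMap K (KummerField p R) (a ^ n) * w := by
      intro n
      induction n with
      | zero => simp
      | succ n ih =>
        rw [pow_succ, AlgEquiv.mul_apply, hσ, map_mul, (σ ^ n).commutes, ih, pow_succ, map_mul]
        ring
    rw [h, ha, map_one, one_mul]
    rfl

/-- **The classes give characters.** -/
theorem card_le_card_kummerGroup
    (hR : ∀ r ∈ R, ∀ s ∈ R, (∃ b : Kˣ, r / s = b ^ p) → r = s) :
    R.card ≤ Nat.card (KummerField p R ≃ₐ[K] KummerField p R) := by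
  set G := KummerField p R ≃ₐ[K] KummerField p R
  haveI := isMulCommutative_kummerField p R hζ
  let _ : CommGroup G := { (inferInstance : Group G) with mul_comm := mul_comm' }
  obtain ⟨ι⟩ : Nonempty (KummerField p R →+* ℂ) :=
    ⟨(Classical.arbitrary (InfinitePlace (KummerField p R))).embedding⟩
  choose w hw using fun r : R => exists_kummerRoot p R r.2
  have hw0 : ∀ r, w r ≠ 0 := fun r h => by
    have h1 := hw r
    rw [h, zero_pow hp.out.ne_zero, eq_comm, map_eq_zero] at h1
    exact r.1.ne_zero h1
  let χ : R → (G →* ℂˣ) := fun r => MonoidHom.toHomUnits (MonoidHom.mk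
    (OneHom.mk (fun σ : G => ι (σ (w r) / w r))
      (show ι ((1 : G) (w r) / w r) = 1 by rw [AlgEquiv.one_apply, div_self (hw0 r), map_one]))
    fun σ τ => by
      obtain ⟨b, -, hτ⟩ := exists_apply_root p hζ r.1.ne_zero (hw r) τ
      show ι (σ (τ (w r)) / w r) = ι (σ (w r) / w r) * ι (τ (w r) / w r)
      rw [← map_mul, hτ, map_mul σ, σ.commutes,
        mul_div_cancel_right₀ _ (hw0 r)]
      congr 1
      ring)
  have hinj : Function.Injective χ := fun r s h => Subtype.ext (hR _ r.2 _ s.2 ?_)
  · rw [← Fintype.card_coe, ← Nat.card_eq_fintype_card,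
      ← CommGroup.card_monoidHom_of_hasEnoughRootsOfUnity G ℂ]
    exact Nat.card_le_card_of_injective χ hinj
  · have hfix : ∀ σ : G, σ (w r / w s) = w r / w s := fun σ => by
      have h1 : σ (w r) / w r = σ (w s) / w s :=
        ι.injective (congrArg Units.val (DFunLike.congr_fun h σ))
      rw [map_div₀]
      have := hw0 r
      have := hw0 s
      have : σ (w s) ≠ 0 := (_root_.map_ne_zero _).2 (hw0 s)
      field_simp at h1 ⊢
      linear_combination h1
    obtain ⟨b, hb⟩ := (IsGalois.mem_range_algebraMap_iff_fixed (F := K) (w r / w s)).mpr hfix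
    have hb0 : b ≠ 0 := fun h0 => div_ne_zero (hw0 r) (hw0 s) (by rw [← hb, h0, map_zero])
    refine ⟨Units.mk0 b hb0, Units.ext ((algebraMap K (KummerField p R)).injective ?_)⟩
    rw [Units.val_div_eq_div_val, Units.val_pow_eq_pow_val, map_div₀, map_pow, Units.val_mk0, hb,
      div_pow, hw, hw]

end FA.ArtinRec
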