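import Fermat.Agent.ExistenceTheorem.ClassField

/-!
# The norm on ray class groups

For a Galois extension `F/K` the norm of ideals gives a homomorphism of ray class groups; it keeps
classes positive above given places, and a class field of `H` has its norms in `H`.
-/

set_option autoImplicit false
set_option linter.unusedSectionVars false
set_option linter.style.haveILetI false

noncomputable section

open NumberField NumberField.InfinitePlace IsDedekindDomain Finset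
open FA.Hecke (IsRayElt coprimeIdeals RayClassGroup rayClass rayClass_eq_iff rayClass_surjective)
open FA.Ext (primeIdeal)
open scoped Pointwise nonZeroDivisors Classical

namespace FA.ArtinRec

variable {K F : Type*} [Field K] [NumberField K] [Field F] [NumberField F] [Algebra K F]
  [IsGalois K F]

variable (F) in
/-- A modulus in the extension. -/
abbrev upMod (𝔪 : Ideal (𝓞 K)) : Ideal (𝓞 F) := 𝔪.map (algebraMap (𝓞 K) (𝓞 F))

theorem upMod_ne_bot {𝔪 : Ideal (𝓞 K)} (h𝔪 : 𝔪 ≠ ⊥) : upMod F 𝔪 ≠ ⊥ :=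
  Ideal.map_ne_bot_of_ne_bot h𝔪

theorem dvd_upMod_iff {𝔪 : Ideal (𝓞 K)} {Q : HeightOneSpectrum (𝓞 F)} :
    Q.asIdeal ∣ upMod F 𝔪 ↔ (belowP K Q).asIdeal ∣ 𝔪 := by
  rw [Ideal.dvd_iff_le, Ideal.dvd_iff_le, Ideal.map_le_iff_le_comap]
  rfl

theorem coprime_upMod_iff {𝔪 : Ideal (𝓞 K)} {Q : HeightOneSpectrum (𝓞 F)} :
    Q.asIdeal ⊔ upMod F 𝔪 = ⊤ ↔ (belowP K Q).asIdeal ⊔ 𝔪 = ⊤ := by
  rw [sup_eq_top_iff_not_le, sup_eq_top_iff_not_le, ← Ideal.dvd_iff_le, ← Ideal.dvd_iff_le,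
    dvd_upMod_iff]

theorem relNorm_coprime {𝔪 : Ideal (𝓞 K)} {J : Ideal (𝓞 F)} (hJ : J ≠ ⊥)
    (h : J ⊔ upMod F 𝔪 = ⊤) : Ideal.relNorm (𝓞 K) J ⊔ 𝔪 = ⊤ :=
  coprime_iff_ordI.2 fun v hv => by
    rw [ordI_relNorm v hJ, Finset.sum_eq_zero fun Q hQ => coprime_iff_ordI.1 h Q
      (dvd_upMod_iff.2 (by rwa [(finite_belowP (L := F) v).mem_toFinset.1 hQ])), mul_zero]

/-- The norm of nonzero ideals. -/
def relNormNZ : (Ideal (𝓞 F))⁰ →* (Ideal (𝓞 K))⁰ where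
  toFun I := ⟨Ideal.relNorm (𝓞 K) I.1,
    mem_nonZeroDivisors_iff_ne_zero.mpr (relNorm_ne_bot (nonZeroDivisors.coe_ne_zero I))⟩
  map_one' := Subtype.ext (map_one (Ideal.relNorm (𝓞 K)))
  map_mul' I J := Subtype.ext (map_mul (Ideal.relNorm (𝓞 K)) I.1 J.1)

/-- The norm on ideals prime to the modulus. -/
def coprimeNorm (𝔪 : Ideal (𝓞 K)) : coprimeIdeals (upMod F 𝔪) →* coprimeIdeals 𝔪 :=
  (relNormNZ.comp (coprimeIdeals (upMod F 𝔪)).subtype).codRestrict (coprimeIdeals 𝔪) fun I =>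
    relNorm_coprime (nonZeroDivisors.coe_ne_zero I.1) I.2

theorem coprimeNorm_coe (𝔪 : Ideal (𝓞 K)) (I : coprimeIdeals (upMod F 𝔪)) :
    (coprimeNorm 𝔪 I).1.1 = Ideal.relNorm (𝓞 K) I.1.1 := rfl

variable {𝔪 : Ideal (𝓞 K)} (h𝔪 : 𝔪 ≠ ⊥)

/-- **The norm on ray class groups.** -/
def rayNorm : RayClassGroup (upMod F 𝔪) →* RayClassGroup 𝔪 :=
  rayLift (upMod_ne_bot h𝔪) ((rayClass h𝔪).comp (coprimeNorm 𝔪)) fun I J h => by
    obtain ⟨x, y, hx, hy, hxy⟩ := (rayClass_eq_iff _).1 h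
    refine (rayClass_eq_iff h𝔪).2 ⟨RingOfIntegers.norm K x, RingOfIntegers.norm K y,
      isRayElt_norm le_rfl hx, isRayElt_norm le_rfl hy, ?_⟩
    rw [coprimeNorm_coe, coprimeNorm_coe, ← span_norm, ← span_norm, ← map_mul, ← map_mul, hxy]

theorem rayNorm_apply (I : coprimeIdeals (upMod F 𝔪)) :
    rayNorm h𝔪 (rayClass (upMod_ne_bot h𝔪) I) = rayClass h𝔪 (coprimeNorm 𝔪 I) :=
  rayLift_apply _ _ _ _

theorem rayNorm_prime (Q : HeightOneSpectrum (𝓞 F)) (hQ : Q.asIdeal ⊔ upMod F 𝔪 = ⊤) :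
    rayNorm h𝔪 (rayClass (upMod_ne_bot h𝔪) ⟨primeIdeal Q, hQ⟩) =
      rayClass h𝔪 ⟨normPrime K Q, relNorm_coprime Q.ne_bot hQ⟩ :=
  rayNorm_apply h𝔪 _

/-- The real places above a set. -/
abbrev placesAbove (F : Type*) [Field F] [Algebra K F] (S : Set (InfinitePlace K)) :
    Set (InfinitePlace F) :=
  {z | z.comap (algebraMap K F) ∈ S}

theorem map_semiClasses_rayNorm_le (S : Set (InfinitePlace K)) :
    (semiClasses (upMod_ne_bot (F := F) h𝔪) (placesAbove F S)).map (rayNorm h𝔪) ≤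
      semiClasses h𝔪 S := by
  rw [semiClasses, MonoidHom.map_closure, Subgroup.closure_le]
  rintro _ ⟨_, ⟨x, hx, rfl⟩, rfl⟩
  have hxF : (x : F) ≠ 0 := RingOfIntegers.coe_ne_zero_iff.mpr hx.1
  have hnx : IsSemiRay 𝔪 S (RingOfIntegers.norm K x) := by
    refine ⟨fun h => hxF (Algebra.norm_eq_zero_iff.1 (congrArg (fun y : 𝓞 K => (y : K)) h :)),
      norm_sub_one_mem hx.2.1, fun w hw hwr => ?_⟩
    refine norm_pos_of_positive_above hxF _ fun ψ hψ => ?_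
    obtain ⟨⟨z, hz⟩, rfl⟩ := FA.Hecke.exists_isReal_embedding ψ
    refine hx.2.2 z (show z.comap (algebraMap K F) ∈ S from ?_) hz
    convert hw using 1
    refine InfinitePlace.ext _ _ fun k => ?_
    rw [InfinitePlace.comap_apply, ← norm_embedding_of_isReal hz, ← norm_embedding_of_isReal hwr,
      ← hψ, RingHom.comp_apply]
  rw [rayNorm_apply, show coprimeNorm 𝔪 hx.ideal = hnx.ideal from
    Subtype.ext (Subtype.ext (span_norm x))]
  exact hnx.rayClass_mem h𝔪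

/-- **The norms from a class field lie in the subgroup.** -/
theorem range_rayNorm_le [IsMulCommutative (F ≃ₐ[K] F)] {S : Set (InfinitePlace K)}
    {H : Subgroup (RayClassGroup 𝔪)} (h : IsClassField F h𝔪 S H) :
    (rayNorm (F := F) h𝔪).range ≤ H := by
  obtain ⟨ω, -, hker, hω⟩ := h.artin
  rintro _ ⟨γ, rfl⟩
  obtain ⟨Q, hQ, -, rfl⟩ := exists_prime_in_class_avoiding (upMod_ne_bot h𝔪) γ Set.finite_empty
  rw [rayNorm_prime, ← hker]
  exact normClasses_le_of_artinHom h𝔪 (fun v hv => by_contra fun hn =>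
    h.unram v ((sup_eq_top_iff_not_le v 𝔪).2 hn) hv) ω hω (rayClass_normPrime_mem h𝔪 Q _)

end FA.ArtinRec
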