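import Fermat.Agent.ExistenceTheorem.Existence

/-!
# Uniqueness and completeness

An abelian extension in which the primes with class in `H` split embeds in the class field of `H`,
so class fields are unique; every abelian extension is a class field.
-/

set_option autoImplicit false
set_option linter.unusedSectionVars false
set_option linter.style.haveILetI false

noncomputable section

open NumberField NumberField.InfinitePlace IsDedekindDomain Finset
open FA.Hecke (IsRayElt coprimeIdeals RayClassGroup rayClass rayClass_eq_iff rayClass_surjective)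
open FA.Ext (primeIdeal)
open scoped Pointwise nonZeroDivisors Classical

namespace FA.ArtinRec

variable {K L E : Type*} [Field K] [NumberField K] [Field L] [NumberField L] [Field E]
  [NumberField E] [Algebra K L] [Algebra K E] [IsGalois K L] [IsGalois K E]
  [IsMulCommutative (L ≃ₐ[K] L)] [IsMulCommutative (E ≃ₐ[K] E)]

/-- An abelian extension split at the split primes of another embeds in it. -/
theorem exists_algHom_of_split {B : Set (HeightOneSpectrum (𝓞 K))} (hB : B.Finite)
    (h : ∀ v, v ∉ B → artinAt L v = 1 → artinAt E v = 1) : Nonempty (E →ₐ[K] L) := by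
  let f : L →ₐ[K] AlgebraicClosure K := IsAlgClosed.lift
  let g : E →ₐ[K] AlgebraicClosure K := IsAlgClosed.lift
  let e : L ≃ₐ[K] f.fieldRange := AlgEquiv.ofInjectiveField f
  let e' : E ≃ₐ[K] g.fieldRange := AlgEquiv.ofInjectiveField g
  haveI : FiniteDimensional K f.fieldRange := e.toLinearEquiv.finiteDimensional
  haveI : FiniteDimensional K g.fieldRange := e'.toLinearEquiv.finiteDimensional
  haveI : NumberField f.fieldRange := NumberField.of_module_finite K f.fieldRange
  haveI : NumberField g.fieldRange := NumberField.of_module_finite K g.fieldRange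
  haveI : IsGalois K f.fieldRange := IsGalois.of_algEquiv e
  haveI : IsGalois K g.fieldRange := IsGalois.of_algEquiv e'
  haveI : IsMulCommutative (f.fieldRange ≃ₐ[K] f.fieldRange) := ⟨⟨fun a b => by
    obtain ⟨a, rfl⟩ := e.autCongr.surjective a
    obtain ⟨b, rfl⟩ := e.autCongr.surjective b
    rw [← map_mul, ← map_mul, mul_comm' a b]⟩⟩
  haveI : IsMulCommutative (g.fieldRange ≃ₐ[K] g.fieldRange) := ⟨⟨fun a b => by
    obtain ⟨a, rfl⟩ := e'.autCongr.surjective a
    obtain ⟨b, rfl⟩ := e'.autCongr.surjective b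
    rw [← map_mul, ← map_mul, mul_comm' a b]⟩⟩
  have hle : g.fieldRange ≤ f.fieldRange := by
    refine le_of_split_subset (hB.union ((finite_isRam K L).union (finite_isRam K E)))
      fun v hv hart => ?_
    simp only [Set.mem_union, Set.mem_ofPred_eq, not_or] at hv
    exact artinAt_eq_one_of_algHom e'.symm.toAlgHom (isRam_of_algHom e'.symm.toAlgHom hv.2.2)
      (h v hv.1 (artinAt_eq_one_of_algHom e.toAlgHom hv.2.1 hart))
  exact ⟨(e.symm.toAlgHom.comp (IntermediateField.inclusion hle)).comp e'.toAlgHom⟩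

variable {𝔪 : Ideal (𝓞 K)} {h𝔪 : 𝔪 ≠ ⊥} {S : Set (InfinitePlace K)}
  {H : Subgroup (RayClassGroup 𝔪)}

/-- **An extension in which the primes of `H` split lies in the class field of `H`.** -/
theorem IsClassField.exists_algHom (hL : IsClassField L h𝔪 S H)
    (hE : ∀ (v : HeightOneSpectrum (𝓞 K)) (hv : v.asIdeal ⊔ 𝔪 = ⊤),
      rayClass h𝔪 ⟨primeIdeal v, hv⟩ ∈ H → artinAt E v = 1) : Nonempty (E →ₐ[K] L) :=
  exists_algHom_of_split (Ideal.finite_factors h𝔪) fun v hv h1 => by
    have hv' : v.asIdeal ⊔ 𝔪 = ⊤ :=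
      (sup_eq_top_iff_not_le v 𝔪).2 fun h => hv (Ideal.dvd_iff_le.2 h)
    exact hE v hv' ((hL.artinAt_eq_one_iff v hv').1 h1)

/-- **Class fields are unique.** -/
theorem IsClassField.nonempty_algEquiv {S' : Set (InfinitePlace K)}
    (hL : IsClassField L h𝔪 S H) (hE : IsClassField E h𝔪 S' H) : Nonempty (E ≃ₐ[K] L) := by
  obtain ⟨f⟩ := hL.exists_algHom fun v hv h => (hE.artinAt_eq_one_iff v hv).2 h
  obtain ⟨g⟩ := hE.exists_algHom fun v hv h => (hL.artinAt_eq_one_iff v hv).2 h
  exact ⟨AlgEquiv.ofBijective f ⟨f.toRingHom.injective,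
    (LinearMap.injective_iff_surjective_of_finrank_eq_finrank (f := f.toLinearMap)
      (le_antisymm (LinearMap.finrank_le_finrank_of_injective (f := f.toLinearMap) f.toRingHom.injective)
        (LinearMap.finrank_le_finrank_of_injective (f := g.toLinearMap) g.toRingHom.injective))).1
      f.toRingHom.injective⟩⟩

variable (K L) in
/-- **Every abelian extension is a class field.** -/
theorem exists_isClassField :
    ∃ (𝔪 : Ideal (𝓞 K)) (h𝔪 : 𝔪 ≠ ⊥),
      IsClassField L h𝔪 Set.univ (normClasses L h𝔪) := by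
  obtain ⟨𝔪, h𝔪, hiff, ω, hsurj, hker, hω⟩ := exists_artinRayHom (K := K) (L := L)
  exact ⟨𝔪, h𝔪, fun v hv hr => (sup_eq_top_iff_not_le v 𝔪).1 hv (Ideal.le_of_dvd ((hiff v).2 hr)),
    fun w hw => absurd (Set.mem_univ w) hw, ω, hsurj, hker, hω⟩

end FA.ArtinRec
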